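import Fermat.Agent.S56.H13_Unr

/-!
# Cluster T / S56, package TW-SELECT, piece D-loc (helper13): `loc_coboundary`

If the class of a cocycle `c` of `M` is locally trivial at `q`, where both `M` and `c` factor
through a finite level `F`, then `c φ ∈ (φ - 1) M` for every `φ` in the decomposition group of
ANY place `A` over `q`.  No Frobenius property and no unramifiedness is needed.
-/

set_option autoImplicit false
set_option linter.unusedSectionVars false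
set_option linter.style.haveILetI false
set_option linter.unusedVariables false

noncomputable section

namespace Fermat.Agent.S56.TWS.H13

open CategoryTheory groupCohomology ExtCitation Fermat.Agent.S56 Fermat.Agent.S56.H13
open Fermat.Agent.Lib.LocalGlobalDense Fermat.Agent.Lib.InertiaConj
open Fermat.Agent.Lib.InertiaBridge Fermat.Agent.Lib.FrobIntegers
open scoped Pointwise

variable {k : Type} [Field k]

/-- Conjugating a coboundary value: if `c ψ = (ψ - 1) m` then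
`c (g ψ g⁻¹) = (g ψ g⁻¹ - 1) (g m - c g)`. -/
theorem cocycle_conj (M : Rep k GQ) (c : cocycles₁ M) (g ψ : GQ) (m : M)
    (h : c ψ = M.ρ ψ m - m) :
    c (g * ψ * g⁻¹) = M.ρ (g * ψ * g⁻¹) (M.ρ g m - c g) - (M.ρ g m - c g) := by
  have e1 : c (g * ψ * g⁻¹) = M.ρ (g * ψ) (c g⁻¹) + c (g * ψ) := cocycle_mul c (g * ψ) g⁻¹
  have e2 : c (g * ψ) = M.ρ g (c ψ) + c g := cocycle_mul c g ψ
  have e3 : c g⁻¹ = - M.ρ g⁻¹ (c g) := cocycle_inv c g
  have e4 : M.ρ (g * ψ) (M.ρ g⁻¹ (c g)) = M.ρ (g * ψ * g⁻¹) (c g) := by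
    rw [map_mul (M.ρ) (g * ψ) g⁻¹]
    rfl
  have e5 : M.ρ g (M.ρ ψ m) = M.ρ (g * ψ * g⁻¹) (M.ρ g m) := by
    have : g * ψ * g⁻¹ * g = g * ψ := by group
    have h1 : M.ρ (g * ψ * g⁻¹) (M.ρ g m) = M.ρ (g * ψ * g⁻¹ * g) m := by
      rw [map_mul (M.ρ) (g * ψ * g⁻¹) g]
      rfl
    rw [h1, this, map_mul (M.ρ) g ψ]
    rfl
  rw [e1, e2, e3, h, map_neg, e4, map_sub, e5, map_sub]
  abel

/-- **D-loc.**  Local triviality at `q` gives `c φ ∈ (φ - 1) M` for `φ` in any decomposition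
group over `q`. -/
theorem loc_coboundary (M : Rep k GQ) (F : IntermediateField ℚ (AlgebraicClosure ℚ))
    [FiniteDimensional ℚ F]
    (hM : ∀ s ∈ F.fixingSubgroup, M.ρ s = 1)
    (c : cocycles₁ M) (hc : ∀ g s : GQ, s ∈ F.fixingSubgroup → c (g * s) = c g)
    (q : Nat.Primes) (A : ValuationSubring (AlgebraicClosure ℚ))
    (hA : A.LiesOverPrime (q : ℕ))
    (φ : GQ) (hφ : φ ∈ A.decompositionSubgroup ℚ)
    (h0 : resAt M q ((H1π M).hom c) = 0) :
    ∃ m : M, c φ = M.ρ φ m - m := by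
  haveI : Fact (q : ℕ).Prime := ⟨q.2⟩
  obtain ⟨m, hm⟩ := exists_coboundary c q h0
  have hA₀ := primeLocalPlace_liesOver q
  obtain ⟨g, hg⟩ := exists_smul_primeUnder (q : ℕ) q.2 (primeLocalPlace q) A hA₀ hA
  -- `ψ = g⁻¹ φ g` lies in the decomposition group of the distinguished place
  have hφ' := (mem_decompositionSubgroup_iff (q : ℕ) q.2 A hA φ).mp hφ
  have hψ : g⁻¹ * φ * g ∈ (primeLocalPlace q).decompositionSubgroup ℚ := by
    rw [mem_decompositionSubgroup_iff (q : ℕ) q.2 (primeLocalPlace q) hA₀]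
    rw [mul_smul, mul_smul, ← hg, hφ', hg, inv_smul_smul]
  have hψD : g⁻¹ * φ * g ∈ (padicPlace (q : ℕ)).decompositionSubgroup ℚ := hψ
  obtain ⟨τ, hτ⟩ := exists_local_lift_field (q : ℕ) (g⁻¹ * φ * g) hψD F
  obtain ⟨g₀, hg₀⟩ : ∃ g₀ : GQ, g₀ = localGaloisToGlobal (q : ℕ) τ := ⟨_, rfl⟩
  have hg₀loc : g₀ = primeLocalToGlobal q τ := hg₀
  have hs : g₀⁻¹ * (g⁻¹ * φ * g) ∈ F.fixingSubgroup := by
    rw [IntermediateField.mem_fixingSubgroup_iff]
    intro x hx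
    show g₀⁻¹ ((g⁻¹ * φ * g) x) = x
    rw [← hτ x hx, ← hg₀]
    exact AlgEquiv.symm_apply_apply g₀ x
  have hψ_eq : g⁻¹ * φ * g = g₀ * (g₀⁻¹ * (g⁻¹ * φ * g)) := by group
  have hcψ : c (g⁻¹ * φ * g) = M.ρ (g⁻¹ * φ * g) m - m := by
    have h1 : c (g⁻¹ * φ * g) = c g₀ := by
      conv_lhs => rw [hψ_eq]
      exact hc g₀ _ hs
    have h2 : M.ρ (g⁻¹ * φ * g) = M.ρ g₀ := by
      conv_lhs => rw [hψ_eq]
      rw [map_mul, hM _ hs, mul_one]
    rw [h1, h2, hg₀loc]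
    exact hm τ
  have hconj := cocycle_conj M c g (g⁻¹ * φ * g) m hcψ
  have hφ_eq : g * (g⁻¹ * φ * g) * g⁻¹ = φ := by group
  rw [hφ_eq] at hconj
  exact ⟨_, hconj⟩

/-- A coboundary value at `g` propagates to the powers of `g`. -/
theorem cocycle_pow_cob (M : Rep k GQ) (c : cocycles₁ M) (g : GQ) (a : M)
    (h : c g = M.ρ g a - a) (n : ℕ) : c (g ^ n) = M.ρ (g ^ n) a - a := by
  induction n with
  | zero =>
    rw [pow_zero, cocycles₁_map_one, map_one]
    show (0 : M) = a - a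
    rw [sub_self]
  | succ n ih =>
    have e1 : c (g ^ (n + 1)) = M.ρ g (c (g ^ n)) + c g := by
      rw [pow_succ']
      exact cocycle_mul c g (g ^ n)
    have e2 : M.ρ (g ^ (n + 1)) a = M.ρ g (M.ρ (g ^ n) a) := by
      rw [pow_succ', map_mul]
      rfl
    rw [e1, ih, h, e2, map_sub]
    abel

/-- **D-loc, final form.**  If moreover `σ` agrees with a power of `φ` on `F`, then
`c σ ∈ (σ - 1) M`. -/
theorem loc_coboundary_of_pow (M : Rep k GQ) (F : IntermediateField ℚ (AlgebraicClosure ℚ))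
    [FiniteDimensional ℚ F]
    (hM : ∀ s ∈ F.fixingSubgroup, M.ρ s = 1)
    (c : cocycles₁ M) (hc : ∀ g s : GQ, s ∈ F.fixingSubgroup → c (g * s) = c g)
    (q : Nat.Primes) (A : ValuationSubring (AlgebraicClosure ℚ))
    (hA : A.LiesOverPrime (q : ℕ))
    (φ : GQ) (hφ : φ ∈ A.decompositionSubgroup ℚ)
    (h0 : resAt M q ((H1π M).hom c) = 0)
    (σ : GQ) (j : ℕ) (hσ : ∀ x ∈ F, (φ ^ j) x = σ x) :
    ∃ m : M, c σ = M.ρ σ m - m := by
  obtain ⟨m, hm⟩ := loc_coboundary M F hM c hc q A hA φ hφ h0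
  have hpow := cocycle_pow_cob M c φ m hm j
  have hs : (φ ^ j)⁻¹ * σ ∈ F.fixingSubgroup := by
    rw [IntermediateField.mem_fixingSubgroup_iff]
    intro x hx
    show (φ ^ j)⁻¹ (σ x) = x
    rw [← hσ x hx]
    exact AlgEquiv.symm_apply_apply (φ ^ j) x
  have hσ_eq : σ = φ ^ j * ((φ ^ j)⁻¹ * σ) := by group
  have h1 : c σ = c (φ ^ j) := by
    conv_lhs => rw [hσ_eq]
    exact hc _ _ hs
  have h2 : M.ρ σ = M.ρ (φ ^ j) := by
    conv_lhs => rw [hσ_eq]
    rw [map_mul, hM _ hs, mul_one]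
  exact ⟨m, by rw [h1, h2]; exact hpow⟩

end Fermat.Agent.S56.TWS.H13
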