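import Fermat.Agent.S56.TWS.Defs
import Fermat.Agent.S56.H27_GlobH0

set_option autoImplicit false

/-!
# Cluster T / S56, package TWS-C2 (helper27): `ad⁰ ρbar (1)`-dual is irreducible

* `exists_char_of_line`     : a stable line in a representation gives a character.
* `finrank_ad0Sub`          : `dim ad⁰ = 3`.
* `ad0_irreducible`         : `ad⁰ ρbar` has no proper nonzero stable subspace.
* `dualTwist_irreducible`   : `(ad⁰ ρbar).dualTwist χ` has no proper nonzero stable subspace.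
* `stmt_irred`              : `Stmt_irred`.
-/

noncomputable section

namespace Fermat.Agent.S56.TWS.H27

open Polynomial IsLocalRing CategoryTheory groupCohomology ExtCitation Fermat.Agent.S53 Module
open Fermat.Agent.S56 Fermat.Agent.S56.H27
open scoped TensorProduct

section Generic

variable {k : Type*} [Field k] {G : Type*} [Group G] {M : Type*} [AddCommGroup M] [Module k M]

/-- A nonzero vector spanning a stable line of a representation gives a character. -/
theorem exists_char_of_vector (ρ : Representation k G M) (x : M) (hx : x ≠ 0)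
    (h : ∀ g : G, ∃ c : k, ρ g x = c • x) :
    ∃ ψ : G →* kˣ, ∀ g : G, ρ g x = (ψ g : k) • x := by
  choose c hc using h
  have hinj : ∀ a b : k, a • x = b • x → a = b := by
    intro a b hab
    have h0 : (a - b) • x = 0 := by rw [sub_smul, hab, sub_self]
    rcases smul_eq_zero.mp h0 with h1 | h1
    · exact sub_eq_zero.mp h1
    · exact absurd h1 hx
  have h1 : c 1 = 1 := by
    apply hinj
    rw [← hc 1, map_one, one_smul]
    rfl
  have hmul : ∀ g h : G, c (g * h) = c g * c h := by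
    intro g h
    apply hinj
    rw [← hc (g * h), map_mul, Module.End.mul_apply, hc h, map_smul, hc g, smul_smul, mul_comm]
  let ψ₀ : G →* k := { toFun := c, map_one' := h1, map_mul' := hmul }
  refine ⟨ψ₀.toHomUnits, fun g => ?_⟩
  rw [MonoidHom.coe_toHomUnits]
  exact hc g

/-- A stable line of a representation gives a nonzero vector and a character. -/
theorem exists_char_of_line (ρ : Representation k G M) (L : Submodule k M)
    (hL : Module.finrank k L = 1) (hstab : ∀ g : G, ∀ x ∈ L, ρ g x ∈ L) :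
    ∃ x : M, x ∈ L ∧ x ≠ 0 ∧ ∃ ψ : G →* kˣ, ∀ g : G, ρ g x = (ψ g : k) • x := by
  obtain ⟨v, hv0, hv⟩ := finrank_eq_one_iff'.mp hL
  have hx0 : (v : M) ≠ 0 := fun h => hv0 (Subtype.ext h)
  refine ⟨v, v.2, hx0, exists_char_of_vector ρ v hx0 fun g => ?_⟩
  obtain ⟨c, hc⟩ := hv ⟨ρ g v, hstab g v v.2⟩
  refine ⟨c, ?_⟩
  have := congrArg Subtype.val hc
  simpa using this.symm

end Generic

section GenericThree

variable {k : Type*} [Field k] {G : Type*} [Group G] {M : Type*} [AddCommGroup M] [Module k M]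
  [FiniteDimensional k M]

omit [FiniteDimensional k M] in
/-- The coannihilator of a subspace of the dual stable under a twisted dual action is stable. -/
theorem coannihilator_stable (ρ : Representation k G M)
    (ρ' : Representation k G (Module.Dual k M)) (χ : G →* kˣ)
    (hρ' : ∀ (g : G) (φ : Module.Dual k M), ρ' g φ = (χ g : k) • (φ ∘ₗ ρ g⁻¹))
    (W : Submodule k (Module.Dual k M)) (hW : ∀ g : G, ∀ φ ∈ W, ρ' g φ ∈ W) :
    ∀ g : G, ∀ x ∈ W.dualCoannihilator, ρ g x ∈ W.dualCoannihilator := by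
  intro g x hx
  rw [Submodule.mem_dualCoannihilator] at hx ⊢
  intro φ hφ
  have h1 := hx _ (hW g⁻¹ φ hφ)
  rw [hρ', inv_inv, LinearMap.smul_apply, LinearMap.comp_apply, smul_eq_mul] at h1
  rcases mul_eq_zero.mp h1 with h2 | h2
  · exact absurd h2 (Units.ne_zero _)
  · exact h2

omit [FiniteDimensional k M] in
/-- The annihilator of a stable subspace is stable under a twisted dual action. -/
theorem annihilator_stable (ρ : Representation k G M)
    (ρ' : Representation k G (Module.Dual k M)) (χ : G →* kˣ)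
    (hρ' : ∀ (g : G) (φ : Module.Dual k M), ρ' g φ = (χ g : k) • (φ ∘ₗ ρ g⁻¹))
    (W : Submodule k M) (hW : ∀ g : G, ∀ x ∈ W, ρ g x ∈ W) :
    ∀ g : G, ∀ φ ∈ W.dualAnnihilator, ρ' g φ ∈ W.dualAnnihilator := by
  intro g φ hφ
  rw [Submodule.mem_dualAnnihilator] at hφ ⊢
  intro x hx
  rw [hρ', LinearMap.smul_apply, LinearMap.comp_apply, hφ _ (hW g⁻¹ x hx), smul_zero]

/-- A `3`-dimensional representation and its twisted dual are irreducible as soon as neither has
a stable line. -/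
theorem irreducible_of_no_line (h3 : Module.finrank k M = 3) (ρ : Representation k G M)
    (ρ' : Representation k G (Module.Dual k M)) (χ : G →* kˣ)
    (hρ' : ∀ (g : G) (φ : Module.Dual k M), ρ' g φ = (χ g : k) • (φ ∘ₗ ρ g⁻¹))
    (hM : ∀ (x : M) (ψ : G →* kˣ), (∀ g : G, ρ g x = (ψ g : k) • x) → x = 0)
    (hD : ∀ (φ : Module.Dual k M) (ψ : G →* kˣ), (∀ g : G, ρ' g φ = (ψ g : k) • φ) → φ = 0) :
    (∀ W : Submodule k M, (∀ g : G, ∀ x ∈ W, ρ g x ∈ W) → W = ⊥ ∨ W = ⊤) ∧
    (∀ W : Submodule k (Module.Dual k M), (∀ g : G, ∀ φ ∈ W, ρ' g φ ∈ W) → W = ⊥ ∨ W = ⊤) := by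
  have h3' : Module.finrank k (Module.Dual k M) = 3 := by rw [Subspace.dual_finrank_eq, h3]
  have noLineM : ∀ L : Submodule k M, Module.finrank k L = 1 →
      (∀ g : G, ∀ x ∈ L, ρ g x ∈ L) → False := by
    intro L hL hst
    obtain ⟨x, _, hx0, ψ, hψ⟩ := exists_char_of_line ρ L hL hst
    exact hx0 (hM x ψ hψ)
  have noLineD : ∀ L : Submodule k (Module.Dual k M), Module.finrank k L = 1 →
      (∀ g : G, ∀ x ∈ L, ρ' g x ∈ L) → False := by
    intro L hL hst
    obtain ⟨x, _, hx0, ψ, hψ⟩ := exists_char_of_line ρ' L hL hst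
    exact hx0 (hD x ψ hψ)
  constructor
  · intro W hW
    by_contra hcon
    push Not at hcon
    obtain ⟨hbot, htop⟩ := hcon
    have hlt : Module.finrank k W < 3 := by
      rw [← h3]
      exact Submodule.finrank_lt htop
    have hpos : Module.finrank k W ≠ 0 := fun h => hbot (Submodule.finrank_eq_zero.mp h)
    have hcases : Module.finrank k W = 1 ∨ Module.finrank k W = 2 := by omega
    rcases hcases with h1 | h2
    · exact noLineM W h1 hW
    · have h4 := Subspace.finrank_add_finrank_dualAnnihilator_eq W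
      rw [h3, h2] at h4
      exact noLineD W.dualAnnihilator (by omega) (annihilator_stable ρ ρ' χ hρ' W hW)
  · intro W hW
    by_contra hcon
    push Not at hcon
    obtain ⟨hbot, htop⟩ := hcon
    have hlt : Module.finrank k W < 3 := by
      rw [← h3']
      exact Submodule.finrank_lt htop
    have hpos : Module.finrank k W ≠ 0 := fun h => hbot (Submodule.finrank_eq_zero.mp h)
    have hcases : Module.finrank k W = 1 ∨ Module.finrank k W = 2 := by omega
    rcases hcases with h1 | h2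
    · exact noLineD W h1 hW
    · have h4 := Subspace.finrank_add_finrank_dualCoannihilator_eq W
      rw [h3, h2] at h4
      exact noLineM W.dualCoannihilator (by omega) (coannihilator_stable ρ ρ' χ hρ' W hW)

end GenericThree

section Dim

variable {k : Type} [Field k] (ρbar : ResidualGaloisRep k)



theorem finrank_ad0Sub (hchar : (2 : k) ≠ 0) : Module.finrank k (ad0Sub ρbar) = 3 := by
  have h1 := LinearMap.finrank_range_add_finrank_ker (LinearMap.trace k ρbar.V)
  have h2 : Module.finrank k (Module.End k ρbar.V) = 4 := by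
    rw [Module.finrank_linearMap, ρbar.finrank_eq]
  have h3 : LinearMap.range (LinearMap.trace k ρbar.V) = ⊤ := by
    rw [LinearMap.range_eq_top]
    apply LinearMap.surjective_of_ne_zero
    intro h
    have h4 := congrArg (fun φ : Module.End k ρbar.V →ₗ[k] k => φ 1) h
    simp only [LinearMap.trace_one, LinearMap.zero_apply, ρbar.finrank_eq] at h4
    apply hchar
    exact_mod_cast h4
  rw [h3, finrank_top, Module.finrank_self, h2] at h1
  show Module.finrank k (LinearMap.ker (LinearMap.trace k ρbar.V)) = 3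
  omega

end Dim

section Irred

variable {k : Type} [Field k] (ρbar : ResidualGaloisRep k)

/-- The hypothesis `hTW` of `Hyp`, as a `Prop` on `ρbar`. -/
def TWHyp : Prop :=
  ∀ (K : Type) [Field K] [Algebra k K] (G : Subgroup GQ), G.index = 2 →
    ∀ V : Submodule K (ρbar.baseChange K).V,
      (∀ σ ∈ G, ∀ x ∈ V, (ρbar.baseChange K).ρ σ x ∈ V) → V = ⊥ ∨ V = ⊤

/-- No nonzero trace-zero endomorphism spans a stable line of `ad⁰ ρbar`. -/
theorem eq_zero_of_ad0_eigen (hchar : (2 : k) ≠ 0) (habs : ρbar.IsAbsolutelyIrreducible)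
    (hTW : TWHyp ρbar) (f₀ : ad0Sub ρbar) (ψ : GQ →* kˣ)
    (h : ∀ g : GQ, (ad0 ρbar).ρ g f₀ = (ψ g : k) • f₀) : f₀ = 0 := by
  apply Subtype.ext
  refine eq_zero_of_twisted ρbar hchar habs hTW ψ⁻¹ f₀.1 f₀.2 fun g => ?_
  have h1 : ρbar.ρ g * f₀.1 * ρbar.ρ g⁻¹ = (ψ g : k) • f₀.1 := congrArg Subtype.val (h g)
  have h2 : ρbar.ρ g * f₀.1 = (ψ g : k) • (f₀.1 * ρbar.ρ g) := by
    have h3 : ρbar.ρ g * f₀.1 * ρbar.ρ g⁻¹ * ρbar.ρ g = (ψ g : k) • f₀.1 * ρbar.ρ g := by
      rw [h1]
    rw [mul_assoc (ρbar.ρ g * f₀.1), rho_inv_mul, mul_one, smul_mul_assoc] at h3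
    exact h3
  rw [h2, smul_smul, MonoidHom.inv_apply, Units.val_inv_eq_inv_val,
    inv_mul_cancel₀ (Units.ne_zero _), one_smul]

/-- No nonzero functional spans a stable line of `(ad⁰ ρbar).dualTwist χ`. -/
theorem eq_zero_of_dualTwist_eigen (hchar : (2 : k) ≠ 0) (habs : ρbar.IsAbsolutelyIrreducible)
    (hTW : TWHyp ρbar) (χ : GQ →* kˣ) (lam : (ad0 ρbar).dualTwist χ) (ψ : GQ →* kˣ)
    (h : ∀ g : GQ, ((ad0 ρbar).dualTwist χ).ρ g lam = (ψ g : k) • lam) : lam = 0 := by
  have hinv := dualTwist_invariants_eq_bot ρbar hchar habs hTW (χ * ψ⁻¹)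
  have hmem : (show (ad0 ρbar).dualTwist (χ * ψ⁻¹) from lam) ∈
      ((ad0 ρbar).dualTwist (χ * ψ⁻¹)).ρ.invariants := by
    rw [Representation.mem_invariants]
    intro g
    have h1 := h g
    rw [Rep.dualTwist_ρ_apply] at h1 ⊢
    rw [MonoidHom.mul_apply, MonoidHom.inv_apply, Units.val_mul, Units.val_inv_eq_inv_val,
      mul_comm, mul_smul]
    have h2 : ((ψ g : k))⁻¹ • ((ψ g : k) • (show Module.Dual k (ad0 ρbar) from lam)) =
        (show Module.Dual k (ad0 ρbar) from lam) := by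
      rw [smul_smul, inv_mul_cancel₀ (Units.ne_zero _), one_smul]
    exact (congrArg (fun φ : Module.Dual k (ad0 ρbar) => ((ψ g : k))⁻¹ • φ) h1).trans h2
  rw [hinv] at hmem
  exact (Submodule.mem_bot k).mp hmem

theorem ad0_dualTwist_irreducible (hchar : (2 : k) ≠ 0) (habs : ρbar.IsAbsolutelyIrreducible)
    (hTW : TWHyp ρbar) (χ : GQ →* kˣ) :
    (∀ W : Submodule k (ad0 ρbar), (∀ g : GQ, ∀ x ∈ W, (ad0 ρbar).ρ g x ∈ W) → W = ⊥ ∨ W = ⊤) ∧
    (∀ W : Submodule k ((ad0 ρbar).dualTwist χ),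
      (∀ g : GQ, ∀ x ∈ W, ((ad0 ρbar).dualTwist χ).ρ g x ∈ W) → W = ⊥ ∨ W = ⊤) := by
  exact irreducible_of_no_line (M := ad0Sub ρbar) (finrank_ad0Sub ρbar hchar) (ad0 ρbar).ρ
    ((ad0 ρbar).dualTwist χ).ρ χ (fun g φ => Rep.dualTwist_ρ_apply (ad0 ρbar) χ g φ)
    (fun x ψ h => eq_zero_of_ad0_eigen ρbar hchar habs hTW x ψ h)
    (fun φ ψ h => eq_zero_of_dualTwist_eigen ρbar hchar habs hTW χ φ ψ h)

/-- `ad⁰ ρbar` has no proper nonzero stable subspace. -/
theorem ad0_irreducible (hchar : (2 : k) ≠ 0) (habs : ρbar.IsAbsolutelyIrreducible)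
    (hTW : TWHyp ρbar) (W : Submodule k (ad0 ρbar))
    (hW : ∀ g : GQ, ∀ x ∈ W, (ad0 ρbar).ρ g x ∈ W) : W = ⊥ ∨ W = ⊤ :=
  (ad0_dualTwist_irreducible ρbar hchar habs hTW 1).1 W hW

/-- `(ad⁰ ρbar).dualTwist χ` has no proper nonzero stable subspace. -/
theorem dualTwist_irreducible (hchar : (2 : k) ≠ 0) (habs : ρbar.IsAbsolutelyIrreducible)
    (hTW : TWHyp ρbar) (χ : GQ →* kˣ) (W : Submodule k ((ad0 ρbar).dualTwist χ))
    (hW : ∀ g : GQ, ∀ x ∈ W, ((ad0 ρbar).dualTwist χ).ρ g x ∈ W) : W = ⊥ ∨ W = ⊤ :=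
  (ad0_dualTwist_irreducible ρbar hchar habs hTW χ).2 W hW

end Irred

theorem two_ne_zero_of_hyp {𝒪 : Type} [CommRing 𝒪] [IsLocalRing 𝒪]
    (p : ℕ) [Fact p.Prime] [CharP (ResidueField 𝒪) p] (hp2 : p ≠ 2) :
    (2 : ResidueField 𝒪) ≠ 0 := by
  intro h
  have h2 : ((2 : ℕ) : ResidueField 𝒪) = 0 := by exact_mod_cast h
  rw [CharP.cast_eq_zero_iff (ResidueField 𝒪) p] at h2
  have hp : p.Prime := Fact.out
  exact hp2 ((Nat.prime_dvd_prime_iff_eq hp Nat.prime_two).mp h2)

/-- **TWS-C2.** -/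
theorem stmt_irred : Stmt_irred := by
  intro 𝒪 _ _ _ _ _ p _ _ ρbar S Smin hyp W hW
  exact dualTwist_irreducible ρbar (two_ne_zero_of_hyp p hyp.hp2) hyp.habs hyp.hTW
    (cycloK p (ResidueField 𝒪)) W hW

end Fermat.Agent.S56.TWS.H27

end
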