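import Fermat.Agent.S56.TWS.H74_MatDefs
import Fermat.Agent.S56.TWS.H27_Irred

set_option autoImplicit false

/-!
# Cluster T / S56, package TWS-A-tr (helper27): from the matrix form to `Stmt_H1_image`

`stmt_H1_image_of : H74.Stmt_H1_matrix → Stmt_H1_image`.

* `endOf`  : the trace-zero endomorphism `f` attached to a functional `lam` on `ad⁰`,
             `tr (f m) = lam (tzProj m)`; equivariance `endOf_rho`.
* `matR`   : `ρbar` in a basis, as `GQ →* M₂(k)`.
-/

noncomputable section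

namespace Fermat.Agent.S56.TWS.H27

open Polynomial IsLocalRing CategoryTheory groupCohomology ExtCitation Fermat.Agent.S53 Module
open Fermat.Agent.S56 Fermat.Agent.S56.H27
open scoped TensorProduct

section EndOf

variable {k : Type} [Field k] (ρbar : ResidualGaloisRep k)

/-- The trace form as a linear equivalence. -/
def trEquiv : Module.End k ρbar.V ≃ₗ[k] Module.Dual k (Module.End k ρbar.V) :=
  LinearEquiv.ofBijective (trForm ρbar) ⟨trForm_injective ρbar, trForm_surjective ρbar⟩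

theorem trEquiv_apply (f m : Module.End k ρbar.V) :
    trEquiv ρbar f m = LinearMap.trace k ρbar.V (f * m) := rfl

/-- The endomorphism attached to a functional on `ad⁰`. -/
def endOf (hchar : (2 : k) ≠ 0) : Module.Dual k (ad0Sub ρbar) →ₗ[k] Module.End k ρbar.V :=
  (trEquiv ρbar).symm.toLinearMap ∘ₗ (tzProj ρbar hchar).dualMap

theorem trace_endOf_mul (hchar : (2 : k) ≠ 0) (lam : Module.Dual k (ad0Sub ρbar))
    (m : Module.End k ρbar.V) :
    LinearMap.trace k ρbar.V (endOf ρbar hchar lam * m) = lam (tzProj ρbar hchar m) := by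
  rw [← trEquiv_apply]
  show (trEquiv ρbar) ((trEquiv ρbar).symm ((tzProj ρbar hchar).dualMap lam)) m = _
  rw [LinearEquiv.apply_symm_apply]
  rfl

theorem tzProj_one (hchar : (2 : k) ≠ 0) : tzProj ρbar hchar 1 = 0 := by
  apply Subtype.ext
  rw [tzProj_coe, tzMap_apply, LinearMap.trace_one, ρbar.finrank_eq, smul_smul]
  have : (2⁻¹ : k) * ((2 : ℕ) : k) = 1 := by
    push_cast
    exact inv_mul_cancel₀ hchar
  rw [this, one_smul, sub_self]
  rfl

theorem trace_endOf (hchar : (2 : k) ≠ 0) (lam : Module.Dual k (ad0Sub ρbar)) :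
    LinearMap.trace k ρbar.V (endOf ρbar hchar lam) = 0 := by
  have h := trace_endOf_mul ρbar hchar lam 1
  rw [mul_one, tzProj_one, map_zero] at h
  exact h

/-- An endomorphism is determined by the functional `m ↦ tr (f m)`. -/
theorem eq_of_trace_mul {f g : Module.End k ρbar.V}
    (h : ∀ m, LinearMap.trace k ρbar.V (f * m) = LinearMap.trace k ρbar.V (g * m)) : f = g := by
  apply trForm_injective ρbar
  ext m
  exact h m

theorem endOf_injective (hchar : (2 : k) ≠ 0) : Function.Injective (endOf ρbar hchar) := by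
  rw [injective_iff_map_eq_zero]
  intro lam h
  apply LinearMap.ext
  intro x
  have h1 := trace_endOf_mul ρbar hchar lam x.1
  rw [h, zero_mul, map_zero, tzProj_of_mem] at h1
  exact h1.symm

theorem ad0Repr_tzProj (hchar : (2 : k) ≠ 0) (g : GQ) (m : Module.End k ρbar.V) :
    ad0Repr ρbar g (tzProj ρbar hchar m) = tzProj ρbar hchar (adRepr ρbar g m) :=
  Subtype.ext (adRepr_tzMap ρbar g m)

/-- Equivariance of `endOf`, explicit form. -/
theorem endOf_twist (hchar : (2 : k) ≠ 0) (a : k) (g : GQ)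
    (lam : Module.Dual k (ad0Sub ρbar)) :
    endOf ρbar hchar (a • (lam ∘ₗ ad0Repr ρbar g⁻¹)) =
      a • (ρbar.ρ g * endOf ρbar hchar lam * ρbar.ρ g⁻¹) := by
  apply eq_of_trace_mul ρbar
  intro m
  rw [trace_endOf_mul, LinearMap.smul_apply, LinearMap.comp_apply,
    ad0Repr_tzProj, ← trace_endOf_mul, smul_mul_assoc, map_smul, adRepr_eq_mul, inv_inv]
  congr 1
  calc LinearMap.trace k ρbar.V (endOf ρbar hchar lam * (ρbar.ρ g⁻¹ * m * ρbar.ρ g))
      = LinearMap.trace k ρbar.V ((endOf ρbar hchar lam * (ρbar.ρ g⁻¹ * m)) * ρbar.ρ g) := by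
        simp only [mul_assoc]
    _ = LinearMap.trace k ρbar.V (ρbar.ρ g * (endOf ρbar hchar lam * (ρbar.ρ g⁻¹ * m))) :=
        LinearMap.trace_mul_comm k _ _
    _ = LinearMap.trace k ρbar.V (ρbar.ρ g * endOf ρbar hchar lam * ρbar.ρ g⁻¹ * m) := by
        simp only [mul_assoc]

/-- Equivariance of `endOf`. -/
theorem endOf_rho (hchar : (2 : k) ≠ 0) (χ : GQ →* kˣ) (g : GQ)
    (lam : (ad0 ρbar).dualTwist χ) :
    endOf ρbar hchar (((ad0 ρbar).dualTwist χ).ρ g lam) =
      (χ g : k) • (ρbar.ρ g * endOf ρbar hchar lam * ρbar.ρ g⁻¹) :=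
  endOf_twist ρbar hchar (χ g : k) g lam

/-- The functional attached to a trace-zero endomorphism. -/
def funOf (f : Module.End k ρbar.V) : Module.Dual k (ad0Sub ρbar) :=
  (trForm ρbar f) ∘ₗ (ad0Sub ρbar).subtype

theorem endOf_funOf (hchar : (2 : k) ≠ 0) (f : Module.End k ρbar.V)
    (hf : LinearMap.trace k ρbar.V f = 0) : endOf ρbar hchar (funOf ρbar f) = f := by
  apply eq_of_trace_mul ρbar
  intro m
  rw [trace_endOf_mul]
  show LinearMap.trace k ρbar.V (f * tzMap ρbar m) = _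
  rw [tzMap_apply, mul_sub, map_sub, mul_smul_comm, mul_smul_comm, mul_one, map_smul, map_smul,
    hf, smul_zero, smul_zero, sub_zero]

end EndOf

section Cyclo

variable (p : ℕ) [Fact p.Prime]

/-- The defining property of the cyclotomic exponent, for all `p`-th roots of unity. -/
theorem map_root_eq_pow (σ : GQ) (μ : AlgebraicClosure ℚ) (hμ : μ ^ p = 1) :
    σ μ = μ ^ (cycloExp p σ) := by
  have : NeZero p := ⟨(Fact.out : p.Prime).ne_zero⟩
  have hu : IsUnit μ := IsUnit.of_pow_eq_one hμ (Fact.out : p.Prime).ne_zero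
  obtain ⟨u, hu'⟩ := hu
  have hmem : u ∈ rootsOfUnity p (AlgebraicClosure ℚ) := by
    rw [mem_rootsOfUnity]
    ext
    rw [Units.val_pow_eq_pow_val, hu', Units.val_one]
    exact hμ
  have := modularCyclotomicCharacter.spec (AlgebraicClosure ℚ) (card_rootsOfUnity_eq_self p)
    (σ : AlgebraicClosure ℚ ≃+* AlgebraicClosure ℚ) hmem
  rw [hu'] at this
  exact this

theorem cycloK_val (k : Type) [Field k] [CharP k p] (σ : GQ) :
    (cycloK p k σ : k) = ((cycloExp p σ : ℕ) : k) := by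
  unfold cycloK
  rw [MonoidHom.comp_apply, Units.coe_map, MonoidHom.coe_coe, coe_cycloChar, map_natCast]

/-- The determinant of `ρbar` is the cyclotomic character. -/
theorem det_eq_cycloK {k : Type} [Field k] [CharP k p] (ρbar : ResidualGaloisRep k)
    (hdet : (GaloisRepAdic.ofResidualGaloisRep ρbar).DetIsCyclotomic p) (σ : GQ) :
    LinearMap.det (ρbar.ρ σ) = (cycloK p k σ : k) := by
  obtain ⟨_, h⟩ := hdet
  have h1 := h 1 σ (cycloExp p σ) (fun μ hμ => by
    rw [pow_one] at hμ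
    exact map_root_eq_pow p σ μ hμ)
  have hpk : ((p ^ 1 : ℕ) : k) = 0 := by
    rw [pow_one]
    exact CharP.cast_eq_zero k p
  rw [hpk, Ideal.span_singleton_zero, Ideal.mem_bot, sub_eq_zero] at h1
  rw [cycloK_val]
  exact h1

/-- For `p` odd there is an automorphism with cyclotomic character `2`. -/
theorem exists_cycloK_eq_two (hp2 : p ≠ 2) (k : Type) [Field k] [CharP k p] :
    ∃ σ : GQ, (cycloK p k σ : k) = 2 := by
  have hp : p.Prime := Fact.out
  have : NeZero p := ⟨hp.ne_zero⟩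
  have : NeZero (p : AlgebraicClosure ℚ) := ⟨Nat.cast_ne_zero.mpr hp.ne_zero⟩
  obtain ⟨ζ₀, hζ⟩ : ∃ ζ₀ : AlgebraicClosure ℚ, IsPrimitiveRoot ζ₀ p :=
    HasEnoughRootsOfUnity.exists_primitiveRoot (AlgebraicClosure ℚ) p
  have hcop : Nat.Coprime 2 p := by
    rw [Nat.coprime_comm, Nat.Prime.coprime_iff_not_dvd hp]
    intro h2
    exact hp2 ((Nat.prime_dvd_prime_iff_eq hp Nat.prime_two).mp h2)
  have hζ2 : IsPrimitiveRoot (ζ₀ ^ 2) p := hζ.pow_of_coprime 2 hcop
  have hmin : minpoly ℚ (ζ₀ ^ 2) = Polynomial.cyclotomic p ℚ :=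
    (Polynomial.cyclotomic_eq_minpoly_rat hζ2 hp.pos).symm
  have hroot : Polynomial.aeval ζ₀ (minpoly ℚ (ζ₀ ^ 2)) = 0 := by
    rw [hmin, Polynomial.aeval_def, Polynomial.eval₂_eq_eval_map, Polynomial.map_cyclotomic]
    exact hζ.isRoot_cyclotomic hp.pos
  have : Algebra.IsAlgebraic ℚ (AlgebraicClosure ℚ) := AlgebraicClosure.isAlgebraic ℚ
  have : IsAlgClosure ℚ (AlgebraicClosure ℚ) := ⟨inferInstance, inferInstance⟩
  have : IsGalois ℚ (AlgebraicClosure ℚ) := inferInstance
  have : Normal ℚ (AlgebraicClosure ℚ) := IsGalois.to_normal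
  have halg : IsAlgebraic ℚ (ζ₀ ^ 2) := Algebra.IsAlgebraic.isAlgebraic _
  obtain ⟨σ, hσ⟩ := minpoly.exists_algEquiv_of_root halg hroot
  refine ⟨σ, ?_⟩
  rw [cycloK_val]
  have h1 : ζ₀ ^ (cycloExp p σ) = ζ₀ ^ 2 := by
    rw [← map_root_eq_pow p σ ζ₀ hζ.pow_eq_one]
    exact hσ
  have h2 : cycloExp p σ ≡ 2 [MOD p] := by
    obtain ⟨u, hu⟩ := hζ.isUnit hp.ne_zero
    have hu' : IsPrimitiveRoot u p := by
      rw [← IsPrimitiveRoot.coe_units_iff, hu]; exact hζ
    rw [← hu, ← Units.val_pow_eq_pow_val, ← Units.val_pow_eq_pow_val, Units.val_inj,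
      pow_eq_pow_iff_modEq, ← hu'.eq_orderOf] at h1
    exact h1
  have h3 := (CharP.natCast_eq_natCast k p).mpr h2
  rw [h3]
  norm_num

end Cyclo

section Mat

variable {k : Type} [Field k] (ρbar : ResidualGaloisRep k)

/-- A basis of `V`. -/
def basisV : Basis (Fin 2) k ρbar.V := Module.finBasisOfFinrankEq k ρbar.V ρbar.finrank_eq

/-- Endomorphisms as matrices. -/
def matEquiv : Module.End k ρbar.V ≃ₐ[k] Matrix (Fin 2) (Fin 2) k :=
  LinearMap.toMatrixAlgEquiv (basisV ρbar)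

theorem matEquiv_eq (f : Module.End k ρbar.V) :
    matEquiv ρbar f = LinearMap.toMatrix (basisV ρbar) (basisV ρbar) f := rfl

theorem trace_matEquiv (f : Module.End k ρbar.V) :
    (matEquiv ρbar f).trace = LinearMap.trace k ρbar.V f := by
  rw [matEquiv_eq, LinearMap.trace_eq_matrix_trace k (basisV ρbar)]

theorem det_matEquiv (f : Module.End k ρbar.V) :
    (matEquiv ρbar f).det = LinearMap.det f := by
  rw [matEquiv_eq, LinearMap.det_toMatrix]

/-- `ρbar` in matrix form. -/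
def matR : GQ →* Matrix (Fin 2) (Fin 2) k :=
  ((matEquiv ρbar : Module.End k ρbar.V →ₐ[k] Matrix (Fin 2) (Fin 2) k) :
    Module.End k ρbar.V →* Matrix (Fin 2) (Fin 2) k).comp ρbar.ρ

theorem matR_apply (g : GQ) : matR ρbar g = matEquiv ρbar (ρbar.ρ g) := rfl

theorem charpoly_rank_two (A : Module.End k ρbar.V) :
    A.charpoly = X ^ 2 - C (LinearMap.trace k ρbar.V A) * X + C (LinearMap.det A) := by
  rw [← LinearMap.charpoly_toMatrix A (basisV ρbar), Matrix.charpoly_fin_two,
    LinearMap.trace_eq_matrix_trace k (basisV ρbar), LinearMap.det_toMatrix]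

theorem trace_det_of_charpoly (A : Module.End k ρbar.V) (α β : k)
    (h : A.charpoly = (X - C α) * (X - C β)) :
    LinearMap.trace k ρbar.V A = α + β ∧ LinearMap.det A = α * β := by
  rw [charpoly_rank_two ρbar A] at h
  have h0 := congrArg (fun q : k[X] => q.coeff 0) h
  have h1 := congrArg (fun q : k[X] => q.coeff 1) h
  have e : (X - C α) * (X - C β) = X ^ 2 - C (α + β) * X + C (α * β) := by
    simp only [map_add, map_mul]; ring
  rw [e] at h0 h1
  simp only [coeff_add, coeff_sub, coeff_X_pow, coeff_C_mul, coeff_X, coeff_C] at h0 h1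
  simp at h0 h1
  exact ⟨by linear_combination -h1, h0⟩

/-- No nonzero nilpotent `n` with `n ρ(x) n = 0` for all `x`. -/
theorem exists_ne_zero_of_nilpotent (habs : ρbar.IsAbsolutelyIrreducible)
    (n : Module.End k ρbar.V) (hn : n ≠ 0) :
    ∃ x : GQ, n * ρbar.ρ x * n ≠ 0 := by
  by_contra hcon
  push Not at hcon
  have hnK : LinearMap.baseChange (AlgebraicClosure k) n ≠ 0 :=
    fun h => hn (baseChange_eq_zero ρbar (AlgebraicClosure k) n h)
  have hrel : ∀ x : GQ, LinearMap.baseChange (AlgebraicClosure k) n *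
      (LinearMap.baseChange (AlgebraicClosure k) (ρbar.ρ x) *
        LinearMap.baseChange (AlgebraicClosure k) n) = 0 := by
    intro x
    rw [← LinearMap.baseChange_mul, ← LinearMap.baseChange_mul, ← mul_assoc, hcon x,
      LinearMap.baseChange_zero]
  let W : Submodule (AlgebraicClosure k) (ρbar.baseChange (AlgebraicClosure k)).V :=
    ⨅ x : GQ, LinearMap.ker (LinearMap.baseChange (AlgebraicClosure k) n ∘ₗ
      LinearMap.baseChange (AlgebraicClosure k) (ρbar.ρ x))
  have hW : ∀ w, w ∈ W ↔ ∀ x : GQ, LinearMap.baseChange (AlgebraicClosure k) n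
      (LinearMap.baseChange (AlgebraicClosure k) (ρbar.ρ x) w) = 0 := by
    intro w
    simp only [W, Submodule.mem_iInf, LinearMap.mem_ker, LinearMap.comp_apply]
  have hstab : ∀ σ : GQ, ∀ w ∈ W, (ρbar.baseChange (AlgebraicClosure k)).ρ σ w ∈ W := by
    intro σ w hw
    rw [hW] at hw ⊢
    intro x
    have h1 := hw (x * σ)
    rw [map_mul, LinearMap.baseChange_mul] at h1
    exact h1
  have hrange : ∀ v, LinearMap.baseChange (AlgebraicClosure k) n v ∈ W := by
    intro v
    rw [hW]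
    intro x
    have h1 := congrArg (fun φ : Module.End (AlgebraicClosure k)
      (AlgebraicClosure k ⊗[k] ρbar.V) => φ v) (hrel x)
    exact h1
  rcases habs W hstab with h | h
  · apply hnK
    ext v
    have h1 := hrange ((1 : AlgebraicClosure k) ⊗ₜ[k] v)
    rw [h, Submodule.mem_bot] at h1
    simpa using h1
  · apply hnK
    apply LinearMap.ext
    intro w
    have h1 : w ∈ W := by rw [h]; trivial
    have h2 := (hW w).mp h1 1
    rw [map_one, LinearMap.baseChange_one] at h2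
    exact h2

/-- The matrix form of `ρbar` satisfies `H74.Irr`. -/
theorem irr_matR (habs : ρbar.IsAbsolutelyIrreducible) : H74.Irr (matR ρbar) := by
  intro N hN0 _
  have hn : (matEquiv ρbar).symm N ≠ 0 := by
    intro h
    apply hN0
    have := congrArg (matEquiv ρbar) h
    rwa [AlgEquiv.apply_symm_apply, map_zero] at this
  obtain ⟨x, hx⟩ := exists_ne_zero_of_nilpotent ρbar habs _ hn
  refine ⟨x, fun h => hx ?_⟩
  apply (matEquiv ρbar).injective
  rw [map_mul, map_mul, AlgEquiv.apply_symm_apply, map_zero, ← matR_apply]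
  exact h

end Mat

section Main

variable {k : Type} [Field k] (ρbar : ResidualGaloisRep k)

/-- `endOf` on the carrier of the representation `ad⁰ ρbar (χ)`-dual. -/
def endOfR (hchar : (2 : k) ≠ 0) (χ : GQ →* kˣ) :
    ((ad0 ρbar).dualTwist χ) →ₗ[k] Module.End k ρbar.V :=
  endOf ρbar hchar

/-- `funOf` with values in the carrier of the representation `ad⁰ ρbar (χ)`-dual. -/
def funOfR (χ : GQ →* kˣ) (f : Module.End k ρbar.V) : (ad0 ρbar).dualTwist χ :=
  funOf ρbar f

theorem trace_endOfR (hchar : (2 : k) ≠ 0) (χ : GQ →* kˣ) (lam : (ad0 ρbar).dualTwist χ) :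
    LinearMap.trace k ρbar.V (endOfR ρbar hchar χ lam) = 0 :=
  trace_endOf ρbar hchar lam

theorem endOfR_injective (hchar : (2 : k) ≠ 0) (χ : GQ →* kˣ) :
    Function.Injective (endOfR ρbar hchar χ) :=
  endOf_injective ρbar hchar

theorem endOfR_rho (hchar : (2 : k) ≠ 0) (χ : GQ →* kˣ) (g : GQ)
    (lam : (ad0 ρbar).dualTwist χ) :
    endOfR ρbar hchar χ (((ad0 ρbar).dualTwist χ).ρ g lam) =
      (χ g : k) • (ρbar.ρ g * endOfR ρbar hchar χ lam * ρbar.ρ g⁻¹) :=
  endOf_rho ρbar hchar χ g lam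

theorem endOfR_funOfR (hchar : (2 : k) ≠ 0) (χ : GQ →* kˣ) (f : Module.End k ρbar.V)
    (hf : LinearMap.trace k ρbar.V f = 0) : endOfR ρbar hchar χ (funOfR ρbar χ f) = f :=
  endOf_funOf ρbar hchar f hf

/-- The matrix cocycle attached to a cocycle of `ad⁰ ρbar (χ)`-dual. -/
def matCoc (hchar : (2 : k) ≠ 0) (χ : GQ →* kˣ) (c : cocycles₁ ((ad0 ρbar).dualTwist χ))
    (g : GQ) : Matrix (Fin 2) (Fin 2) k :=
  matEquiv ρbar (endOfR ρbar hchar χ (c g))

theorem matCoc_apply (hchar : (2 : k) ≠ 0) (χ : GQ →* kˣ)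
    (c : cocycles₁ ((ad0 ρbar).dualTwist χ)) (g : GQ) :
    matCoc ρbar hchar χ c g = matEquiv ρbar (endOfR ρbar hchar χ (c g)) := rfl

theorem matR_inv (g : GQ) : matR ρbar g⁻¹ = matEquiv ρbar (ρbar.ρ g⁻¹) := rfl

theorem matCoc_twCoc (hchar : (2 : k) ≠ 0) (χ : GQ →* kˣ)
    (hdet : ∀ g : GQ, LinearMap.det (ρbar.ρ g) = (χ g : k))
    (c : cocycles₁ ((ad0 ρbar).dualTwist χ))
    (hc : ∀ s : GQ, ρbar.ρ s = 1 → c s = 0) :
    H74.TwCoc (matR ρbar) χ (matCoc ρbar hchar χ c) where
  det := fun g => by rw [matR_apply, det_matEquiv, hdet]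
  tr := fun g => by
    rw [matCoc_apply, trace_matEquiv, trace_endOfR]
  mul := fun g h => by
    have h1 : c (g * h) = ((ad0 ρbar).dualTwist χ).ρ g (c h) + c g :=
      (mem_cocycles₁_iff (c : GQ → (ad0 ρbar).dualTwist χ)).1 c.2 g h
    rw [matCoc_apply, matCoc_apply, matCoc_apply, h1, map_add, endOfR_rho, map_add, map_smul,
      map_mul, map_mul, matR_apply, matR_inv, add_comm]
  ker := fun s hs => by
    have h1 : ρbar.ρ s = 1 := by
      apply (matEquiv ρbar).injective
      rw [map_one, ← matR_apply]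
      exact hs
    rw [matCoc_apply, hc s h1, map_zero, map_zero]

/-- A cocycle of `ad⁰ ρbar (χ)`-dual whose matrix form is a coboundary is a coboundary. -/
theorem coboundary_of_matCoc (hchar : (2 : k) ≠ 0) (χ : GQ →* kˣ)
    (c : cocycles₁ ((ad0 ρbar).dualTwist χ)) (m : Matrix (Fin 2) (Fin 2) k)
    (hm0 : m.trace = 0) (hm : ∀ g, matCoc ρbar hchar χ c g = H74.cobd (matR ρbar) χ m g) :
    ∃ m' : (ad0 ρbar).dualTwist χ, ∀ g : GQ, c g = ((ad0 ρbar).dualTwist χ).ρ g m' - m' := by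
  have hf0 : LinearMap.trace k ρbar.V ((matEquiv ρbar).symm m) = 0 := by
    rw [← trace_matEquiv, AlgEquiv.apply_symm_apply, hm0]
  refine ⟨funOfR ρbar χ ((matEquiv ρbar).symm m), fun g => ?_⟩
  apply endOfR_injective ρbar hchar χ
  apply (matEquiv ρbar).injective
  have h1 := hm g
  rw [H74.cobd, matCoc_apply] at h1
  rw [map_sub, endOfR_rho, endOfR_funOfR ρbar hchar χ _ hf0, map_sub, map_smul, map_mul, map_mul,
    AlgEquiv.apply_symm_apply, ← matR_apply, ← matR_inv]
  exact h1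

end Main

/-- **TWS-A-tr.** The matrix form of TWS-A implies `Stmt_H1_image`. -/
theorem stmt_H1_image_of (hM : H74.Stmt_H1_matrix) : Stmt_H1_image := by
  intro 𝒪 _ _ _ _ _ p _ _ ρbar S Smin hyp c hc
  have hchar : (2 : ResidueField 𝒪) ≠ 0 := two_ne_zero_of_hyp p hyp.hp2
  let _ : Fintype (ResidueField 𝒪) := Fintype.ofFinite _
  have hdet := det_eq_cycloK p ρbar hyp.hdet
  have hTw := matCoc_twCoc ρbar hchar (cycloK p (ResidueField 𝒪)) hdet c hc
  have hsplit : ∀ g : GQ, ∃ α β : ResidueField 𝒪,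
      (matR ρbar g).trace = α + β ∧ (matR ρbar g).det = α * β := by
    intro g
    obtain ⟨α, β, h⟩ := hyp.hsplit g
    refine ⟨α, β, ?_⟩
    rw [matR_apply, trace_matEquiv, det_matEquiv]
    exact trace_det_of_charpoly ρbar _ α β h
  have h5 : p = 5 → ∃ γ : GQ, (cycloK p (ResidueField 𝒪) γ : ResidueField 𝒪) ^ 2 ≠ 1 := by
    intro hp5
    obtain ⟨σ, hσ⟩ := exists_cycloK_eq_two p hyp.hp2 (ResidueField 𝒪)
    refine ⟨σ, ?_⟩
    rw [hσ]
    intro h
    have h3 : ((3 : ℕ) : ResidueField 𝒪) = 0 := by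
      push_cast
      linear_combination h
    rw [CharP.cast_eq_zero_iff (ResidueField 𝒪) p, hp5] at h3
    omega
  obtain ⟨m, hm0, hm⟩ := hM (ResidueField 𝒪) p hyp.hp2 GQ (matR ρbar)
    (cycloK p (ResidueField 𝒪)) (matCoc ρbar hchar (cycloK p (ResidueField 𝒪)) c) hTw hsplit h5
    (irr_matR ρbar hyp.habs)
  exact coboundary_of_matCoc ρbar hchar (cycloK p (ResidueField 𝒪)) c m hm0 hm

end Fermat.Agent.S56.TWS.H27

end
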