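import Fermat.Agent.S56.LeavesNT

set_option autoImplicit false

/-!
# Cluster T / S56, package TW-SELECT (owner-planner: helper74): exact sub-packages

Plan: `NOTES/plan/T_TWS.md`.  Target: `Stmt_TW_select` (`S56/LeavesNT.lean`).
Notation: `k` the residue field, `M' = tateDual p (ad0 ρbar)`.

* `cycKer p n`      : the elements of `G_ℚ` fixing the `p^(n+1)`-th roots of unity.
* `HasDistinctEig`  : `ρbar σ` has two distinct eigenvalues in `k`.
* `Stmt_H1_image`   (TWS-A, group theory): a cocycle of `M'` vanishing on `ker ρbar` is a coboundary.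
* `Stmt_levKer`     (TWS-B): a cocycle with nonzero class does not vanish on `ker ρbar ∩ cycKer p n`.
* `Stmt_distinct`   (TWS-C1): `cycKer p n` contains an element with distinct eigenvalues.
* `Stmt_irred`      (TWS-C2): `M'` has no proper nonzero stable subspace.
* `Stmt_select`     (TWS-C): the element `σ` of the Chebotarev argument.
* `Stmt_prime`      (TWS-D): Frobenius density gives the prime.
* `Stmt_core`       (TWS-CD): one prime for one class.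
* `Stmt_TW_select` from `Stmt_core` is TWS-E (counting).
-/

noncomputable section

namespace Fermat.Agent.S56.TWS

open Polynomial IsLocalRing CategoryTheory groupCohomology ExtCitation Fermat.Agent.S53 Module

/-- The elements of `G_ℚ` fixing all `p^(n+1)`-th roots of unity. -/
def cycKer (p n : ℕ) : Subgroup GQ where
  carrier := {g | ∀ μ : AlgebraicClosure ℚ, μ ^ p ^ (n + 1) = 1 → g μ = μ}
  mul_mem' := fun {a b} ha hb μ hμ => by
    rw [AlgEquiv.mul_apply, hb μ hμ, ha μ hμ]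
  one_mem' := fun _ _ => rfl
  inv_mem' := fun {a} ha μ hμ => by
    have h := ha μ hμ
    calc a⁻¹ μ = a⁻¹ (a μ) := by rw [h]
      _ = μ := by rw [← AlgEquiv.mul_apply, inv_mul_cancel, AlgEquiv.one_apply]

theorem mem_cycKer {p n : ℕ} {g : GQ} :
    g ∈ cycKer p n ↔ ∀ μ : AlgebraicClosure ℚ, μ ^ p ^ (n + 1) = 1 → g μ = μ := Iff.rfl

/-- `ρbar σ` has two distinct eigenvalues in `k`. -/
def HasDistinctEig {k : Type} [Field k] (ρbar : ResidualGaloisRep k) (σ : GQ) : Prop :=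
  ∃ α β : k, α ≠ β ∧ LinearMap.charpoly (ρbar.ρ σ) = (X - C α) * (X - C β)

/-- **TWS-A** (finite group theory; classification-free, see the plan).  A cocycle of
`ad⁰ ρbar (1)`-dual which vanishes on `ker ρbar` is a coboundary:
`H¹(ρbar(G_ℚ), ad⁰(1)) = 0`. -/
def Stmt_H1_image : Prop :=
  ∀ (𝒪 : Type) [CommRing 𝒪] [IsDomain 𝒪] [IsDiscreteValuationRing 𝒪]
    [IsAdicComplete (maximalIdeal 𝒪) 𝒪] [Finite (ResidueField 𝒪)]
    (p : ℕ) [Fact p.Prime] [CharP (ResidueField 𝒪) p]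
    (ρbar : ResidualGaloisRep (ResidueField 𝒪)) (S Smin : Finset ℕ),
    Hyp 𝒪 p ρbar S Smin →
    ∀ c : cocycles₁ (tateDual p (ad0 ρbar)), (∀ s : GQ, ρbar.ρ s = 1 → c s = 0) →
      ∃ m : tateDual p (ad0 ρbar), ∀ g : GQ, c g = (tateDual p (ad0 ρbar)).ρ g m - m

/-- **TWS-B.** A cocycle of `M'` with nonzero class does not vanish identically on
`ker ρbar ∩ cycKer p n`.  (From TWS-A and GLOB-h0.) -/
def Stmt_levKer : Prop :=
  ∀ (𝒪 : Type) [CommRing 𝒪] [IsDomain 𝒪] [IsDiscreteValuationRing 𝒪]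
    [IsAdicComplete (maximalIdeal 𝒪) 𝒪] [Finite (ResidueField 𝒪)]
    (p : ℕ) [Fact p.Prime] [CharP (ResidueField 𝒪) p]
    (ρbar : ResidualGaloisRep (ResidueField 𝒪)) (S Smin : Finset ℕ),
    Hyp 𝒪 p ρbar S Smin →
    ∀ c : cocycles₁ (tateDual p (ad0 ρbar)), (H1π (tateDual p (ad0 ρbar))).hom c ≠ 0 →
      ∀ n : ℕ, ∃ τ : GQ, τ ∈ cycKer p n ∧ ρbar.ρ τ = 1 ∧ c τ ≠ 0

/-- **TWS-C1.** `cycKer p n` contains an element whose image under `ρbar` has distinct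
eigenvalues.  (From `hTW`, `habs`, `hsplit`.) -/
def Stmt_distinct : Prop :=
  ∀ (𝒪 : Type) [CommRing 𝒪] [IsDomain 𝒪] [IsDiscreteValuationRing 𝒪]
    [IsAdicComplete (maximalIdeal 𝒪) 𝒪] [Finite (ResidueField 𝒪)]
    (p : ℕ) [Fact p.Prime] [CharP (ResidueField 𝒪) p]
    (ρbar : ResidualGaloisRep (ResidueField 𝒪)) (S Smin : Finset ℕ),
    Hyp 𝒪 p ρbar S Smin → ∀ n : ℕ, ∃ g : GQ, g ∈ cycKer p n ∧ HasDistinctEig ρbar g

/-- **TWS-C2.** `M' = ad⁰ ρbar (1)`-dual is an irreducible `k[G_ℚ]`-module.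
(From `H27.eq_zero_of_twisted` and the trace form.) -/
def Stmt_irred : Prop :=
  ∀ (𝒪 : Type) [CommRing 𝒪] [IsDomain 𝒪] [IsDiscreteValuationRing 𝒪]
    [IsAdicComplete (maximalIdeal 𝒪) 𝒪] [Finite (ResidueField 𝒪)]
    (p : ℕ) [Fact p.Prime] [CharP (ResidueField 𝒪) p]
    (ρbar : ResidualGaloisRep (ResidueField 𝒪)) (S Smin : Finset ℕ),
    Hyp 𝒪 p ρbar S Smin →
    ∀ W : Submodule (ResidueField 𝒪) (tateDual p (ad0 ρbar)),
      (∀ (g : GQ), ∀ x ∈ W, (tateDual p (ad0 ρbar)).ρ g x ∈ W) → W = ⊥ ∨ W = ⊤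

/-- **TWS-C.** For a cocycle with nonzero class and every `n` there is `σ` fixing the
`p^(n+1)`-th roots of unity, with distinct eigenvalues, such that the restriction of the class to
the procyclic group generated by `σ` is nonzero: `c σ ∉ (σ - 1) M'`. -/
def Stmt_select : Prop :=
  ∀ (𝒪 : Type) [CommRing 𝒪] [IsDomain 𝒪] [IsDiscreteValuationRing 𝒪]
    [IsAdicComplete (maximalIdeal 𝒪) 𝒪] [Finite (ResidueField 𝒪)]
    (p : ℕ) [Fact p.Prime] [CharP (ResidueField 𝒪) p]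
    (ρbar : ResidualGaloisRep (ResidueField 𝒪)) (S Smin : Finset ℕ),
    Hyp 𝒪 p ρbar S Smin →
    ∀ c : cocycles₁ (tateDual p (ad0 ρbar)), (H1π (tateDual p (ad0 ρbar))).hom c ≠ 0 →
      ∀ n : ℕ, ∃ σ : GQ, σ ∈ cycKer p n ∧ HasDistinctEig ρbar σ ∧
        ∀ m : tateDual p (ad0 ρbar), c σ ≠ (tateDual p (ad0 ρbar)).ρ σ m - m

/-- **TWS-D.** (Frobenius density `Lib.FrobDensity.H47.stmt_FD2` + local-global glue.)
For a level-constant cocycle `c` and `σ` as in TWS-C there is a prime `q` outside any given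
finite set, `q ≡ 1 mod p^(n+1)`, all of whose Frobenius elements have distinct eigenvalues, at
which the class of `c` is not locally trivial. -/
def Stmt_prime : Prop :=
  ∀ (𝒪 : Type) [CommRing 𝒪] [IsDomain 𝒪] [IsDiscreteValuationRing 𝒪]
    [IsAdicComplete (maximalIdeal 𝒪) 𝒪] [Finite (ResidueField 𝒪)]
    (p : ℕ) [Fact p.Prime] [CharP (ResidueField 𝒪) p]
    (ρbar : ResidualGaloisRep (ResidueField 𝒪)) (S Smin : Finset ℕ),
    Hyp 𝒪 p ρbar S Smin →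
    ∀ c : cocycles₁ (tateDual p (ad0 ρbar)),
      IsLevelConstant₁ (MonoidHom.id GQ) (c : GQ → tateDual p (ad0 ρbar)) →
      ∀ (n : ℕ) (σ : GQ), σ ∈ cycKer p n → HasDistinctEig ρbar σ →
        (∀ m : tateDual p (ad0 ρbar), c σ ≠ (tateDual p (ad0 ρbar)).ρ σ m - m) →
        ∀ S' : Finset ℕ, ∃ q : Nat.Primes, (q : ℕ) ∉ S' ∧ (q : ℕ) ∉ S ∧
          p ^ (n + 1) ∣ (q : ℕ) - 1 ∧
          (∀ P : ValuationSubring (AlgebraicClosure ℚ), P.LiesOverPrime (q : ℕ) →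
            ∀ φ : GQ, P.IsFrobeniusAt φ (q : ℕ) → HasDistinctEig ρbar φ) ∧
          resAt (tateDual p (ad0 ρbar)) q ((H1π (tateDual p (ad0 ρbar))).hom c) ≠ 0

/-- **TWS-CD.** One Taylor-Wiles prime for one nonzero continuous class. -/
def Stmt_core : Prop :=
  ∀ (𝒪 : Type) [CommRing 𝒪] [IsDomain 𝒪] [IsDiscreteValuationRing 𝒪]
    [IsAdicComplete (maximalIdeal 𝒪) 𝒪] [Finite (ResidueField 𝒪)]
    (p : ℕ) [Fact p.Prime] [CharP (ResidueField 𝒪) p]
    (ρbar : ResidualGaloisRep (ResidueField 𝒪)) (S Smin : Finset ℕ),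
    Hyp 𝒪 p ρbar S Smin →
    ∀ ξ : H1 (tateDual p (ad0 ρbar)),
      ξ ∈ continuousH1 (MonoidHom.id GQ) (tateDual p (ad0 ρbar)) → ξ ≠ 0 →
      ∀ (n : ℕ) (S' : Finset ℕ), ∃ q : Nat.Primes, (q : ℕ) ∉ S' ∧ (q : ℕ) ∉ S ∧
        p ^ (n + 1) ∣ (q : ℕ) - 1 ∧
        (∀ P : ValuationSubring (AlgebraicClosure ℚ), P.LiesOverPrime (q : ℕ) →
          ∀ φ : GQ, P.IsFrobeniusAt φ (q : ℕ) → HasDistinctEig ρbar φ) ∧
        resAt (tateDual p (ad0 ρbar)) q ξ ≠ 0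

/-- TWS-CD from TWS-C and TWS-D. -/
theorem stmt_core_of (hC : Stmt_select) (hD : Stmt_prime) : Stmt_core := by
  intro 𝒪 _ _ _ _ _ p _ _ ρbar S Smin hyp ξ hξ hξ0 n S'
  obtain ⟨c, hc, rfl⟩ := (mem_continuousH1_iff _ _ _).1 hξ
  obtain ⟨σ, hσ, hdist, hne⟩ := hC 𝒪 p ρbar S Smin hyp c hξ0 n
  exact hD 𝒪 p ρbar S Smin hyp c hc n σ hσ hdist hne S'

end Fermat.Agent.S56.TWS

end
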