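import Fermat.Agent.S56.TWS.FinalOf
import Fermat.Agent.S56.TWS.H27_Tr

set_option autoImplicit false

/-!
# TW-SELECT: final statement (helper74, assembly)

`stmt_TW_select : Stmt_TW_select`, unconditional.  Contributors: helper1 (TWS-C, TWS-E, averaging),
helper13 (D-loc), helper27 (TWS-C2, translation), helper59 (TWS-C1, TWS-B), helper64 (TWS-D, N34),
helper74 (plan, matrix layer of TWS-A), helper47 (Frobenius density bridge).
-/

namespace Fermat.Agent.S56.TWS

/-- **TWS-A**: `H¹(ρbar(G_ℚ), ad⁰ ρbar (1)) = 0`. -/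
theorem stmt_H1_image : Stmt_H1_image := H27.stmt_H1_image_of H74.stmt_H1_matrix

/-- **TWS-B**. -/
theorem stmt_levKer : Stmt_levKer := H59.stmt_levKer_of stmt_H1_image

/-- **TWS-C**. -/
theorem stmt_select : Stmt_select :=
  H01.stmt_select_of stmt_levKer H59.stmt_distinct H27.stmt_irred

/-- **TWS-CD**. -/
theorem stmt_core : Stmt_core := stmt_core_of stmt_select H64.stmt_prime

/-- **TW-SELECT**, unconditional. -/
theorem stmt_TW_select : Stmt_TW_select := H01.stmt_TW_select_of stmt_core

end Fermat.Agent.S56.TWS
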