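import Fermat.Agent.S56.TWS.Defs

set_option autoImplicit false

/-!
# Cluster T / S56, package TW-SELECT, sub-package TWS-E (helper1)

`Stmt_TW_select` from `Stmt_core` (one Taylor-Wiles prime for one nonzero continuous class):
induction on the number of primes.  For `Z' ≤ Z` of dimension `≤ m` and a finite set `S'` there
are `m` distinct Taylor-Wiles primes outside `S'` such that no nonzero class of `Z'` is locally
trivial at all of them: pick `ψ ∈ Z' ∖ 0` (or a fixed `ψ₀ ∈ Z ∖ 0` if `Z' = 0`), a prime `q` with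
`res_q ψ ≠ 0`, and continue with `Z' ∩ ker res_q` and `S' ∪ {q}`.
-/

noncomputable section

namespace Fermat.Agent.S56.TWS.H01

open Polynomial IsLocalRing CategoryTheory groupCohomology ExtCitation Fermat.Agent.S53 Module

section Count

variable {k : Type} [Field k] {H : Type} [AddCommGroup H] [Module k H]

/-- Abstract counting lemma.  `good q` : "q is an admissible prime", `res q` : the local
restriction at `q`.  If every nonzero element of `C` is detected by an admissible prime outside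
any finite set, then for `Z' ≤ Z ≤ C` with `dim Z' ≤ m` (and `Z ≠ 0` if `m ≠ 0`... we ask for a
nonzero `ψ₀ ∈ C`) there are `m` distinct admissible primes outside `S'` detecting `Z'`. -/
theorem exists_family {ι : Type} [DecidableEq ι] {X : ι → Type} [∀ q, AddCommGroup (X q)]
    [∀ q, Module k (X q)] (res : ∀ q, H →ₗ[k] X q) (good : ι → Prop)
    (C : Set H)
    (hcore : ∀ ξ ∈ C, ξ ≠ 0 → ∀ S' : Finset ι, ∃ q, q ∉ S' ∧ good q ∧ res q ξ ≠ 0)
    (ψ₀ : H) (hψ₀ : ψ₀ ∈ C) (hψ₀0 : ψ₀ ≠ 0) :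
    ∀ (m : ℕ) (Z' : Submodule k H) [Module.Finite k Z'], (Z' : Set H) ⊆ C → finrank k Z' ≤ m →
      ∀ S' : Finset ι, ∃ qv : Fin m → ι, Function.Injective qv ∧ (∀ i, qv i ∉ S') ∧
        (∀ i, good (qv i)) ∧ ∀ ξ ∈ Z', (∀ i, res (qv i) ξ = 0) → ξ = 0 := by
  intro m
  induction m with
  | zero =>
    intro Z' _ _ hfin S'
    refine ⟨Fin.elim0, fun i => i.elim0, fun i => i.elim0, fun i => i.elim0, fun ξ hξ _ => ?_⟩
    have h0 : finrank k Z' = 0 := Nat.le_zero.1 hfin
    have hbot : Z' = ⊥ := Submodule.finrank_eq_zero.1 h0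
    rw [hbot] at hξ
    exact (Submodule.mem_bot k).1 hξ
  | succ m ih =>
    intro Z' _ hZ' hfin S'
    -- the class `ψ` to be detected
    obtain ⟨ψ, hψC, hψ0, hψZ⟩ : ∃ ψ : H, ψ ∈ C ∧ ψ ≠ 0 ∧ (Z' ≠ ⊥ → ψ ∈ Z') := by
      by_cases hb : Z' = ⊥
      · exact ⟨ψ₀, hψ₀, hψ₀0, fun h => absurd hb h⟩
      · obtain ⟨ψ, hψ, hψ0⟩ := Submodule.exists_mem_ne_zero_of_ne_bot hb
        exact ⟨ψ, hZ' hψ, hψ0, fun _ => hψ⟩
    obtain ⟨q, hqS', hqgood, hqres⟩ := hcore ψ hψC hψ0 S'
    -- the smaller space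
    let Z'' : Submodule k H := Z' ⊓ LinearMap.ker (res q)
    have hle : Z'' ≤ Z' := inf_le_left
    have : Module.Finite k Z'' := Submodule.finiteDimensional_of_le hle
    have hfin'' : finrank k Z'' ≤ m := by
      by_cases hb : Z' = ⊥
      · have hb'' : Z'' = ⊥ := by
          rw [eq_bot_iff]; exact hle.trans hb.le
        rw [hb'', finrank_bot]
        exact Nat.zero_le m
      · have hlt : Z'' < Z' := by
          refine lt_of_le_of_ne hle fun heq => hqres ?_
          have hψ'' : ψ ∈ Z'' := by rw [heq]; exact hψZ hb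
          exact LinearMap.mem_ker.1 hψ''.2
        have := Submodule.finrank_lt_finrank_of_lt hlt
        omega
    obtain ⟨qv', hinj, hout, hgood, hdet⟩ :=
      ih Z'' (fun x hx => hZ' (hle hx)) hfin'' (insert q S')
    have hne : ∀ i, qv' i ≠ q := fun i h =>
      hout i (by rw [h]; exact Finset.mem_insert_self q S')
    refine ⟨Fin.cons q qv', ?_, ?_, ?_, ?_⟩
    · rw [Fin.cons_injective_iff]
      refine ⟨?_, hinj⟩
      rintro ⟨i, hi⟩
      exact hne i hi
    · intro i
      refine Fin.cases ?_ (fun j => ?_) i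
      · rw [Fin.cons_zero]; exact hqS'
      · rw [Fin.cons_succ]
        exact fun h => hout j (Finset.mem_insert_of_mem h)
    · intro i
      refine Fin.cases ?_ (fun j => ?_) i
      · rw [Fin.cons_zero]; exact hqgood
      · rw [Fin.cons_succ]; exact hgood j
    · intro ξ hξ hres
      have h0 : res q ξ = 0 := by
        have := hres 0
        rwa [Fin.cons_zero] at this
      refine hdet ξ ⟨hξ, LinearMap.mem_ker.2 h0⟩ fun i => ?_
      have := hres i.succ
      rwa [Fin.cons_succ] at this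

end Count

/-- **TWS-E.** `Stmt_TW_select` from `Stmt_core`. -/
theorem stmt_TW_select_of (hcore : Stmt_core) : Stmt_TW_select := by
  intro 𝒪 _ _ _ _ _ p _ _ ρbar S Smin hyp Z _ hZ n
  classical
  have hSprime : ∀ q ∈ S, q.Prime := hyp.hS
  by_cases hZbot : Z = ⊥
  · -- no primes needed
    have h0 : finrank (ResidueField 𝒪) Z = 0 := by rw [hZbot, finrank_bot]
    have hempty : IsEmpty (Fin (finrank (ResidueField 𝒪) Z)) := by
      rw [h0]; infer_instance
    refine ⟨fun i => hempty.elim i, ⟨fun i => hempty.elim i, fun i => hempty.elim i,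
      fun i => hempty.elim i⟩, fun ξ hξ _ => ?_⟩
    rw [hZbot] at hξ
    exact (Submodule.mem_bot _).1 hξ
  · obtain ⟨ψ₀, hψ₀, hψ₀0⟩ := Submodule.exists_mem_ne_zero_of_ne_bot hZbot
    -- admissible primes
    let good : Nat.Primes → Prop := fun q =>
      (q : ℕ) ∉ S ∧ p ^ (n + 1) ∣ (q : ℕ) - 1 ∧
        ∀ P : ValuationSubring (AlgebraicClosure ℚ), P.LiesOverPrime (q : ℕ) →
          ∀ φ : GQ, P.IsFrobeniusAt φ (q : ℕ) → HasDistinctEig ρbar φ
    have hc : ∀ ξ ∈ (Z : Set (H1 (tateDual p (ad0 ρbar)))), ξ ≠ 0 → ∀ S' : Finset Nat.Primes,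
        ∃ q, q ∉ S' ∧ good q ∧ resAt (tateDual p (ad0 ρbar)) q ξ ≠ 0 := by
      intro ξ hξ hξ0 S'
      obtain ⟨q, hq1, hq2, hq3, hq4, hq5⟩ :=
        hcore 𝒪 p ρbar S Smin hyp ξ (hZ hξ) hξ0 n (S'.image fun q : Nat.Primes => (q : ℕ))
      refine ⟨q, fun h => hq1 (Finset.mem_image_of_mem _ h), ⟨hq2, hq3, hq4⟩, hq5⟩
    obtain ⟨qv, hinj, -, hgood, hdet⟩ :=
      exists_family (fun q => resAt (tateDual p (ad0 ρbar)) q) good
        (Z : Set (H1 (tateDual p (ad0 ρbar)))) hc ψ₀ hψ₀ hψ₀0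
        (finrank (ResidueField 𝒪) Z) Z (fun _ h => h) le_rfl ∅
    refine ⟨fun i => ((qv i : Nat.Primes) : ℕ), ⟨?_, ?_, ?_⟩, ?_⟩
    · intro i j hij
      exact hinj (Subtype.ext hij)
    · intro i
      exact ⟨(qv i).2, (hgood i).1, (hgood i).2.1⟩
    · intro i P hP φ hφ
      exact (hgood i).2.2 P hP φ hφ
    · intro ξ hξ hres
      refine hdet ξ hξ fun i => hres (qv i) ?_
      exact Finset.mem_image_of_mem _ (Finset.mem_univ i)

end Fermat.Agent.S56.TWS.H01

end
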