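import Fermat.Agent.S56.TWS.Defs
import Fermat.Agent.S56.H47_Basic
import Fermat.Agent.S56.H59_LocTWh0

set_option autoImplicit false

/-!
# Cluster T / S56, package TW-SELECT, sub-package TWS-C (helper1)

`Stmt_select` from `Stmt_levKer` (TWS-B), `Stmt_distinct` (TWS-C1) and `Stmt_irred` (TWS-C2).

Let `c` be a cocycle of `M' = ad⁰ ρbar (1)`-dual with nonzero class, `H_n = ker ρbar ∩ cycKer p n`.
* `c` is a homomorphism on `H_n` (which acts trivially on `M'`), `c (g τ g⁻¹) = g • c τ`, so the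
  span `W` of `c (H_n)` is stable; it is nonzero by TWS-B, hence `W = M'` by TWS-C2.
* `g₁ ∈ cycKer p n` has distinct eigenvalues (TWS-C1); `x₀ ∈ ad⁰`, `x₀ ≠ 0`, commutes with
  `ρbar g₁`; evaluation at `x₀` kills `(σ - 1) M'` for `σ = g₁` and `σ = τ g₁`, `τ ∈ H_n`.
* some `τ ∈ H_n` has `c τ (x₀) ≠ 0`; then `σ = g₁` or `σ = τ g₁` works.
-/

noncomputable section

namespace Fermat.Agent.S56.TWS.H01

open Polynomial IsLocalRing CategoryTheory groupCohomology ExtCitation Fermat.Agent.S53 Module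

/-- Elements of `cycKer p n` have trivial mod `p` cyclotomic character. -/
theorem cycloK_eq_one_of_mem_cycKer (p n : ℕ) [Fact p.Prime] (k : Type) [Field k] [CharP k p]
    {g : GQ} (hg : g ∈ cycKer p n) : cycloK p k g = 1 := by
  refine H47.cycloK_eq_one_of_fix p k g fun t ht => hg t ?_
  rw [pow_succ', pow_mul, ht, one_pow]

/-- `cycKer p n` is stable under conjugation. -/
theorem conj_mem_cycKer {p n : ℕ} {τ : GQ} (hτ : τ ∈ cycKer p n) (g : GQ) :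
    g * τ * g⁻¹ ∈ cycKer p n := by
  intro μ hμ
  have h1 : (g⁻¹ μ) ^ p ^ (n + 1) = 1 := by rw [← map_pow, hμ, map_one]
  rw [AlgEquiv.mul_apply, AlgEquiv.mul_apply, hτ _ h1, ← AlgEquiv.mul_apply, mul_inv_cancel,
    AlgEquiv.one_apply]

theorem rho_conj_eq_one {k : Type} [Field k] (ρbar : ResidualGaloisRep k) {τ : GQ}
    (hτ : ρbar.ρ τ = 1) (g : GQ) : ρbar.ρ (g * τ * g⁻¹) = 1 := by
  rw [map_mul, map_mul, hτ, mul_one, ← map_mul, mul_inv_cancel, map_one]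

section Cocycle

variable {p : ℕ} [Fact p.Prime] {k : Type} [Field k] [CharP k p] (ρbar : ResidualGaloisRep k)

/-- Elements of `ker ρbar ∩ cycKer p n` act trivially on `M'`. -/
theorem tateDual_ρ_eq_one_of_mem {n : ℕ} {τ : GQ} (hτ : τ ∈ cycKer p n) (h1 : ρbar.ρ τ = 1) :
    (tateDual p (ad0 ρbar)).ρ τ = 1 :=
  H47.tateDual_ρ_eq_one p (ad0 ρbar) τ (H47.ad0_ρ_eq_one ρbar τ h1)
    (cycloK_eq_one_of_mem_cycKer p n k hτ)

theorem cocycle_mul (c : cocycles₁ (tateDual p (ad0 ρbar))) (g h : GQ) :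
    c (g * h) = (tateDual p (ad0 ρbar)).ρ g (c h) + c g :=
  (mem_cocycles₁_iff (c : GQ → tateDual p (ad0 ρbar))).1 c.2 g h

/-- `c (g τ g⁻¹) = g • c τ` when `g τ g⁻¹` acts trivially. -/
theorem cocycle_conj (c : cocycles₁ (tateDual p (ad0 ρbar))) (g τ : GQ)
    (htriv : (tateDual p (ad0 ρbar)).ρ (g * τ * g⁻¹) = 1) :
    c (g * τ * g⁻¹) = (tateDual p (ad0 ρbar)).ρ g (c τ) := by
  have h1 := cocycle_mul ρbar c (g * τ * g⁻¹) g
  have h2 := cocycle_mul ρbar c g τ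
  rw [htriv, Module.End.one_apply] at h1
  have e : g * τ * g⁻¹ * g = g * τ := by group
  rw [e, h2] at h1
  -- h1 : ρ g (c τ) + c g = c g + c (g τ g⁻¹)
  have h3 : (tateDual p (ad0 ρbar)).ρ g (c τ) + c g = c (g * τ * g⁻¹) + c g := by
    rw [h1, add_comm]
  exact (add_right_cancel h3).symm

end Cocycle

/-- **TWS-C.** `Stmt_select` from TWS-B, TWS-C1, TWS-C2. -/
theorem stmt_select_of (hB : Stmt_levKer) (hC1 : Stmt_distinct) (hC2 : Stmt_irred) :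
    Stmt_select := by
  intro 𝒪 _ _ _ _ _ p _ _ ρbar S Smin hyp c hc n
  classical
  -- the space `W`
  let M' := tateDual p (ad0 ρbar)
  let Hn : Set GQ := {τ | τ ∈ cycKer p n ∧ ρbar.ρ τ = 1}
  let W : Submodule (ResidueField 𝒪) M' :=
    Submodule.span (ResidueField 𝒪) ((fun τ => (c : GQ → M') τ) '' Hn)
  have hWstab : ∀ (g : GQ), ∀ x ∈ W, M'.ρ g x ∈ W := by
    intro g x hx
    induction hx using Submodule.span_induction with
    | mem x hx =>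
      obtain ⟨τ, ⟨hτ1, hτ2⟩, rfl⟩ := hx
      have h1 : g * τ * g⁻¹ ∈ cycKer p n := conj_mem_cycKer hτ1 g
      have h2 : ρbar.ρ (g * τ * g⁻¹) = 1 := rho_conj_eq_one ρbar hτ2 g
      have h3 := cocycle_conj ρbar c g τ (tateDual_ρ_eq_one_of_mem ρbar h1 h2)
      refine Submodule.subset_span ⟨g * τ * g⁻¹, ⟨h1, h2⟩, ?_⟩
      exact h3
    | zero => rw [map_zero]; exact W.zero_mem
    | add x y _ _ hx hy => rw [map_add]; exact W.add_mem hx hy
    | smul a x _ hx => rw [map_smul]; exact W.smul_mem a hx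
  obtain ⟨τ₀, hτ₀1, hτ₀2, hτ₀3⟩ := hB 𝒪 p ρbar S Smin hyp c hc n
  have hWtop : W = ⊤ := by
    rcases hC2 𝒪 p ρbar S Smin hyp W hWstab with h | h
    · exfalso
      apply hτ₀3
      have : (c : GQ → M') τ₀ ∈ W := Submodule.subset_span ⟨τ₀, ⟨hτ₀1, hτ₀2⟩, rfl⟩
      rw [h] at this
      exact (Submodule.mem_bot _).1 this
    · exact h
  -- the element `g₁` and the vector `x₀`
  obtain ⟨g₁, hg₁, α, β, hαβ, hchar⟩ := hC1 𝒪 p ρbar S Smin hyp n
  obtain ⟨f₀, hf₀, htr, hcomm, -⟩ :=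
    H59.exists_generator ρbar.finrank_eq (ρbar.ρ g₁) α β hαβ hchar
  let x₀ : ad0 ρbar := (⟨f₀, by
    show f₀ ∈ LinearMap.ker _
    rw [LinearMap.mem_ker]; exact htr⟩ : ad0Sub ρbar)
  have hx₀ : x₀ ≠ 0 := by
    intro h
    apply hf₀
    exact congrArg Subtype.val h
  -- `x₀` is fixed by `g₁⁻¹`
  have hfix : (ad0 ρbar).ρ g₁⁻¹ x₀ = x₀ := by
    apply H47.ad0Val_injective ρbar
    rw [H47.ad0Val_ρ_apply, inv_inv]
    show ρbar.ρ g₁⁻¹ * f₀ * ρbar.ρ g₁ = f₀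
    have h1 : f₀ * ρbar.ρ g₁ = ρbar.ρ g₁ * f₀ := hcomm (ρbar.ρ g₁) rfl |>.symm ▸ rfl
    have h2 : ρbar.ρ g₁⁻¹ * ρbar.ρ g₁ = 1 := by rw [← map_mul, inv_mul_cancel, map_one]
    rw [mul_assoc, h1, ← mul_assoc, h2, one_mul]
  -- evaluation at `x₀`
  let e : M' →ₗ[ResidueField 𝒪] ResidueField 𝒪 :=
    Module.Dual.eval (ResidueField 𝒪) (ad0 ρbar) x₀
  have he : ∀ f : M', e f = (f : Module.Dual (ResidueField 𝒪) (ad0 ρbar)) x₀ := fun f => rfl
  -- `e` kills `(σ - 1) M'` for every `σ` acting as `g₁`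
  have hkill : ∀ σ : GQ, M'.ρ σ = M'.ρ g₁ → ∀ m : M', e (M'.ρ σ m - m) = 0 := by
    intro σ hσ m
    rw [hσ, map_sub, he, he, H47.tateDual_ρ_apply,
      cycloK_eq_one_of_mem_cycKer p n (ResidueField 𝒪) hg₁, Units.val_one, one_smul,
      LinearMap.comp_apply, hfix, sub_self]
  -- some `τ ∈ H_n` with `e (c τ) ≠ 0`
  have hτ : ∃ τ : GQ, τ ∈ cycKer p n ∧ ρbar.ρ τ = 1 ∧ e ((c : GQ → M') τ) ≠ 0 := by
    by_contra hcon
    have hle : W ≤ LinearMap.ker e := by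
      refine Submodule.span_le.2 ?_
      rintro _ ⟨τ, ⟨hτ1, hτ2⟩, rfl⟩
      refine LinearMap.mem_ker.2 ?_
      by_contra h0
      exact hcon ⟨τ, hτ1, hτ2, h0⟩
    rw [hWtop, top_le_iff, LinearMap.ker_eq_top] at hle
    obtain ⟨f, hf⟩ := (Module.forall_dual_apply_eq_zero_iff (ResidueField 𝒪) x₀).not.2 hx₀ |>
      not_forall.1
    exact hf (LinearMap.congr_fun hle f)
  obtain ⟨τ, hτ1, hτ2, hτ3⟩ := hτ
  by_cases hg : e ((c : GQ → M') g₁) = 0
  · -- `σ = τ g₁`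
    have hact : M'.ρ (τ * g₁) = M'.ρ g₁ := by
      rw [map_mul, tateDual_ρ_eq_one_of_mem ρbar hτ1 hτ2, one_mul]
    refine ⟨τ * g₁, (cycKer p n).mul_mem hτ1 hg₁, ⟨α, β, hαβ, ?_⟩, fun m hm => ?_⟩
    · rw [map_mul, hτ2, one_mul]; exact hchar
    · have h1 := cocycle_mul ρbar c τ g₁
      rw [tateDual_ρ_eq_one_of_mem ρbar hτ1 hτ2, Module.End.one_apply] at h1
      have h2 : e ((c : GQ → M') (τ * g₁)) = 0 := by
        rw [hm]; exact hkill (τ * g₁) hact m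
      rw [h1, map_add, hg, zero_add] at h2
      exact hτ3 h2
  · refine ⟨g₁, hg₁, ⟨α, β, hαβ, hchar⟩, fun m hm => hg ?_⟩
    rw [hm]; exact hkill g₁ rfl m

end Fermat.Agent.S56.TWS.H01

end
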