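import Mathlib
import Fermat.Agent.S56.TWS.Defs
import Fermat.Agent.S56.H27_GlobH0

/-!
# Cluster T / S56, package TWS-C1 (helper59): an element with distinct eigenvalues

`cycKer p n` contains an element whose image under `ρbar` has two distinct eigenvalues.
-/

set_option autoImplicit false
set_option linter.unusedSectionVars false
set_option linter.unusedVariables false
set_option linter.style.haveILetI false

noncomputable section

namespace Fermat.Agent.S56.TWS.H59

open Polynomial Module ExtCitation IsLocalRing Fermat.Agent.S56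

section Roots

/-- Two automorphisms of `ℚ̄` commute on roots of unity. -/
theorem comm_on_roots (N : ℕ) [NeZero N] (g h : GQ) (μ : AlgebraicClosure ℚ)
    (hμ : μ ^ N = 1) : g (h μ) = h (g μ) := by
  obtain ⟨a, ha⟩ := rootsOfUnity.integer_power_of_ringEquiv N (g : GQ).toRingEquiv
  obtain ⟨b, hb⟩ := rootsOfUnity.integer_power_of_ringEquiv N (h : GQ).toRingEquiv
  let t : rootsOfUnity N (AlgebraicClosure ℚ) := rootsOfUnity.mkOfPowEq μ hμ
  have ht : ((t : (AlgebraicClosure ℚ)ˣ) : AlgebraicClosure ℚ) = μ :=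
    rootsOfUnity.coe_mkOfPowEq hμ
  have h1 : h μ = (((t ^ b : rootsOfUnity N (AlgebraicClosure ℚ)) :
      (AlgebraicClosure ℚ)ˣ) : AlgebraicClosure ℚ) := by
    rw [← ht]; exact hb t
  have h2 : g μ = (((t ^ a : rootsOfUnity N (AlgebraicClosure ℚ)) :
      (AlgebraicClosure ℚ)ˣ) : AlgebraicClosure ℚ) := by
    rw [← ht]; exact ha t
  rw [h1, h2]
  have h3 := ha (t ^ b)
  have h4 := hb (t ^ a)
  have h5 : g (((t ^ b : rootsOfUnity N (AlgebraicClosure ℚ)) :
      (AlgebraicClosure ℚ)ˣ) : AlgebraicClosure ℚ) =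
      ((((t ^ b) ^ a : rootsOfUnity N (AlgebraicClosure ℚ)) :
      (AlgebraicClosure ℚ)ˣ) : AlgebraicClosure ℚ) := h3
  have h6 : h (((t ^ a : rootsOfUnity N (AlgebraicClosure ℚ)) :
      (AlgebraicClosure ℚ)ˣ) : AlgebraicClosure ℚ) =
      ((((t ^ a) ^ b : rootsOfUnity N (AlgebraicClosure ℚ)) :
      (AlgebraicClosure ℚ)ˣ) : AlgebraicClosure ℚ) := h4
  rw [h5, h6, zpow_comm]

variable (p n : ℕ) [Fact p.Prime]

theorem map_root_pow (g : GQ) (μ : AlgebraicClosure ℚ) (hμ : μ ^ p ^ (n + 1) = 1) :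
    (g μ) ^ p ^ (n + 1) = 1 := by
  rw [← map_pow, hμ, map_one]

/-- `cycKer p n` is stable under conjugation. -/
theorem conj_mem_cycKer (g x : GQ) (hx : x ∈ cycKer p n) : g * x * g⁻¹ ∈ cycKer p n := by
  intro μ hμ
  have h1 : (g⁻¹ μ) ^ p ^ (n + 1) = 1 := map_root_pow p n g⁻¹ μ hμ
  show g (x (g⁻¹ μ)) = μ
  rw [hx _ h1]
  show (g * g⁻¹) μ = μ
  rw [mul_inv_cancel]; rfl

/-- Commutators lie in `cycKer p n`. -/
theorem commutator_mem_cycKer (g h : GQ) : g * h * g⁻¹ * h⁻¹ ∈ cycKer p n := by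
  intro μ hμ
  haveI : NeZero (p ^ (n + 1)) := ⟨pow_ne_zero _ (Fact.out : p.Prime).ne_zero⟩
  have h1 : (h⁻¹ μ) ^ p ^ (n + 1) = 1 := map_root_pow p n h⁻¹ μ hμ
  have h2 : (g⁻¹ (h⁻¹ μ)) ^ p ^ (n + 1) = 1 := map_root_pow p n g⁻¹ _ h1
  show g (h (g⁻¹ (h⁻¹ μ))) = μ
  rw [comm_on_roots (p ^ (n + 1)) g h _ h2]
  have h3 : g (g⁻¹ (h⁻¹ μ)) = h⁻¹ μ := by
    show (g * g⁻¹) (h⁻¹ μ) = _
    rw [mul_inv_cancel]; rfl
  rw [h3]
  show (h * h⁻¹) μ = μ
  rw [mul_inv_cancel]; rfl

end Roots

section LinAlg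

variable {k V : Type*} [Field k] [AddCommGroup V] [Module k V] [Module.Finite k V]

/-- The characteristic polynomial in rank 2. -/
theorem charpoly_eq_two (hV : finrank k V = 2) (A : Module.End k V) :
    A.charpoly = X ^ 2 - C (LinearMap.trace k V A) * X + C (LinearMap.det A) := by
  let b : Basis (Fin 2) k V := Module.finBasisOfFinrankEq k V hV
  rw [← LinearMap.charpoly_toMatrix A b, Matrix.charpoly_fin_two,
    LinearMap.trace_eq_matrix_trace k b, LinearMap.det_toMatrix]

/-- Cayley-Hamilton in rank 2. -/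
theorem cayley_two (hV : finrank k V = 2) (A : Module.End k V) :
    A * A = (LinearMap.trace k V A) • A - (LinearMap.det A) • (1 : Module.End k V) := by
  have h := LinearMap.aeval_self_charpoly A
  rw [charpoly_eq_two hV A] at h
  simp only [map_add, map_sub, map_mul, aeval_X, aeval_C, pow_two,
    Algebra.algebraMap_eq_smul_one] at h
  rw [smul_mul_assoc, one_mul] at h
  rw [← sub_eq_zero]
  rw [← h]
  abel

/-- Trace and determinant from a split characteristic polynomial. -/
theorem trace_det_of_split (hV : finrank k V = 2) (A : Module.End k V) (α β : k)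
    (h : A.charpoly = (X - C α) * (X - C β)) :
    LinearMap.trace k V A = α + β ∧ LinearMap.det A = α * β := by
  rw [charpoly_eq_two hV A] at h
  have h0 := congrArg (fun q : k[X] => q.coeff 0) h
  have h1 := congrArg (fun q : k[X] => q.coeff 1) h
  have e : (X - C α) * (X - C β) = X ^ 2 - C (α + β) * X + C (α * β) := by
    simp only [map_add, map_mul]; ring
  rw [e] at h0 h1
  simp only [coeff_add, coeff_sub, coeff_X_pow, coeff_C_mul, coeff_X, coeff_C] at h0 h1
  simp at h0 h1
  exact ⟨by linear_combination -h1, h0⟩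

/-- Twice the trace-zero part of an endomorphism. -/
def tz (A : Module.End k V) : Module.End k V :=
  (2 : k) • A - (LinearMap.trace k V A) • (1 : Module.End k V)

theorem trace_one_two (hV : finrank k V = 2) :
    LinearMap.trace k V (1 : Module.End k V) = 2 := by
  rw [LinearMap.trace_one, hV]; norm_num

theorem trace_tz (hV : finrank k V = 2) (A : Module.End k V) :
    LinearMap.trace k V (tz A) = 0 := by
  rw [tz, map_sub, map_smul, map_smul, trace_one_two hV]
  simp only [smul_eq_mul]; ring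

theorem tz_mul_tz (hV : finrank k V = 2) (A : Module.End k V) :
    tz A * tz A =
      ((LinearMap.trace k V A) ^ 2 - 4 * LinearMap.det A) • (1 : Module.End k V) := by
  have hc := cayley_two hV A
  simp only [tz, sub_mul, mul_sub, smul_mul_assoc, mul_smul_comm, one_mul, mul_one, hc,
    smul_sub, smul_smul, sub_smul]
  module

theorem trace_tz_mul_tz (hV : finrank k V = 2) (A B : Module.End k V) :
    LinearMap.trace k V (tz A * tz B) =
      4 * LinearMap.trace k V (A * B) - 2 * LinearMap.trace k V A * LinearMap.trace k V B := by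
  simp only [tz, sub_mul, mul_sub, smul_mul_assoc, mul_smul_comm, one_mul, mul_one, map_sub,
    map_smul, smul_eq_mul, trace_one_two hV]
  ring

theorem tz_smul (c : k) (A : Module.End k V) : tz (c • A) = c • tz A := by
  rw [tz, tz, map_smul, smul_eq_mul, smul_sub, smul_smul, smul_smul, mul_comm c 2,
    mul_smul c (LinearMap.trace k V A)]

theorem tz_conj (A P Q : Module.End k V) (hPQ : P * Q = 1) (hQP : Q * P = 1) :
    tz (P * A * Q) = P * tz A * Q := by
  have htr : LinearMap.trace k V (P * A * Q) = LinearMap.trace k V A := by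
    rw [mul_assoc, LinearMap.trace_mul_comm, mul_assoc, hQP, mul_one]
  simp only [tz, htr, mul_sub, sub_mul, mul_smul_comm, smul_mul_assoc, mul_one, hPQ]

/-- The trace of `tz A * tz B` vanishes when `A`, `B`, `A B` and `A⁻¹ B` all have a double
eigenvalue. -/
theorem trace_tz_mul_tz_eq_zero (hV : finrank k V = 2) (hchar : (2 : k) ≠ 0)
    (A A' B : Module.End k V) (hA'A : A' * A = 1)
    (hA : (LinearMap.trace k V A) ^ 2 = 4 * LinearMap.det A)
    (hB : (LinearMap.trace k V B) ^ 2 = 4 * LinearMap.det B)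
    (hAB : (LinearMap.trace k V (A * B)) ^ 2 = 4 * LinearMap.det (A * B))
    (hA'B : (LinearMap.trace k V (A' * B)) ^ 2 = 4 * LinearMap.det (A' * B)) :
    LinearMap.trace k V (tz A * tz B) = 0 := by
  rw [trace_tz_mul_tz hV]
  have hdet : LinearMap.det A' * LinearMap.det A = 1 := by rw [← map_mul, hA'A, map_one]
  rw [map_mul LinearMap.det] at hAB hA'B
  have h1 : (LinearMap.det A) • A' = (LinearMap.trace k V A) • (1 : Module.End k V) - A := by
    have hc := cayley_two hV A
    have h := congrArg (fun X => A' * X) hc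
    simp only [← mul_assoc, hA'A, one_mul, mul_sub, mul_smul_comm, mul_one] at h
    rw [eq_sub_iff_add_eq, add_comm, ← eq_sub_iff_add_eq]
    exact h
  have h2 : LinearMap.det A * LinearMap.trace k V (A' * B) =
      LinearMap.trace k V A * LinearMap.trace k V B - LinearMap.trace k V (A * B) := by
    have h := congrArg (fun X => LinearMap.trace k V (X * B)) h1
    simp only [smul_mul_assoc, sub_mul, one_mul, map_sub, map_smul, smul_eq_mul] at h
    exact h
  generalize LinearMap.trace k V A = tA at *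
  generalize LinearMap.trace k V B = tB at *
  generalize LinearMap.det A = dA at *
  generalize LinearMap.det B = dB at *
  generalize LinearMap.det A' = dA' at *
  generalize LinearMap.trace k V (A * B) = m at *
  generalize LinearMap.trace k V (A' * B) = m' at *
  have h3 : (tA * tB - m) ^ 2 = 4 * dA * dB := by
    calc (tA * tB - m) ^ 2 = dA ^ 2 * m' ^ 2 := by rw [← h2]; ring
      _ = dA ^ 2 * (4 * (dA' * dB)) := by rw [hA'B]
      _ = 4 * dA * dB * (dA' * dA) := by ring
      _ = 4 * dA * dB := by rw [hdet, mul_one]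
  have h4 : m ^ 2 = 4 * dA * dB := by rw [hAB]; ring
  have h5 : (tA * tB) ^ 2 = 4 * m ^ 2 := by rw [h4, mul_pow, hA, hB]; ring
  have h6 : (tA * tB) * (tA * tB - 2 * m) = 0 := by linear_combination h3 - h4
  have h4' : (4 : k) ≠ 0 := by
    have : (4 : k) = 2 * 2 := by norm_num
    rw [this]; exact mul_ne_zero hchar hchar
  rcases mul_eq_zero.mp h6 with h | h
  · have hm : m = 0 := by
      have h7 : 4 * m ^ 2 = 0 := by rw [← h5, h]; ring
      exact (pow_eq_zero_iff two_ne_zero).mp ((mul_eq_zero.mp h7).resolve_left h4')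
    rw [hm]; linear_combination -2 * h
  · linear_combination -2 * h

/-- Two nilpotent endomorphisms of a plane which are orthogonal for the trace form are
proportional. -/
theorem exists_smul_eq_of_nilpotent (hV : finrank k V = 2) (N N' : Module.End k V)
    (hN : N ≠ 0) (hN2 : N * N = 0) (hN'2 : N' * N' = 0)
    (htr' : LinearMap.trace k V N' = 0) (hs : LinearMap.trace k V (N * N') = 0) :
    ∃ b : k, N' = b • N := by
  obtain ⟨v, hv⟩ : ∃ v, N v ≠ 0 := by
    by_contra h
    exact hN (LinearMap.ext fun w => by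
      by_contra hw
      exact h ⟨w, hw⟩)
  have hNN : ∀ w, N (N w) = 0 := fun w => by
    have := LinearMap.congr_fun hN2 w
    simpa using this
  have hN'N' : ∀ w, N' (N' w) = 0 := fun w => by
    have := LinearMap.congr_fun hN'2 w
    simpa using this
  have hli : LinearIndependent k ![N v, v] := by
    rw [LinearIndependent.pair_iff]
    intro s t hst
    have h1 := congrArg N hst
    rw [map_add, map_smul, map_smul, hNN, smul_zero, zero_add, map_zero] at h1
    have ht : t = 0 := (smul_eq_zero.mp h1).resolve_right hv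
    rw [ht, zero_smul, add_zero] at hst
    exact ⟨(smul_eq_zero.mp hst).resolve_right hv, ht⟩
  obtain ⟨b, hb0, hb1⟩ : ∃ b : Basis (Fin 2) k V, b 0 = N v ∧ b 1 = v := by
    refine ⟨basisOfLinearIndependentOfCardEqFinrank hli (by simp [hV]), ?_, ?_⟩
    · rw [coe_basisOfLinearIndependentOfCardEqFinrank]; rfl
    · rw [coe_basisOfLinearIndependentOfCardEqFinrank]; rfl
  have hN0 : N (b 0) = 0 := by rw [hb0]; exact hNN v
  have hN1 : N (b 1) = b 0 := by rw [hb1, hb0]
  obtain ⟨a, ha⟩ : ∃ a, a = b.repr (N' (b 0)) 0 := ⟨_, rfl⟩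
  obtain ⟨c, hc⟩ : ∃ c, c = b.repr (N' (b 0)) 1 := ⟨_, rfl⟩
  obtain ⟨e, he⟩ : ∃ e, e = b.repr (N' (b 1)) 0 := ⟨_, rfl⟩
  obtain ⟨d, hd⟩ : ∃ d, d = b.repr (N' (b 1)) 1 := ⟨_, rfl⟩
  have h0 : N' (b 0) = a • b 0 + c • b 1 := by
    conv_lhs => rw [← b.sum_repr (N' (b 0))]
    rw [Fin.sum_univ_two, ← ha, ← hc]
  have h1 : N' (b 1) = e • b 0 + d • b 1 := by
    conv_lhs => rw [← b.sum_repr (N' (b 1))]
    rw [Fin.sum_univ_two, ← he, ← hd]
  have tr2 : ∀ F : Module.End k V,
      LinearMap.trace k V F = b.repr (F (b 0)) 0 + b.repr (F (b 1)) 1 := by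
    intro F
    rw [LinearMap.trace_eq_matrix_trace k b F, Matrix.trace_fin_two, LinearMap.toMatrix_apply,
      LinearMap.toMatrix_apply]
  have hc0 : c = 0 := by
    have h := tr2 (N * N')
    rw [hs] at h
    simp only [Module.End.mul_apply, h0, h1, map_add, map_smul, hN0, hN1, smul_zero, zero_add,
      Finsupp.smul_apply, Basis.repr_self, smul_eq_mul] at h
    simp at h
    exact h.symm
  have hda : d = -a := by
    have h := tr2 N'
    rw [htr', ← ha, ← hd] at h
    linear_combination -h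
  have ha0 : a = 0 := by
    have h := hN'N' (b 0)
    rw [h0, hc0, zero_smul, add_zero, map_smul, h0, hc0, zero_smul, add_zero, smul_smul] at h
    rcases smul_eq_zero.mp h with h | h
    · exact mul_self_eq_zero.mp h
    · exact absurd h (b.ne_zero 0)
  refine ⟨e, ?_⟩
  apply b.ext
  intro i
  fin_cases i
  · show N' (b 0) = (e • N) (b 0)
    rw [h0, ha0, hc0, LinearMap.smul_apply, hN0]
    simp
  · show N' (b 1) = (e • N) (b 1)
    rw [h1, hda, ha0, LinearMap.smul_apply, hN1]
    simp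

end LinAlg

section Twist

variable {k : Type} [Field k] (ρbar : ResidualGaloisRep k)

theorem rho_inv_mul' (g : GQ) : ρbar.ρ g⁻¹ * ρbar.ρ g = 1 := by
  rw [← map_mul, inv_mul_cancel, map_one]

theorem rho_mul_inv' (g : GQ) : ρbar.ρ g * ρbar.ρ g⁻¹ = 1 := by
  rw [← map_mul, mul_inv_cancel, map_one]

/-- A nonzero trace-zero endomorphism which is an eigenvector of every `Ad ρbar(g)` cannot
exist. -/
theorem false_of_twisted_family (hchar : (2 : k) ≠ 0) (habs : ρbar.IsAbsolutelyIrreducible)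
    (hTW : ∀ (K : Type) [Field K] [Algebra k K] (G : Subgroup GQ), G.index = 2 →
      ∀ V : Submodule K (ρbar.baseChange K).V,
        (∀ σ ∈ G, ∀ x ∈ V, (ρbar.baseChange K).ρ σ x ∈ V) → V = ⊥ ∨ V = ⊤)
    (f : Module.End k ρbar.V) (hf : f ≠ 0) (htr : LinearMap.trace k ρbar.V f = 0)
    (h : ∀ g : GQ, ∃ u : kˣ, (u : k) • (ρbar.ρ g * f) = f * ρbar.ρ g) : False := by
  have hne : ∀ g : GQ, ρbar.ρ g * f ≠ 0 := by
    intro g h0
    apply hf
    have h1 := congrArg (fun X => ρbar.ρ g⁻¹ * X) h0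
    simp only [← mul_assoc, rho_inv_mul', one_mul, mul_zero] at h1
    exact h1
  have huniq : ∀ (g : GQ) (u u' : kˣ), (u : k) • (ρbar.ρ g * f) = f * ρbar.ρ g →
      (u' : k) • (ρbar.ρ g * f) = f * ρbar.ρ g → u = u' := by
    intro g u u' hu hu'
    have h1 : ((u : k) - (u' : k)) • (ρbar.ρ g * f) = 0 := by
      rw [sub_smul, hu, hu', sub_self]
    rcases smul_eq_zero.mp h1 with h2 | h2
    · exact Units.ext (sub_eq_zero.mp h2)
    · exact absurd h2 (hne g)
  let χ : GQ →* kˣ :=
    { toFun := fun g => (h g).choose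
      map_one' := by
        apply huniq 1 _ _ (h 1).choose_spec
        rw [map_one, Units.val_one, one_smul, one_mul, mul_one]
      map_mul' := by
        intro g g'
        apply huniq (g * g') _ _ (h (g * g')).choose_spec
        have hg := (h g).choose_spec
        have hg' := (h g').choose_spec
        rw [map_mul, Units.val_mul, mul_smul]
        calc ((h g).choose : k) • ((h g').choose : k) • (ρbar.ρ g * ρbar.ρ g' * f)
            = ((h g).choose : k) • (ρbar.ρ g * (((h g').choose : k) • (ρbar.ρ g' * f))) := by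
              rw [mul_smul_comm, mul_assoc]
          _ = ((h g).choose : k) • (ρbar.ρ g * (f * ρbar.ρ g')) := by rw [hg']
          _ = (((h g).choose : k) • (ρbar.ρ g * f)) * ρbar.ρ g' := by
              rw [smul_mul_assoc, mul_assoc]
          _ = f * ρbar.ρ g * ρbar.ρ g' := by rw [hg]
          _ = f * (ρbar.ρ g * ρbar.ρ g') := by rw [mul_assoc] }
  exact hf (Fermat.Agent.S56.H27.eq_zero_of_twisted ρbar hchar habs hTW χ f htr
    (fun g => (h g).choose_spec))

end Twist

/-- **TWS-C1.** -/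
theorem stmt_distinct : Stmt_distinct := by
  intro 𝒪 _ _ _ _ _ p _ _ ρbar S Smin hyp n
  by_contra hno
  have hno' : ∀ g : GQ, g ∈ cycKer p n → ¬ HasDistinctEig ρbar g :=
    fun g hg hd => hno ⟨g, hg, hd⟩
  have hV := ρbar.finrank_eq
  have hchar : (2 : ResidueField 𝒪) ≠ 0 := by
    intro h2
    have h3 : ((2 : ℕ) : ResidueField 𝒪) = 0 := by exact_mod_cast h2
    rw [CharP.cast_eq_zero_iff (ResidueField 𝒪) p] at h3
    have hp : p.Prime := Fact.out
    exact hyp.hp2 ((Nat.prime_dvd_prime_iff_eq hp Nat.prime_two).mp h3)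
  -- elements of `cycKer p n` have a double eigenvalue
  have hD : ∀ x : GQ, x ∈ cycKer p n →
      (LinearMap.trace _ _ (ρbar.ρ x)) ^ 2 = 4 * LinearMap.det (ρbar.ρ x) := by
    intro x hx
    obtain ⟨α, β, hαβ⟩ := hyp.hsplit x
    have heq : α = β := by
      by_contra hne
      exact hno' x hx ⟨α, β, hne, hαβ⟩
    obtain ⟨h1, h2⟩ := trace_det_of_split hV _ α β hαβ
    rw [h1, h2, heq]; ring
  have hnil : ∀ x : GQ, x ∈ cycKer p n → tz (ρbar.ρ x) * tz (ρbar.ρ x) = 0 := by
    intro x hx
    rw [tz_mul_tz hV, hD x hx, sub_self, zero_smul]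
  have hconj : ∀ g x : GQ, tz (ρbar.ρ (g * x * g⁻¹)) = ρbar.ρ g * tz (ρbar.ρ x) * ρbar.ρ g⁻¹ := by
    intro g x
    rw [map_mul, map_mul]
    exact tz_conj _ _ _ (rho_mul_inv' ρbar g) (rho_inv_mul' ρbar g)
  by_cases hsc : ∀ x : GQ, x ∈ cycKer p n → tz (ρbar.ρ x) = 0
  · -- all elements of `cycKer p n` act by scalars
    have hscal : ∀ x : GQ, x ∈ cycKer p n →
        ρbar.ρ x = ((LinearMap.trace _ _ (ρbar.ρ x)) / 2) • (1 : Module.End _ ρbar.V) := by
      intro x hx
      have h1 := hsc x hx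
      rw [tz, sub_eq_zero] at h1
      have h2 := congrArg (fun X => (2 : ResidueField 𝒪)⁻¹ • X) h1
      simp only [smul_smul, inv_mul_cancel₀ hchar, one_smul] at h2
      rw [div_eq_inv_mul]
      exact h2
    by_cases hall : ∀ g : GQ, tz (ρbar.ρ g) = 0
    · -- everything is scalar
      obtain ⟨f, hf, hftr⟩ : ∃ f : Module.End (ResidueField 𝒪) ρbar.V, f ≠ 0 ∧
          LinearMap.trace _ _ f = 0 := by
        let b : Basis (Fin 2) (ResidueField 𝒪) ρbar.V := Module.finBasisOfFinrankEq _ _ hV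
        refine ⟨b.constr (ResidueField 𝒪) ![0, b 0], ?_, ?_⟩
        · intro h0
          have h1 := LinearMap.congr_fun h0 (b 1)
          rw [Basis.constr_basis] at h1
          exact b.ne_zero 0 h1
        · rw [LinearMap.trace_eq_matrix_trace _ b, Matrix.trace_fin_two,
            LinearMap.toMatrix_apply, LinearMap.toMatrix_apply, Basis.constr_basis,
            Basis.constr_basis]
          simp
      refine false_of_twisted_family ρbar hchar hyp.habs hyp.hTW f hf hftr (fun g => ⟨1, ?_⟩)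
      have h1 := hall g
      rw [tz, sub_eq_zero] at h1
      have h2 := congrArg (fun X => (2 : ResidueField 𝒪)⁻¹ • X) h1
      simp only [smul_smul, inv_mul_cancel₀ hchar, one_smul] at h2
      rw [Units.val_one, one_smul, h2, smul_mul_assoc, mul_smul_comm, one_mul, mul_one]
    · obtain ⟨g₀, hg₀⟩ : ∃ g₀ : GQ, tz (ρbar.ρ g₀) ≠ 0 := by
        by_contra h
        exact hall fun g => by
          by_contra hg
          exact h ⟨g, hg⟩
      refine false_of_twisted_family ρbar hchar hyp.habs hyp.hTW (tz (ρbar.ρ g₀)) hg₀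
        (trace_tz hV _) (fun g => ?_)
      -- the commutator acts by a scalar
      have hx := commutator_mem_cycKer p n g g₀
      have hs := hscal _ hx
      obtain ⟨lam, hlam⟩ : ∃ lam, lam = (LinearMap.trace _ _
        (ρbar.ρ (g * g₀ * g⁻¹ * g₀⁻¹))) / 2 := ⟨_, rfl⟩
      rw [← hlam] at hs
      have hrel : ρbar.ρ g * ρbar.ρ g₀ * ρbar.ρ g⁻¹ = lam • ρbar.ρ g₀ := by
        have h1 : ρbar.ρ (g * g₀ * g⁻¹ * g₀⁻¹) * ρbar.ρ g₀ = lam • ρbar.ρ g₀ := by
          rw [hs, smul_mul_assoc, one_mul]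
        rw [← h1, ← map_mul, ← map_mul, ← map_mul, inv_mul_cancel_right]
      have hlam0 : lam ≠ 0 := by
        intro h0
        rw [h0, zero_smul] at hrel
        have h1 := congrArg (fun X => ρbar.ρ g⁻¹ * X * ρbar.ρ g) hrel
        simp only [← mul_assoc, rho_inv_mul', one_mul, mul_zero, zero_mul] at h1
        rw [mul_assoc, rho_inv_mul', mul_one] at h1
        apply hg₀
        rw [h1, tz, smul_zero, map_zero, zero_smul, sub_zero]
      have hconj' : ρbar.ρ g * tz (ρbar.ρ g₀) * ρbar.ρ g⁻¹ = lam • tz (ρbar.ρ g₀) := by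
        rw [← hconj, map_mul, map_mul, hrel, tz_smul]
      refine ⟨(Units.mk0 lam hlam0)⁻¹, ?_⟩
      have h1 := congrArg (fun X => X * ρbar.ρ g) hconj'
      simp only [mul_assoc, rho_inv_mul', mul_one, smul_mul_assoc] at h1
      rw [Units.val_inv_eq_inv_val, Units.val_mk0, h1, smul_smul, inv_mul_cancel₀ hlam0,
        one_smul]
  · -- some element of `cycKer p n` is not scalar
    obtain ⟨x₀, hx₀, hne⟩ : ∃ x₀ : GQ, x₀ ∈ cycKer p n ∧ tz (ρbar.ρ x₀) ≠ 0 := by
      by_contra h
      exact hsc fun x hx => by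
        by_contra hx'
        exact h ⟨x, hx, hx'⟩
    refine false_of_twisted_family ρbar hchar hyp.habs hyp.hTW (tz (ρbar.ρ x₀)) hne
      (trace_tz hV _) (fun g => ?_)
    have hy : g * x₀ * g⁻¹ ∈ cycKer p n := conj_mem_cycKer p n g x₀ hx₀
    have hs : LinearMap.trace _ _ (tz (ρbar.ρ x₀) * tz (ρbar.ρ (g * x₀ * g⁻¹))) = 0 := by
      refine trace_tz_mul_tz_eq_zero hV hchar (ρbar.ρ x₀) (ρbar.ρ x₀⁻¹) _ (rho_inv_mul' ρbar x₀)
        (hD _ hx₀) (hD _ hy) ?_ ?_
      · rw [← map_mul]
        exact hD _ ((cycKer p n).mul_mem hx₀ hy)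
      · rw [← map_mul]
        exact hD _ ((cycKer p n).mul_mem ((cycKer p n).inv_mem hx₀) hy)
    obtain ⟨b, hb⟩ := exists_smul_eq_of_nilpotent hV (tz (ρbar.ρ x₀))
      (tz (ρbar.ρ (g * x₀ * g⁻¹))) hne (hnil _ hx₀) (hnil _ hy) (trace_tz hV _) hs
    rw [hconj] at hb
    have hb0 : b ≠ 0 := by
      intro h0
      rw [h0, zero_smul] at hb
      have h1 := congrArg (fun X => ρbar.ρ g⁻¹ * X * ρbar.ρ g) hb
      simp only [← mul_assoc, rho_inv_mul', one_mul, mul_zero, zero_mul] at h1
      rw [mul_assoc, rho_inv_mul', mul_one] at h1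
      exact hne h1
    refine ⟨(Units.mk0 b hb0)⁻¹, ?_⟩
    have h1 := congrArg (fun X => X * ρbar.ρ g) hb
    simp only [mul_assoc, rho_inv_mul', mul_one, smul_mul_assoc] at h1
    rw [Units.val_inv_eq_inv_val, Units.val_mk0, h1, smul_smul, inv_mul_cancel₀ hb0, one_smul]

end Fermat.Agent.S56.TWS.H59
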