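import Mathlib
import Fermat.Agent.S56.TWS.Defs
import Fermat.Agent.S56.TWS.H59_Distinct
import Fermat.Agent.S56.H27_GlobH0
import Fermat.Agent.S56.H47_Basic

/-!
# Cluster T / S56, package TWS-B (helper59): `Stmt_H1_image → Stmt_levKer`

A cocycle of `M' = ad⁰ ρbar (1)`-dual with nonzero class does not vanish identically on
`ker ρbar ∩ cycKer p n`.

Proof.  Suppose it does.  `ker ρbar` acts trivially on `M'` (the determinant of `ρbar` is the
cyclotomic character).  For `t ∈ ker ρbar` and `g ∈ G_ℚ` the commutator `g t g⁻¹ t⁻¹` lies in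
`ker ρbar ∩ cycKer p n`, so `0 = c (g t g⁻¹ t⁻¹) = g • c t - c t`: `c t` is invariant, hence zero
(GLOB-h0).  So `c` vanishes on `ker ρbar` and is a coboundary by TWS-A.
-/

set_option autoImplicit false
set_option linter.unusedSectionVars false
set_option linter.unusedVariables false
set_option linter.style.haveILetI false

noncomputable section

namespace Fermat.Agent.S56.TWS.H59

open Polynomial Module ExtCitation IsLocalRing CategoryTheory groupCohomology Fermat.Agent.S56

section Det

variable (p : ℕ) [Fact p.Prime] {k : Type} [Field k] [CharP k p] (ρbar : ResidualGaloisRep k)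

/-- An automorphism raises every `p`-th root of unity to the power `cycloExp`. -/
theorem map_root_eq_pow_cycloExp (σ : GQ) (μ : AlgebraicClosure ℚ) (hμ : μ ^ p = 1) :
    σ μ = μ ^ (cycloExp p σ) := by
  haveI : NeZero p := ⟨(Fact.out : p.Prime).ne_zero⟩
  let t : rootsOfUnity p (AlgebraicClosure ℚ) := rootsOfUnity.mkOfPowEq μ hμ
  have ht : ((t : (AlgebraicClosure ℚ)ˣ) : AlgebraicClosure ℚ) = μ :=
    rootsOfUnity.coe_mkOfPowEq hμ
  have := modularCyclotomicCharacter.spec (AlgebraicClosure ℚ) (card_rootsOfUnity_eq_self p)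
    (σ : AlgebraicClosure ℚ ≃+* AlgebraicClosure ℚ) t.2
  rw [ht] at this
  exact this

/-- The determinant of `ρbar` is the mod `p` cyclotomic character. -/
theorem det_eq_cycloK (hdet : (GaloisRepAdic.ofResidualGaloisRep ρbar).DetIsCyclotomic p)
    (σ : GQ) : LinearMap.det (ρbar.ρ σ) = ((cycloK p k σ : kˣ) : k) := by
  obtain ⟨hpk, h⟩ := hdet
  rw [IsLocalRing.maximalIdeal_eq_bot, Ideal.mem_bot] at hpk
  have h1 := h 1 σ (cycloExp p σ) (fun μ hμ => by
    rw [pow_one] at hμ
    exact map_root_eq_pow_cycloExp p σ μ hμ)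
  rw [pow_one, hpk, Ideal.span_singleton_zero, Ideal.mem_bot, sub_eq_zero] at h1
  have h2 : ((cycloK p k σ : kˣ) : k) = ((cycloExp p σ : ℕ) : k) := by
    unfold cycloK
    rw [MonoidHom.comp_apply, Units.coe_map, MonoidHom.coe_coe, coe_cycloChar, map_natCast]
  rw [h2]
  exact h1

theorem cycloK_eq_one_of_rho (hdet : (GaloisRepAdic.ofResidualGaloisRep ρbar).DetIsCyclotomic p)
    (σ : GQ) (hσ : ρbar.ρ σ = 1) : cycloK p k σ = 1 := by
  apply Units.ext
  rw [← det_eq_cycloK p ρbar hdet σ, hσ, Units.val_one]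
  exact LinearMap.det_id

end Det

/-- **TWS-B.** -/
theorem stmt_levKer_of (hA : Stmt_H1_image) : Stmt_levKer := by
  intro 𝒪 _ _ _ _ _ p _ _ ρbar S Smin hyp c hc n
  by_contra hno
  have h0 : ∀ τ : GQ, τ ∈ cycKer p n → ρbar.ρ τ = 1 → c τ = 0 := by
    intro τ hτ hρ
    by_contra hne
    exact hno ⟨τ, hτ, hρ, hne⟩
  have hchar : (2 : ResidueField 𝒪) ≠ 0 := by
    intro h2
    have h3 : ((2 : ℕ) : ResidueField 𝒪) = 0 := by exact_mod_cast h2
    rw [CharP.cast_eq_zero_iff (ResidueField 𝒪) p] at h3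
    have hp : p.Prime := Fact.out
    exact hyp.hp2 ((Nat.prime_dvd_prime_iff_eq hp Nat.prime_two).mp h3)
  -- `ker ρbar` acts trivially on `M'`
  have htriv : ∀ t : GQ, ρbar.ρ t = 1 → (tateDual p (ad0 ρbar)).ρ t = 1 := fun t ht =>
    H47.tateDual_ρ_eq_one p (ad0 ρbar) t (H47.ad0_ρ_eq_one ρbar t ht)
      (cycloK_eq_one_of_rho p ρbar hyp.hdet t ht)
  have hcm : ∀ g h : GQ, c (g * h) = (tateDual p (ad0 ρbar)).ρ g (c h) + c g := fun g h =>
    (mem_cocycles₁_iff (c : GQ → tateDual p (ad0 ρbar))).1 c.2 g h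
  have hinvbot := H27.dualTwist_invariants_eq_bot ρbar hchar hyp.habs hyp.hTW
    (cycloK p (ResidueField 𝒪))
  -- `c` vanishes on `ker ρbar`
  have hker : ∀ t : GQ, ρbar.ρ t = 1 → c t = 0 := by
    intro t ht
    have ht' : ρbar.ρ t⁻¹ = 1 := by
      have := map_mul ρbar.ρ t⁻¹ t
      rw [inv_mul_cancel, map_one, ht, mul_one] at this
      exact this.symm
    have hmem : c t ∈ (tateDual p (ad0 ρbar)).ρ.invariants := by
      rw [Representation.mem_invariants]
      intro g
      have hconj : ρbar.ρ (g * t * g⁻¹) = 1 := by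
        rw [map_mul, map_mul, ht, mul_one, ← map_mul, mul_inv_cancel, map_one]
      have hρ : ρbar.ρ (g * t * g⁻¹ * t⁻¹) = 1 := by
        rw [map_mul, hconj, ht', mul_one]
      have hz := h0 _ (commutator_mem_cycKer p n g t) hρ
      -- expand the cocycle on the commutator
      have e1 := hcm (g * t * g⁻¹) t⁻¹
      rw [hz, htriv _ hconj, Module.End.one_apply] at e1
      -- `c t⁻¹ = - c t`
      have e2 := hcm t⁻¹ t
      rw [inv_mul_cancel, cocycles₁_map_one, htriv _ ht', Module.End.one_apply] at e2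
      -- `c (g t g⁻¹) = g • c t`
      have e3 := hcm (g * t * g⁻¹) g
      rw [htriv _ hconj, Module.End.one_apply] at e3
      have e4 : g * t * g⁻¹ * g = g * t := by group
      rw [e4, hcm g t] at e3
      -- combine
      have e5 : (tateDual p (ad0 ρbar)).ρ g (c t) = c (g * t * g⁻¹) := by
        have := e3
        rw [add_comm (c g)] at this
        exact add_right_cancel this
      rw [e5]
      have e6 : c t⁻¹ = - c t := by
        rw [eq_neg_iff_add_eq_zero, add_comm]
        exact e2.symm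
      rw [e6] at e1
      have e7 : c (g * t * g⁻¹) - c t = 0 := by
        rw [sub_eq_add_neg, add_comm]
        exact e1.symm
      exact sub_eq_zero.mp e7
    have hbot : c t ∈ ((ad0 ρbar).dualTwist (cycloK p (ResidueField 𝒪))).ρ.invariants := hmem
    rw [hinvbot, Submodule.mem_bot] at hbot
    exact hbot
  obtain ⟨m, hm⟩ := hA 𝒪 p ρbar S Smin hyp c hker
  apply hc
  rw [H1π_eq_zero_iff]
  exact ⟨m, funext fun g => (hm g).symm⟩

end Fermat.Agent.S56.TWS.H59
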