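import Fermat.Agent.S56.TWS.H64_Prime
import Fermat.Agent.S56.TWS.H13_Loc

set_option autoImplicit false

/-!
# S56 / TW-SELECT, package TWS-D: `stmt_prime : Stmt_prime` (helper64 + helper13)
-/

namespace Fermat.Agent.S56.TWS.H64

open groupCohomology ExtCitation Fermat.Agent.S56

theorem stmt_loc : Stmt_loc := by
  intro k _ M F hF hM c hc q A hA φ hφ h0
  haveI := hF
  exact Fermat.Agent.S56.TWS.H13.loc_coboundary M F hM c hc q A hA φ hφ h0

/-- **TWS-D.** -/
theorem stmt_prime : Stmt_prime := stmt_prime_of_loc stmt_loc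

end Fermat.Agent.S56.TWS.H64
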