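import Fermat.Agent.S56.TWS.H74_Matrix
import Fermat.Agent.S56.TWS.H01_Count
import Fermat.Agent.S56.TWS.H01_Select
import Fermat.Agent.S56.TWS.H27_Irred
import Fermat.Agent.S56.TWS.H59_Distinct
import Fermat.Agent.S56.TWS.H59_LevKer
import Fermat.Agent.S56.TWS.H64_PrimeFinal

set_option autoImplicit false

/-!
# TW-SELECT: assembly (helper74)

`stmt_TW_select_of_tr`: `Stmt_TW_select` from the translation TWS-A-tr
(`Stmt_H1_matrix → Stmt_H1_image`); everything else is discharged here.
-/

namespace Fermat.Agent.S56.TWS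

/-- TWS-A from the translation. -/
theorem stmt_H1_image_of_tr (hTr : H74.Stmt_H1_matrix → Stmt_H1_image) : Stmt_H1_image :=
  hTr H74.stmt_H1_matrix

/-- `Stmt_core` from the translation. -/
theorem stmt_core_of_tr (hTr : H74.Stmt_H1_matrix → Stmt_H1_image) : Stmt_core :=
  stmt_core_of
    (H01.stmt_select_of (H59.stmt_levKer_of (stmt_H1_image_of_tr hTr)) H59.stmt_distinct
      H27.stmt_irred)
    H64.stmt_prime

/-- **TW-SELECT** from the translation TWS-A-tr. -/
theorem stmt_TW_select_of_tr (hTr : H74.Stmt_H1_matrix → Stmt_H1_image) : Stmt_TW_select :=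
  H01.stmt_TW_select_of (stmt_core_of_tr hTr)

end Fermat.Agent.S56.TWS
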