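import Fermat.Agent.S56.TWS.H74_KillDefs

set_option autoImplicit false

/-!
# TW-SELECT, package TWS-A, slice N3 + N4 (helper64)

`stmt_H1_N34 : H74.Stmt_H1_N34`: a twisted cocycle with `τ = 0` on `ker χ` which vanishes at
`u, w ∈ ker χ` with `R u = [[1,1],[0,1]]` and `(R w) 1 0 ≠ 0` is zero.
-/

namespace Fermat.Agent.S56.TWS.H64

open Matrix Fermat.Agent.S56.TWS.H74

variable {k : Type} [Field k] {G : Type} [Group G]

/-- A matrix whose products with `1, U, W, U W` have trace zero is zero (`W 1 0 ≠ 0`). -/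
theorem eq_zero_of_trace_span (A W : Matrix (Fin 2) (Fin 2) k) (hW : W 1 0 ≠ 0)
    (h1 : A.trace = 0) (hU : (A * Umat).trace = 0) (hWt : (A * W).trace = 0)
    (hUW : (A * (Umat * W)).trace = 0) : A = 0 := by
  rw [trace2] at h1 hU hWt hUW
  simp only [mul_apply2, Umat_00, Umat_01, Umat_10, Umat_11] at hU hWt hUW
  have h10 : A 1 0 = 0 := by linear_combination hU - h1
  have h00 : A 0 0 = 0 := by
    have e : A 0 0 * W 1 0 = 0 := by
      linear_combination hUW - hWt - W 1 1 * h10
    rcases mul_eq_zero.mp e with h | h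
    · exact h
    · exact absurd h hW
  have h11 : A 1 1 = 0 := by linear_combination h1 - h00
  have h01 : A 0 1 = 0 := by
    have e : A 0 1 * W 1 0 = 0 := by
      linear_combination hWt - W 0 0 * h00 - W 0 1 * h10 - W 1 1 * h11
    rcases mul_eq_zero.mp e with h | h
    · exact h
    · exact absurd h hW
  exact ext2 (by simpa using h00) (by simpa using h01) (by simpa using h10) (by simpa using h11)

/-- A trace-zero matrix commuting with `U` and with `W` (`W 1 0 ≠ 0`) is zero (`2 ≠ 0`). -/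
theorem eq_zero_of_commute (h2 : (2 : k) ≠ 0) (X W : Matrix (Fin 2) (Fin 2) k) (hW : W 1 0 ≠ 0)
    (htr : X.trace = 0) (hU : Umat * X = X * Umat) (hWc : W * X = X * W) : X = 0 := by
  rw [trace2] at htr
  have e00 := congrFun (congrFun hU 0) 0
  have e01 := congrFun (congrFun hU 0) 1
  have w00 := congrFun (congrFun hWc 0) 0
  have w10 := congrFun (congrFun hWc 1) 0
  simp only [mul_apply2, Umat_00, Umat_01, Umat_10, Umat_11] at e00 e01 w00 w10
  have h10 : X 1 0 = 0 := by linear_combination e00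
  have hd : X 1 1 = X 0 0 := by linear_combination e01
  have h00 : X 0 0 = 0 := by
    have e : (2 : k) * X 0 0 = 0 := by linear_combination htr - hd
    rcases mul_eq_zero.mp e with h | h
    · exact absurd h h2
    · exact h
  have h11 : X 1 1 = 0 := by rw [hd, h00]
  have h01 : X 0 1 = 0 := by
    have e : X 0 1 * W 1 0 = 0 := by
      linear_combination W 0 1 * h10 - w00
    rcases mul_eq_zero.mp e with h | h
    · exact h
    · exact absurd h hW
  exact ext2 (by simpa using h00) (by simpa using h01) (by simpa using h10) (by simpa using h11)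

variable {R : G →* Matrix (Fin 2) (Fin 2) k} {χ : G →* kˣ}
  {c : G → Matrix (Fin 2) (Fin 2) k}

/-- If `c h = 0` then `c (g h) = c g`. -/
theorem c_mul_of_zero (h : TwCoc R χ c) (g x : G) (hx : c x = 0) : c (g * x) = c g := by
  rw [h.mul, hx, mul_zero, zero_mul, smul_zero, add_zero]

/-- If `τ (g h) = 0` and `c h = 0` then `tr (c g * R g * R h) = 0`. -/
theorem trace_of_tau (h : TwCoc R χ c) (g x : G) (hx : c x = 0) (ht : tau R c (g * x) = 0) :
    (c g * R g * R x).trace = 0 := by
  unfold tau at ht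
  rwa [c_mul_of_zero h g x hx, map_mul, ← mul_assoc] at ht

/-- **N3**: `c = 0` on `ker χ`. -/
theorem c_eq_zero_of_ker (h : TwCoc R χ c) (hτ : ∀ g, χ g = 1 → tau R c g = 0)
    (u w : G) (hu : χ u = 1) (hw : χ w = 1) (hRu : R u = Umat) (hRw : (R w) 1 0 ≠ 0)
    (hcu : c u = 0) (hcw : c w = 0) (g : G) (hg : χ g = 1) : c g = 0 := by
  have hcuw : c (u * w) = 0 := by rw [c_mul_of_zero h u w hcw, hcu]
  have hχ : ∀ x, χ x = 1 → χ (g * x) = 1 := fun x hx => by rw [map_mul, hg, hx, one_mul]
  have t1 : (c g * R g).trace = 0 := hτ g hg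
  have tU : (c g * R g * Umat).trace = 0 := by
    rw [← hRu]; exact trace_of_tau h g u hcu (hτ _ (hχ u hu))
  have tW : (c g * R g * R w).trace = 0 := trace_of_tau h g w hcw (hτ _ (hχ w hw))
  have tUW : (c g * R g * (Umat * R w)).trace = 0 := by
    rw [← hRu, ← map_mul]
    exact trace_of_tau h g (u * w) hcuw (hτ _ (hχ _ (by rw [map_mul, hu, hw, one_mul])))
  have hA : c g * R g = 0 := eq_zero_of_trace_span _ _ hRw t1 tU tW tUW
  calc c g = c g * (R g * R g⁻¹) := by rw [R_mul_inv, mul_one]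
    _ = (c g * R g) * R g⁻¹ := by rw [mul_assoc]
    _ = 0 := by rw [hA, zero_mul]

/-- **N4**: `c g` commutes with `R x` for `x ∈ ker χ` (when `c = 0` on `ker χ`). -/
theorem commute_of_ker (h : TwCoc R χ c) (h0 : ∀ x, χ x = 1 → c x = 0) (g x : G)
    (hx : χ x = 1) : R x * c g = c g * R x := by
  -- `g (g⁻¹ x g) = x g`
  have hy : χ (g⁻¹ * x * g) = 1 := by
    rw [map_mul, map_mul, hx, mul_one, map_inv, inv_mul_cancel]
  have e1 : c (g * (g⁻¹ * x * g)) = c g := c_mul_of_zero h g _ (h0 _ hy)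
  have e2 : g * (g⁻¹ * x * g) = x * g := by group
  rw [e2, h.mul_of_one hx, h0 x hx, zero_add] at e1
  calc R x * c g = (R x * c g * R x⁻¹) * R x := by
        rw [mul_assoc (R x * c g), R_inv_mul, mul_one]
    _ = c g * R x := by rw [e1]

/-- **TWS-A, slice N3 + N4.** -/
theorem stmt_H1_N34 : Stmt_H1_N34 := by
  intro k _ h2 G _ R χ c h hτ u w hu hw hRu hRw hcu hcw g
  have h0 : ∀ x, χ x = 1 → c x = 0 := fun x hx =>
    c_eq_zero_of_ker h hτ u w hu hw hRu hRw hcu hcw x hx
  refine eq_zero_of_commute h2 (c g) (R w) hRw (h.tr g) ?_ (commute_of_ker h h0 g w hw)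
  rw [← hRu]
  exact commute_of_ker h h0 g u hu

end Fermat.Agent.S56.TWS.H64
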