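import Fermat.Agent.S56.TWS.Defs
import Fermat.Agent.S56.H13_Unr
import Fermat.Agent.S56.H9_H1Bound
import Fermat.Agent.S56.H47_Basic
import Fermat.Agent.S56.H59_LocTWh0
import Fermat.Agent.Lib.FrobDensity.H47_Bridge2
import Fermat.Agent.R.H89_FrobCyc

set_option autoImplicit false
set_option linter.style.haveILetI false
set_option linter.unusedSectionVars false

/-!
# S56 / TW-SELECT, package TWS-D (helper64): `Stmt_prime`

From an element `σ` fixing `μ_{p^(n+1)}`, with distinct eigenvalues and `c σ ∉ (σ - 1) M'`, to a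
Taylor-Wiles prime `q` at which the class of `c` is not locally trivial
(Frobenius density `stmt_FD2` + local-global glue).

The local input (`Stmt_loc`, proved by helper13 in `H13_Loc.lean`): if the class of a level-constant
cocycle is locally trivial at `q`, then `c φ ∈ (φ - 1) M` for every `φ` in the decomposition group
of any place over `q`.
-/

noncomputable section

namespace Fermat.Agent.S56.TWS.H64

open Polynomial IsLocalRing CategoryTheory groupCohomology ExtCitation Fermat.Agent.S53 Module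
open Fermat.Agent.S56 Fermat.Agent.Lib.FrobIntegers Fermat.Agent.Lib.FrobExists
  Fermat.Agent.Lib.InertiaBridge Fermat.Agent.Lib.InertiaConj
open scoped Pointwise

attribute [local instance] qbar_isAlgebraic qbar_isAlgClosure qbar_isGalois zbar_isInvariant
  zbarTopologicalSpace zbar_discreteTopology zbar_continuousSMul

/-- The local input of TWS-D. -/
def Stmt_loc : Prop :=
  ∀ (k : Type) [Field k] (M : Rep k GQ) (F : IntermediateField ℚ (AlgebraicClosure ℚ)),
    FiniteDimensional ℚ F → (∀ s ∈ F.fixingSubgroup, M.ρ s = 1) →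
    ∀ c : cocycles₁ M, (∀ g s : GQ, s ∈ F.fixingSubgroup → c (g * s) = c g) →
    ∀ (q : Nat.Primes) (A : ValuationSubring (AlgebraicClosure ℚ)), A.LiesOverPrime (q : ℕ) →
    ∀ φ : GQ, φ ∈ A.decompositionSubgroup ℚ → resAt M q ((H1π M).hom c) = 0 →
      ∃ m : M, c φ = M.ρ φ m - m

/-! ### Agreement on a subfield -/

theorem inv_mul_mem_fixingSubgroup (L : IntermediateField ℚ (AlgebraicClosure ℚ)) (g h : GQ)
    (hgh : ∀ x ∈ L, g x = h x) : g⁻¹ * h ∈ L.fixingSubgroup := by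
  rw [IntermediateField.mem_fixingSubgroup_iff]
  intro x hx
  show g⁻¹ (h x) = x
  rw [← hgh x hx]
  exact g.symm_apply_apply x

theorem eq_mul_of_agree (g h : GQ) : h = g * (g⁻¹ * h) := by
  rw [mul_inv_cancel_left]

/-- A level-constant function takes the same value on automorphisms agreeing on the level. -/
theorem levelConstant_agree {X : Type} (f : GQ → X)
    (F : IntermediateField ℚ (AlgebraicClosure ℚ))
    (hF : ∀ g s : GQ, s ∈ F.fixingSubgroup → f (g * s) = f g)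
    (g h : GQ) (hgh : ∀ x ∈ F, g x = h x) : f h = f g := by
  rw [eq_mul_of_agree g h]
  exact hF g _ (inv_mul_mem_fixingSubgroup F g h hgh)

/-- A homomorphism trivial on the fixing subgroup of `L` takes the same value on automorphisms
agreeing on `L`. -/
theorem hom_agree {H : Type} [Monoid H] (f : GQ →* H)
    (L : IntermediateField ℚ (AlgebraicClosure ℚ))
    (hL : ∀ s : GQ, s ∈ L.fixingSubgroup → f s = 1)
    (g h : GQ) (hgh : ∀ x ∈ L, g x = h x) : f h = f g := by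
  rw [eq_mul_of_agree g h, map_mul, hL _ (inv_mul_mem_fixingSubgroup L g h hgh), mul_one]

/-! ### The cyclotomic field -/

/-- The field generated by the `m`-th roots of unity. -/
def cycField (m : ℕ) : IntermediateField ℚ (AlgebraicClosure ℚ) :=
  IntermediateField.adjoin ℚ {z | z ^ m = 1}

theorem finite_roots (m : ℕ) (hm : 0 < m) : {z : AlgebraicClosure ℚ | z ^ m = 1}.Finite := by
  have := (nthRootsFinset m (1 : AlgebraicClosure ℚ)).finite_toSet
  refine this.subset ?_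
  intro z hz
  simp only [Finset.mem_coe, mem_nthRootsFinset hm]
  exact hz

theorem cycField_finiteDimensional (m : ℕ) (hm : 0 < m) : FiniteDimensional ℚ (cycField m) := by
  haveI : Finite {z : AlgebraicClosure ℚ | z ^ m = 1} := (finite_roots m hm).to_subtype
  exact IntermediateField.finiteDimensional_adjoin
    (fun x _ => ((AlgebraicClosure.isAlgebraic ℚ).isAlgebraic x).isIntegral)

theorem mem_cycField (m : ℕ) (z : AlgebraicClosure ℚ) (hz : z ^ m = 1) : z ∈ cycField m :=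
  IntermediateField.subset_adjoin ℚ _ hz

theorem mem_cycKer_of_agree (p n : ℕ) (σ φ : GQ) (j' : ℕ)
    (L : IntermediateField ℚ (AlgebraicClosure ℚ)) (hL : cycField (p ^ (n + 1)) ≤ L)
    (hσ : σ ∈ cycKer p n) (h : ∀ x ∈ L, (σ ^ j') x = φ x) : φ ∈ cycKer p n := by
  intro μ hμ
  have hμL : μ ∈ L := hL (mem_cycField _ μ hμ)
  rw [← h μ hμL]
  exact (cycKer p n).pow_mem hσ j' μ hμ

/-- A Frobenius element at `ℓ ≠ p` fixing `μ_{p^(n+1)}` forces `ℓ ≡ 1 mod p^(n+1)`. -/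
theorem dvd_sub_one_of_frob (p n : ℕ) (hp : p.Prime) (ℓ : ℕ) (hℓ : ℓ.Prime) (hℓp : ℓ ≠ p)
    (A : ValuationSubring (AlgebraicClosure ℚ)) (hA : A.LiesOverPrime ℓ) (φ : GQ)
    (hφ : A.IsFrobeniusAt φ ℓ) (hφK : φ ∈ cycKer p n) : p ^ (n + 1) ∣ ℓ - 1 := by
  haveI : NeZero (p ^ (n + 1)) := ⟨pow_ne_zero _ hp.ne_zero⟩
  obtain ⟨ζ, hζ⟩ := HasEnoughRootsOfUnity.exists_primitiveRoot (AlgebraicClosure ℚ) (p ^ (n + 1))
  have hcop : (p ^ (n + 1)).Coprime ℓ :=
    Nat.Coprime.pow_left _ ((Nat.coprime_primes hp hℓ).2 (Ne.symm hℓp))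
  have h1 : φ ζ = ζ ^ ℓ :=
    Fermat.Agent.R.H89.stmt_FrobCyc ℓ hℓ A hA φ hφ (p ^ (n + 1)) hcop ζ hζ.pow_eq_one
  have h2 : φ ζ = ζ := hφK ζ hζ.pow_eq_one
  have hζ0 : ζ ≠ 0 := hζ.ne_zero (pow_ne_zero _ hp.ne_zero)
  have h3 : ζ ^ (ℓ - 1) = 1 := by
    have h4 : ζ ^ (ℓ - 1) * ζ = 1 * ζ := by
      rw [← pow_succ, Nat.sub_add_cancel hℓ.one_le, ← h1, h2, one_mul]
    exact mul_right_cancel₀ hζ0 h4
  exact (hζ.pow_eq_one_iff_dvd _).1 h3

/-! ### Linear algebra: eigenvalues of powers -/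

section LinAlg

variable {k V : Type} [Field k] [AddCommGroup V] [Module k V] [Module.Finite k V]

theorem pow_apply_eigen (T : Module.End k V) (v : V) (a : k) (h : T v = a • v) (j : ℕ) :
    (T ^ j) v = a ^ j • v := by
  induction j with
  | zero => simp
  | succ j ih =>
    rw [pow_succ, Module.End.mul_apply, h, map_smul, ih, smul_smul, pow_succ, mul_comm]

theorem charpoly_of_diag (b : Basis (Fin 2) k V) (T : Module.End k V) (a d : k)
    (h0 : T (b 0) = a • b 0) (h1 : T (b 1) = d • b 1) :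
    LinearMap.charpoly T = (X - C a) * (X - C d) := by
  rw [← LinearMap.charpoly_toMatrix T b]
  have : LinearMap.toMatrix b b T = Matrix.diagonal ![a, d] := by
    ext i j
    rw [LinearMap.toMatrix_apply]
    fin_cases i <;> fin_cases j <;> simp [h0, h1, Matrix.diagonal]
  rw [this, Matrix.charpoly_diagonal]
  simp [Fin.prod_univ_two]

/-- If `T = S ^ j'` and `S = T ^ j` and `S` has distinct eigenvalues, so has `T`. -/
theorem distinct_of_pow (hV : finrank k V = 2) (S T : Module.End k V) (j j' : ℕ)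
    (h1 : T = S ^ j') (h2 : S = T ^ j)
    (hS : ∃ α β : k, α ≠ β ∧ LinearMap.charpoly S = (X - C α) * (X - C β)) :
    ∃ α β : k, α ≠ β ∧ LinearMap.charpoly T = (X - C α) * (X - C β) := by
  obtain ⟨α, β, hαβ, hchar⟩ := hS
  obtain ⟨b, hb0, hb1⟩ := Fermat.Agent.S56.H59.exists_eigenbasis hV S α β hαβ hchar
  have hT0 : T (b 0) = α ^ j' • b 0 := by rw [h1]; exact pow_apply_eigen S _ α hb0 j'
  have hT1 : T (b 1) = β ^ j' • b 1 := by rw [h1]; exact pow_apply_eigen S _ β hb1 j'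
  refine ⟨α ^ j', β ^ j', ?_, charpoly_of_diag b T _ _ hT0 hT1⟩
  intro heq
  have hS0 : S (b 0) = (α ^ j') ^ j • b 0 := by
    rw [h2]; exact pow_apply_eigen T _ _ hT0 j
  have hS1 : S (b 1) = (α ^ j') ^ j • b 1 := by
    rw [h2]; exact pow_apply_eigen T _ _ (by rw [heq]; exact hT1) j
  have e0 : α = (α ^ j') ^ j := smul_left_injective k (b.ne_zero 0) (hb0.symm.trans hS0)
  have e1 : β = (α ^ j') ^ j := smul_left_injective k (b.ne_zero 1) (hb1.symm.trans hS1)
  exact hαβ (e0.trans e1.symm)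

theorem charpoly_conj_of_inv (a a' T : Module.End k V) (h : a' * a = 1) :
    LinearMap.charpoly (a * T * a') = LinearMap.charpoly T := by
  let b := Module.finBasis k V
  rw [← LinearMap.charpoly_toMatrix (a * T * a') b, ← LinearMap.charpoly_toMatrix T b,
    LinearMap.toMatrix_mul, Matrix.charpoly_mul_comm, ← LinearMap.toMatrix_mul, ← mul_assoc, h,
    one_mul]

end LinAlg

/-! ### Frobenius elements over the same prime -/

/-- The Frobenius congruence on algebraic integers. -/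
theorem frob_sub_pow_mem (ℓ : ℕ) (A : ValuationSubring (AlgebraicClosure ℚ)) (φ : GQ)
    (hφ : A.IsFrobeniusAt φ ℓ) (b : ZBar) : φ • b - b ^ ℓ ∈ primeUnder A := by
  rw [mem_primeUnder]
  have hb : (b : AlgebraicClosure ℚ) ∈ A :=
    (A.valuation_le_one_iff _).1 (valuation_le_one_of_isIntegral A _ b.2)
  exact Fermat.Agent.Lib.FrobDensity.H97.valuation_frob_sub_pow_lt_one A φ ℓ hφ _ hb

/-- Two Frobenius elements at places over the same prime are conjugate modulo inertia. -/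
theorem exists_conj_frob (ℓ : ℕ) (hℓ : ℓ.Prime)
    (A P : ValuationSubring (AlgebraicClosure ℚ)) (hA : A.LiesOverPrime ℓ)
    (hP : P.LiesOverPrime ℓ) (φ φ' : GQ) (hφ : A.IsFrobeniusAt φ ℓ)
    (hφ' : P.IsFrobeniusAt φ' ℓ) :
    ∃ g : GQ, (g * φ * g⁻¹)⁻¹ * φ' ∈ P.inertiaSubgroupIn ℚ := by
  obtain ⟨g, hg⟩ := exists_smul_primeUnder ℓ hℓ A P hA hP
  refine ⟨g, ?_⟩
  have hφstab : φ • primeUnder A = primeUnder A :=
    (mem_decompositionSubgroup_iff ℓ hℓ A hA φ).1 hφ.mem_decompositionSubgroup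
  set ψ : GQ := g * φ * g⁻¹ with hψ
  have hψstab : ψ • primeUnder P = primeUnder P := by
    rw [hg, hψ, mul_smul, mul_smul, inv_smul_smul, hφstab]
  have hψinv : ψ⁻¹ • primeUnder P = primeUnder P := by
    conv_lhs => rw [← hψstab]
    rw [inv_smul_smul]
  rw [mem_inertiaSubgroupIn_iff ℓ hℓ P hP]
  intro b
  have h1 : φ' • b - b ^ ℓ ∈ primeUnder P := frob_sub_pow_mem ℓ P φ' hφ' b
  have h2 : ψ • b - b ^ ℓ ∈ primeUnder P := by
    have h3 : φ • (g⁻¹ • b) - (g⁻¹ • b) ^ ℓ ∈ primeUnder A := frob_sub_pow_mem ℓ A φ hφ _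
    have h4 : g • (φ • (g⁻¹ • b) - (g⁻¹ • b) ^ ℓ) ∈ g • primeUnder A :=
      Ideal.smul_mem_pointwise_smul_iff.2 h3
    rw [← hg] at h4
    have h5 : g • (φ • (g⁻¹ • b) - (g⁻¹ • b) ^ ℓ) = ψ • b - b ^ ℓ := by
      rw [smul_sub, smul_pow', smul_inv_smul, hψ, mul_smul, mul_smul]
    rw [h5] at h4
    exact h4
  have h6 : φ' • b - ψ • b ∈ primeUnder P := by
    have := (primeUnder P).sub_mem h1 h2
    rwa [sub_sub_sub_cancel_right] at this
  have h7 : ψ⁻¹ • (φ' • b - ψ • b) ∈ ψ⁻¹ • primeUnder P :=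
    Ideal.smul_mem_pointwise_smul_iff.2 h6
  rw [hψinv, smul_sub, inv_smul_smul, ← mul_smul] at h7
  exact h7

/-- For an unramified residual representation the characteristic polynomial of Frobenius does
not depend on the choice of the place and of the Frobenius element. -/
theorem charpoly_frob_eq {k : Type} [Field k] (ρbar : ResidualGaloisRep k) (ℓ : ℕ) (hℓ : ℓ.Prime)
    (hunr : ρbar.IsUnramifiedAt ℓ)
    (A P : ValuationSubring (AlgebraicClosure ℚ)) (hA : A.LiesOverPrime ℓ)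
    (hP : P.LiesOverPrime ℓ) (φ φ' : GQ) (hφ : A.IsFrobeniusAt φ ℓ)
    (hφ' : P.IsFrobeniusAt φ' ℓ) :
    LinearMap.charpoly (ρbar.ρ φ') = LinearMap.charpoly (ρbar.ρ φ) := by
  obtain ⟨g, hg⟩ := exists_conj_frob ℓ hℓ A P hA hP φ φ' hφ hφ'
  have h1 : ρbar.ρ ((g * φ * g⁻¹)⁻¹ * φ') = 1 := hunr P hP _ hg
  have h2 : ρbar.ρ φ' = ρbar.ρ g * ρbar.ρ φ * ρbar.ρ g⁻¹ := by
    have h3 : φ' = (g * φ * g⁻¹) * ((g * φ * g⁻¹)⁻¹ * φ') := by rw [mul_inv_cancel_left]
    conv_lhs => rw [h3]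
    rw [map_mul, h1, mul_one, map_mul, map_mul]
  rw [h2]
  exact charpoly_conj_of_inv _ _ _ (by rw [← map_mul, inv_mul_cancel, map_one])

/-! ### The main theorem -/

/-- **TWS-D** from the local input. -/
theorem stmt_prime_of_loc (hloc : Stmt_loc) : Stmt_prime := by
  intro 𝒪 _ _ _ _ _ p _ _ ρbar S Smin hyp c hc n σ hσ hdist hne S'
  have hp : p.Prime := Fact.out
  obtain ⟨F, hFfin, hF⟩ := hc
  obtain ⟨Lρ, hLρfin, hLρ⟩ := ρbar.factorsThroughFiniteLevel
  have hcycfin := cycField_finiteDimensional (p ^ (n + 1)) (pow_pos hp.pos _)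
  haveI := hFfin
  haveI := hLρfin
  haveI := hcycfin
  set L : IntermediateField ℚ (AlgebraicClosure ℚ) := F ⊔ Lρ ⊔ cycField (p ^ (n + 1)) with hL
  have hLfin : FiniteDimensional ℚ L := inferInstance
  have hFL : F ≤ L := le_sup_of_le_left le_sup_left
  have hLρL : Lρ ≤ L := le_sup_of_le_left le_sup_right
  have hcycL : cycField (p ^ (n + 1)) ≤ L := le_sup_right
  -- `ρbar` and `M'` are trivial on the fixing subgroup of `L`
  have hρL : ∀ s : GQ, s ∈ L.fixingSubgroup → ρbar.ρ s = 1 := fun s hs =>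
    hLρ s fun x hx => (IntermediateField.mem_fixingSubgroup_iff L s).1 hs x (hLρL hx)
  have hML : ∀ s : GQ, s ∈ L.fixingSubgroup → (tateDual p (ad0 ρbar)).ρ s = 1 := by
    intro s hs
    refine Fermat.Agent.S56.H47.tateDual_ρ_eq_one p (ad0 ρbar) s
      (Fermat.Agent.S56.H47.ad0_ρ_eq_one ρbar s (hρL s hs)) ?_
    refine Fermat.Agent.S56.H47.cycloK_eq_one_of_fix p _ s fun t ht => ?_
    refine (IntermediateField.mem_fixingSubgroup_iff L s).1 hs t (hcycL (mem_cycField _ t ?_))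
    rw [pow_succ, pow_mul', ht, one_pow]
  have hcL : ∀ g s : GQ, s ∈ L.fixingSubgroup →
      (c : GQ → tateDual p (ad0 ρbar)) (g * s) = c g := fun g s hs =>
    hF g s (IntermediateField.fixingSubgroup_antitone hFL hs)
  -- Frobenius density
  obtain ⟨ℓ, A, φ, j, j', hℓ, hℓS, hA, hφ, h1, h2⟩ :=
    Fermat.Agent.Lib.FrobDensity.H47.stmt_FD2 (S' ∪ S ∪ {p}) L hLfin σ
  have hℓS' : ℓ ∉ S' := fun h => hℓS (Finset.mem_union_left _ (Finset.mem_union_left _ h))
  have hℓS0 : ℓ ∉ S := fun h => hℓS (Finset.mem_union_left _ (Finset.mem_union_right _ h))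
  have hℓp : ℓ ≠ p := fun h => hℓS (Finset.mem_union_right _ (Finset.mem_singleton.2 h))
  have hunr : ρbar.IsUnramifiedAt ℓ := by
    by_contra hcon
    exact hℓS0 (hyp.hSmin ((hyp.hmin ℓ hℓ hℓp).2 hcon))
  have hρφ : ρbar.ρ φ = ρbar.ρ σ ^ j' := by
    rw [← map_pow]
    exact hom_agree ρbar.ρ L hρL (σ ^ j') φ h2
  have hρσ : ρbar.ρ σ = ρbar.ρ φ ^ j := by
    rw [← map_pow]
    exact hom_agree ρbar.ρ L hρL (φ ^ j) σ h1
  have hdistφ : HasDistinctEig ρbar φ :=
    distinct_of_pow ρbar.finrank_eq (ρbar.ρ σ) (ρbar.ρ φ) j j' hρφ hρσ hdist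
  refine ⟨⟨ℓ, hℓ⟩, hℓS', hℓS0, ?_, ?_, ?_⟩
  · exact dvd_sub_one_of_frob p n hp ℓ hℓ hℓp A hA φ hφ
      (mem_cycKer_of_agree p n σ φ j' L hcycL hσ h2)
  · intro P hP φ' hφ'
    obtain ⟨α, β, hαβ, hchar⟩ := hdistφ
    exact ⟨α, β, hαβ, (charpoly_frob_eq ρbar ℓ hℓ hunr A P hA hP φ φ' hφ hφ').trans hchar⟩
  · intro h0
    obtain ⟨m, hm⟩ := hloc _ (tateDual p (ad0 ρbar)) L hLfin hML c hcL ⟨ℓ, hℓ⟩ A hA φ
      hφ.mem_decompositionSubgroup h0
    have h3 := Fermat.Agent.S56.H9.cocycle_pow c φ m hm j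
    have h4 : (c : GQ → tateDual p (ad0 ρbar)) σ = c (φ ^ j) :=
      levelConstant_agree (c : GQ → tateDual p (ad0 ρbar)) L hcL (φ ^ j) σ h1
    have h5 : (tateDual p (ad0 ρbar)).ρ σ = (tateDual p (ad0 ρbar)).ρ (φ ^ j) :=
      hom_agree (tateDual p (ad0 ρbar)).ρ L hML (φ ^ j) σ h1
    exact hne m (by rw [h4, h3, h5])

end Fermat.Agent.S56.TWS.H64

end
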