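import Fermat.Agent.S56.TWS.H74_KillDefs

set_option autoImplicit false
set_option linter.unusedSimpArgs false
set_option linter.unusedVariables false

/-!
# TW-SELECT, package TWS-A (helper74): from `τ = 0` to a coboundary

In normalised coordinates (`R u = Umat`, `R w = 1 + N'` with `N' 1 0 ≠ 0`): subtract two
coboundaries to get `c u = c w = 0`; then `Stmt_H1_N34` applies.
-/

namespace Fermat.Agent.S56.TWS.H74

open Matrix

variable {k : Type} [Field k] {G : Type} [Group G]
variable {R : G →* Matrix (Fin 2) (Fin 2) k} {χ : G →* kˣ}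
  {c : G → Matrix (Fin 2) (Fin 2) k}

theorem R_inv_eq (R : G →* Matrix (Fin 2) (Fin 2) k) (g : G) {B : Matrix (Fin 2) (Fin 2) k}
    (hB : B * R g = 1) : R g⁻¹ = B := by
  calc R g⁻¹ = (B * R g) * R g⁻¹ := by rw [hB, one_mul]
    _ = B := by rw [mul_assoc, R_mul_inv, mul_one]

/-- The coboundary is a cocycle. -/
theorem cobd_mul (R : G →* Matrix (Fin 2) (Fin 2) k) (χ : G →* kˣ)
    (m : Matrix (Fin 2) (Fin 2) k) (g x : G) :
    cobd R χ m (g * x) = cobd R χ m g + (χ g : k) • (R g * cobd R χ m x * R g⁻¹) := by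
  unfold cobd
  have e : R (g * x) * m * R (g * x)⁻¹ = R g * (R x * m * R x⁻¹) * R g⁻¹ := by
    rw [map_mul, _root_.mul_inv_rev, map_mul]
    simp only [mul_assoc]
  have e2 : R g * m * R g⁻¹ = R g * m * R g⁻¹ := rfl
  rw [e, map_mul, Units.val_mul, mul_sub, sub_mul, Matrix.mul_smul, Matrix.smul_mul, smul_sub,
    smul_smul]
  abel

theorem TwCoc.sub_cobd (h : TwCoc R χ c) {m : Matrix (Fin 2) (Fin 2) k} (hm : m.trace = 0) :
    TwCoc R χ (fun g => c g - cobd R χ m g) where
  det := h.det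
  tr g := by
    show (c g - cobd R χ m g).trace = 0
    unfold cobd
    rw [Matrix.trace_sub, Matrix.trace_sub, Matrix.trace_smul, h.tr, hm, mul_assoc,
      Matrix.trace_mul_comm, mul_assoc, R_inv_mul, mul_one, hm]
    simp
  mul g x := by
    show c (g * x) - cobd R χ m (g * x) =
      c g - cobd R χ m g + (χ g : k) • (R g * (c x - cobd R χ m x) * R g⁻¹)
    rw [h.mul, cobd_mul, mul_sub, sub_mul, smul_sub]
    abel
  ker s hs := by
    show c s - cobd R χ m s = 0
    have hχ : χ s = 1 := chi_eq_one_of_det h (by rw [hs, Matrix.det_one])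
    have hinv : R s⁻¹ = 1 := R_inv_eq R s (by rw [hs, mul_one])
    unfold cobd
    rw [h.ker s hs, hs, hinv, hχ, Units.val_one, one_smul, one_mul, mul_one, sub_self, sub_zero]

theorem tau_sub_cobd (m : Matrix (Fin 2) (Fin 2) k) {g : G} (hg : χ g = 1) :
    tau R (fun g => c g - cobd R χ m g) g = tau R c g := by
  show ((c g - cobd R χ m g) * R g).trace = (c g * R g).trace
  unfold cobd
  rw [hg, Units.val_one, one_smul, sub_mul, sub_mul, Matrix.trace_sub, Matrix.trace_sub,
    mul_assoc (R g * m), R_inv_mul, mul_one, Matrix.trace_mul_comm (R g) m, sub_self, sub_zero]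

theorem cobd_add (m m' : Matrix (Fin 2) (Fin 2) k) (g : G) :
    cobd R χ (m + m') g = cobd R χ m g + cobd R χ m' g := by
  unfold cobd
  rw [mul_add, add_mul, smul_add]
  abel

section Normalised

theorem R_u_inv {u : G} (hu : R u = Umat) : R u⁻¹ = Vmat := by
  apply R_inv_eq
  rw [hu]
  apply ext2 <;> simp [mul_apply2]

theorem R_w_inv {w : G} {N' : Matrix (Fin 2) (Fin 2) k} (hw : R w = 1 + N')
    (hNN : N' * N' = 0) : R w⁻¹ = 1 - N' := by
  apply R_inv_eq
  rw [hw, sub_mul, mul_add, mul_add, one_mul, mul_one, hNN]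
  simp

/-- Step N1: kill `c u`. -/
theorem exists_m1 (h : TwCoc R χ c) {u : G} (hu : R u = Umat) (h2 : (2 : k) ≠ 0)
    (hτu : tau R c u = 0) :
    ∃ m : Matrix (Fin 2) (Fin 2) k, m.trace = 0 ∧ c u = cobd R χ m u := by
  have hχu := chi_of_Umat h hu
  have htr : c u 0 0 + c u 1 1 = 0 := by rw [← trace2]; exact h.tr u
  have hz : c u 1 0 = 0 := by
    unfold tau at hτu
    rw [hu, trace2] at hτu
    simp only [mul_apply2, Umat_00, Umat_01, Umat_10, Umat_11] at hτu
    linear_combination hτu - htr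
  have h11 : c u 1 1 = - c u 0 0 := by linear_combination htr
  refine ⟨mk2 (-(c u 0 0 + c u 0 1) / 2) 0 (c u 0 0) ((c u 0 0 + c u 0 1) / 2), ?_, ?_⟩
  · rw [trace2]
    simp only [mk2_00, mk2_11]
    ring
  · unfold cobd
    rw [hχu, Units.val_one, one_smul, hu, R_u_inv hu]
    apply ext2
    · simp only [Matrix.sub_apply, mul_apply2, mk2_00, mk2_01, mk2_10, mk2_11, Umat_00, Umat_01,
        Umat_10, Umat_11, Vmat_00, Vmat_01, Vmat_10, Vmat_11]
      ring
    · simp only [Matrix.sub_apply, mul_apply2, mk2_00, mk2_01, mk2_10, mk2_11, Umat_00, Umat_01,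
        Umat_10, Umat_11, Vmat_00, Vmat_01, Vmat_10, Vmat_11]
      field_simp
      ring
    · simp only [Matrix.sub_apply, mul_apply2, mk2_00, mk2_01, mk2_10, mk2_11, Umat_00, Umat_01,
        Umat_10, Umat_11, Vmat_00, Vmat_01, Vmat_10, Vmat_11]
      rw [hz]
      ring
    · simp only [Matrix.sub_apply, mul_apply2, mk2_00, mk2_01, mk2_10, mk2_11, Umat_00, Umat_01,
        Umat_10, Umat_11, Vmat_00, Vmat_01, Vmat_10, Vmat_11]
      rw [h11]
      ring

/-- Step N2: kill `c w`, keeping `c u = 0`. -/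
theorem exists_b (h : TwCoc R χ c) {u w : G} (hu : R u = Umat) (hcu : c u = 0)
    {N' : Matrix (Fin 2) (Fin 2) k} (hw : R w = 1 + N') (hχw : χ w = 1)
    (hNt : N'.trace = 0) (hNN : N' * N' = 0) (hn3 : N' 1 0 ≠ 0)
    (hτw : tau R c w = 0) (hτwu : tau R c (w * u) = 0) :
    ∃ b : k, c w = cobd R χ (b • Emat) w := by
  have htr : c w 0 0 + c w 1 1 = 0 := by rw [← trace2]; exact h.tr w
  have hN11 : N' 1 1 = - N' 0 0 := by
    rw [trace2] at hNt
    linear_combination hNt
  have e00 := congrFun (congrFun hNN 0) 0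
  simp only [mul_apply2, Matrix.zero_apply] at e00
  have hN01 : N' 0 1 = - (N' 0 0) ^ 2 / N' 1 0 := by
    field_simp
    linear_combination e00
  have hC11 : c w 1 1 = - c w 0 0 := by linear_combination htr
  -- τ(w) = 0
  have H2 : 2 * c w 0 0 * N' 0 0 + c w 0 1 * N' 1 0 + c w 1 0 * N' 0 1 = 0 := by
    unfold tau at hτw
    rw [hw, trace2] at hτw
    simp only [mul_apply2, Matrix.add_apply, Matrix.one_apply_eq, Matrix.one_apply_ne,
      ne_eq, one_ne_zero, zero_ne_one, not_false_eq_true, Fin.isValue, hN11, hC11] at hτw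
    linear_combination hτw
  -- τ(w u) = 0
  have hcwu : c (w * u) = c w := by
    rw [h.mul, hcu, mul_zero, zero_mul, smul_zero, add_zero]
  have H3 : c w 1 0 * (1 + N' 0 0) - c w 0 0 * N' 1 0 = 0 := by
    unfold tau at hτwu
    rw [hcwu, map_mul, hw, hu, trace2] at hτwu
    simp only [mul_apply2, Matrix.add_apply, Matrix.one_apply_eq, Matrix.one_apply_ne,
      ne_eq, one_ne_zero, zero_ne_one, not_false_eq_true, Fin.isValue, hN11, hC11,
      Umat_00, Umat_01, Umat_10, Umat_11] at hτwu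
    linear_combination hτwu - H2
  have hC00 : c w 0 0 = c w 1 0 * (1 + N' 0 0) / N' 1 0 := by
    field_simp
    linear_combination -H3
  have hC01 : c w 0 1 = - (2 * c w 0 0 * N' 0 0 + c w 1 0 * N' 0 1) / N' 1 0 := by
    field_simp
    linear_combination H2
  refine ⟨- c w 1 0 / (N' 1 0) ^ 2, ?_⟩
  unfold cobd
  rw [hχw, Units.val_one, one_smul, hw, R_w_inv hw hNN]
  apply ext2
  · simp only [mul_apply2, Matrix.add_apply, Matrix.sub_apply, Matrix.smul_apply,
      Matrix.one_apply_eq, Matrix.one_apply_ne, ne_eq, one_ne_zero, zero_ne_one,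
      not_false_eq_true, Fin.isValue, Emat_00, Emat_01, Emat_10, Emat_11, smul_eq_mul]
    try simp only [hC01, hC11, hC00, hN01, hN11]
    field_simp
    ring
  · simp only [mul_apply2, Matrix.add_apply, Matrix.sub_apply, Matrix.smul_apply,
      Matrix.one_apply_eq, Matrix.one_apply_ne, ne_eq, one_ne_zero, zero_ne_one,
      not_false_eq_true, Fin.isValue, Emat_00, Emat_01, Emat_10, Emat_11, smul_eq_mul]
    try simp only [hC01, hC11, hC00, hN01, hN11]
    field_simp
    ring
  · simp only [mul_apply2, Matrix.add_apply, Matrix.sub_apply, Matrix.smul_apply,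
      Matrix.one_apply_eq, Matrix.one_apply_ne, ne_eq, one_ne_zero, zero_ne_one,
      not_false_eq_true, Fin.isValue, Emat_00, Emat_01, Emat_10, Emat_11, smul_eq_mul]
    try simp only [hC01, hC11, hC00, hN01, hN11]
    field_simp
    ring
  · simp only [mul_apply2, Matrix.add_apply, Matrix.sub_apply, Matrix.smul_apply,
      Matrix.one_apply_eq, Matrix.one_apply_ne, ne_eq, one_ne_zero, zero_ne_one,
      not_false_eq_true, Fin.isValue, Emat_00, Emat_01, Emat_10, Emat_11, smul_eq_mul]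
    try simp only [hC01, hC11, hC00, hN01, hN11]
    field_simp
    ring

theorem cobd_smul_Emat_u {u : G} (hu : R u = Umat) (hχu : χ u = 1) (b : k) :
    cobd R χ (b • Emat) u = 0 := by
  unfold cobd
  rw [hχu, Units.val_one, one_smul, hu, R_u_inv hu]
  apply ext2 <;>
    simp [mul_apply2]

/-- The kill argument in normalised coordinates. -/
theorem kill_normalised (h34 : Stmt_H1_N34) (h2 : (2 : k) ≠ 0) (h : TwCoc R χ c)
    (hτ : ∀ g, χ g = 1 → tau R c g = 0) {u x : G} (hu : R u = Umat) (hx : R x 1 0 ≠ 0) :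
    ∃ m : Matrix (Fin 2) (Fin 2) k, m.trace = 0 ∧ ∀ g, c g = cobd R χ m g := by
  have hχu := chi_of_Umat h hu
  obtain ⟨m₁, hm₁t, hm₁⟩ := exists_m1 h hu h2 (hτ u hχu)
  have h₁ : TwCoc R χ (fun g => c g - cobd R χ m₁ g) := h.sub_cobd hm₁t
  have hτ₁ : ∀ g, χ g = 1 → tau R (fun g => c g - cobd R χ m₁ g) g = 0 := fun g hg => by
    rw [tau_sub_cobd m₁ hg]
    exact hτ g hg
  have hc₁u : (fun g => c g - cobd R χ m₁ g) u = 0 := by
    show c u - cobd R χ m₁ u = 0
    rw [hm₁, sub_self]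
  obtain ⟨hRw, hNN', hNt', hn⟩ := conj_data h hu x
  have hχw : χ (x * u * x⁻¹) = 1 := by
    rw [map_mul, map_mul, hχu, mul_one, map_inv, mul_inv_cancel]
  have hn3 : (R x * Emat * R x⁻¹ : Matrix (Fin 2) (Fin 2) k) 1 0 ≠ 0 := by
    intro h0
    have e : (Emat * (R x * Emat * R x⁻¹)).trace =
        (R x * Emat * R x⁻¹ : Matrix (Fin 2) (Fin 2) k) 1 0 := by
      rw [trace2, mul_apply2 Emat, mul_apply2 Emat]
      simp
    rw [e, h0, zero_mul] at hn
    have : R x 1 0 ^ 2 = 0 := by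
      have h3 := neg_eq_zero.mp hn.symm
      exact h3
    exact hx (pow_eq_zero_iff (two_ne_zero) |>.mp this)
  have hχwu : χ (x * u * x⁻¹ * u) = 1 := by rw [map_mul, hχw, hχu, one_mul]
  obtain ⟨b, hb⟩ := exists_b h₁ hu hc₁u hRw hχw hNt' hNN' hn3 (hτ₁ _ hχw) (hτ₁ _ hχwu)
  have hbt : (b • (Emat : Matrix (Fin 2) (Fin 2) k)).trace = 0 := by
    rw [Matrix.trace_smul, Emat_trace, smul_zero]
  have h₂ : TwCoc R χ (fun g => (fun g => c g - cobd R χ m₁ g) g - cobd R χ (b • Emat) g) :=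
    h₁.sub_cobd hbt
  have hτ₂ : ∀ g, χ g = 1 →
      tau R (fun g => (fun g => c g - cobd R χ m₁ g) g - cobd R χ (b • Emat) g) g = 0 :=
    fun g hg => by
      rw [tau_sub_cobd (b • Emat) hg]
      exact hτ₁ g hg
  have hc₂u : (fun g => (fun g => c g - cobd R χ m₁ g) g - cobd R χ (b • Emat) g) u = 0 := by
    show (fun g => c g - cobd R χ m₁ g) u - cobd R χ (b • Emat) u = 0
    rw [hc₁u, cobd_smul_Emat_u hu hχu, sub_zero]
  have hc₂w : (fun g => (fun g => c g - cobd R χ m₁ g) g - cobd R χ (b • Emat) g)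
      (x * u * x⁻¹) = 0 := by
    exact sub_eq_zero.mpr hb
  have hRw10 : R (x * u * x⁻¹) 1 0 ≠ 0 := by
    rw [hRw]
    simpa using hn3
  have key := h34 k h2 G R χ _ h₂ hτ₂ u (x * u * x⁻¹) hχu hχw hu hRw10 hc₂u hc₂w
  refine ⟨m₁ + b • Emat, ?_, fun g => ?_⟩
  · rw [Matrix.trace_add, hm₁t, hbt, add_zero]
  · have hg : c g - cobd R χ m₁ g - cobd R χ (b • Emat) g = 0 := key g
    rw [cobd_add]
    have e := sub_eq_zero.mp hg
    exact (sub_eq_iff_eq_add'.mp e).trans (add_comm _ _) |>.trans (add_comm _ _)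

end Normalised

/-- The case with a unipotent element, from the last step. -/
theorem stmt_H1_kill_of (h34 : Stmt_H1_N34) : Stmt_H1_kill := by
  intro k _ p _ _ hp2 G _ R χ c h hirr hτ u hχu htr hne
  have h2 : (2 : k) ≠ 0 := by
    have := natCast_ne_zero_of_prime (k := k) p Nat.prime_two hp2
    simpa using this
  have hNN : (R u - 1) * (R u - 1) = 0 := by
    rw [sub_mul, mul_sub, mul_sub, mul_one, one_mul, mul_one, cayley, htr, h.det_one hχu]
    simp only [one_smul]
    module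
  have hN0 : R u - 1 ≠ 0 := fun h0 => hne (sub_eq_zero.mp h0)
  obtain ⟨P, P', hP, hP', hE⟩ := exists_normalise hN0 hNN
  obtain ⟨x, hx⟩ := hirr (R u - 1) hN0 hNN
  have h' := h.conj P P' hP hP'
  have hτ' : ∀ g, χ g = 1 → tau (conjHom P P' hP hP' R) (fun g => P' * c g * P) g = 0 :=
    fun g hg => by
      rw [tau_conjHom]
      exact hτ g hg
  have hu' : conjHom P P' hP hP' R u = Umat := by
    have e : R u = 1 + (R u - 1) := by abel
    rw [conjHom_apply, e, mul_add, add_mul, mul_one, hP, hE, Umat_eq]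
  have hx' : conjHom P P' hP hP' R x 1 0 ≠ 0 := by
    intro h0
    apply hx
    have e : Emat * conjHom P P' hP hP' R x * Emat = 0 := by
      rw [Emat_mul_mul, h0, zero_smul]
    rw [conjHom_apply, ← hE, conj_mul P P' hP', conj_mul P P' hP'] at e
    exact conj_eq_zero P P' hP' e
  obtain ⟨m, hmt, hm⟩ := kill_normalised h34 h2 h' hτ' hu' hx'
  refine ⟨P * m * P', ?_, fun g => ?_⟩
  · rw [mul_assoc, Matrix.trace_mul_comm, mul_assoc, hP, mul_one, hmt]
  · rw [← cobd_conjHom P P' hP hP' m g, ← hm g]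
    calc c g = (P * P') * c g * (P * P') := by rw [hP', one_mul, mul_one]
      _ = P * (P' * c g * P) * P' := by simp only [mul_assoc]

end Fermat.Agent.S56.TWS.H74
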