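import Fermat.Agent.S56.TWS.H74_MatDefs

set_option autoImplicit false

/-!
# TW-SELECT, package TWS-A (helper74): the last step of the "kill" argument

`Stmt_H1_N34`: a twisted cocycle with `τ = 0` on `ker χ` which vanishes at two elements
`u, w ∈ ker χ` with `R u = [[1,1],[0,1]]` and `(R w) 1 0 ≠ 0` is zero.

Proof (N3): for `g ∈ ker χ` and `h ∈ {1, u, w, u w}`: `c (g h) = c g`, so
`tr (c g * R g * R h) = τ (g h) = 0`; the matrices `1, U, W, U W` span `M₂(k)`, so
`c g * R g = 0`, `c g = 0`.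
(N4): for all `g` and `h ∈ ker χ`: `c (g h) = c g` and `g h = (g h g⁻¹) g` give
`c g = R (g h g⁻¹) * c g * R (g h g⁻¹)⁻¹`; so `c g` commutes with `U` and `W`, hence is scalar,
hence zero (trace zero, `2 ≠ 0`).
-/

namespace Fermat.Agent.S56.TWS.H74

open Matrix

/-- The last step (N3 + N4) of the kill argument. -/
def Stmt_H1_N34 : Prop :=
  ∀ (k : Type) [Field k], (2 : k) ≠ 0 →
    ∀ (G : Type) [Group G] (R : G →* Matrix (Fin 2) (Fin 2) k) (χ : G →* kˣ)
      (c : G → Matrix (Fin 2) (Fin 2) k), TwCoc R χ c →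
      (∀ g, χ g = 1 → tau R c g = 0) →
      ∀ u w : G, χ u = 1 → χ w = 1 → R u = Umat → (R w) 1 0 ≠ 0 → c u = 0 → c w = 0 →
      ∀ g, c g = 0

end Fermat.Agent.S56.TWS.H74
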