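import Fermat.Agent.S56.TWS.H74_Kill
import Fermat.Agent.S56.TWS.H64_N34
import Fermat.Agent.S56.TWS.H01_Avg

set_option autoImplicit false

/-!
# TW-SELECT, package TWS-A (helper74): the matrix form of `H¹(ρbar(G), ad⁰(1)) = 0`

Unconditional: `stmt_H1_matrix : Stmt_H1_matrix`, from `tau_all` (H74), the kill argument
(H74 + helper64's `stmt_H1_N34`) and the averaging case (helper1's `stmt_H1_avg`).
-/

namespace Fermat.Agent.S56.TWS.H74

/-- **TWS-A, matrix form** (unconditional). -/
theorem stmt_H1_matrix : Stmt_H1_matrix :=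
  stmt_H1_matrix_of (stmt_H1_kill_of Fermat.Agent.S56.TWS.H64.stmt_H1_N34)
    Fermat.Agent.S56.TWS.H01.stmt_H1_avg

end Fermat.Agent.S56.TWS.H74
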