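import Fermat.Agent.S56.TWS.H74_Unip

set_option autoImplicit false

/-!
# TW-SELECT, package TWS-A (helper74): `τ = 0` on `ker χ`

Conjugation of the data, normalisation of a nilpotent matrix, and the vanishing of `τ`.
-/

namespace Fermat.Agent.S56.TWS.H74

open Matrix

variable {k : Type} [Field k] {G : Type} [Group G]
variable {R : G →* Matrix (Fin 2) (Fin 2) k} {χ : G →* kˣ}
  {c : G → Matrix (Fin 2) (Fin 2) k}

/-- The conjugate of `R` by `P`. -/
def conjHom (P P' : Matrix (Fin 2) (Fin 2) k) (hP : P' * P = 1) (hP' : P * P' = 1)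
    (R : G →* Matrix (Fin 2) (Fin 2) k) : G →* Matrix (Fin 2) (Fin 2) k where
  toFun g := P' * R g * P
  map_one' := by rw [map_one, mul_one, hP]
  map_mul' a b := by
    rw [map_mul]
    calc P' * (R a * R b) * P = P' * R a * 1 * (R b * P) := by simp only [mul_one, mul_assoc]
      _ = P' * R a * P * (P' * R b * P) := by rw [← hP']; simp only [mul_assoc]

theorem conjHom_apply (P P' : Matrix (Fin 2) (Fin 2) k) (hP : P' * P = 1) (hP' : P * P' = 1)
    (R : G →* Matrix (Fin 2) (Fin 2) k) (g : G) : conjHom P P' hP hP' R g = P' * R g * P := rfl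

theorem conj_trace (P P' : Matrix (Fin 2) (Fin 2) k) (hP' : P * P' = 1)
    (A : Matrix (Fin 2) (Fin 2) k) : (P' * A * P).trace = A.trace := by
  rw [mul_assoc, Matrix.trace_mul_comm, mul_assoc, hP', mul_one]

theorem conj_mul (P P' : Matrix (Fin 2) (Fin 2) k) (hP' : P * P' = 1)
    (A B : Matrix (Fin 2) (Fin 2) k) : P' * A * P * (P' * B * P) = P' * (A * B) * P := by
  calc P' * A * P * (P' * B * P) = P' * A * (P * P') * B * P := by simp only [mul_assoc]
    _ = P' * (A * B) * P := by rw [hP', mul_one]; simp only [mul_assoc]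

theorem conj_eq_zero (P P' : Matrix (Fin 2) (Fin 2) k) (hP' : P * P' = 1)
    {A : Matrix (Fin 2) (Fin 2) k} (h : P' * A * P = 0) : A = 0 := by
  calc A = (P * P') * A * (P * P') := by rw [hP', one_mul, mul_one]
    _ = P * (P' * A * P) * P' := by simp only [mul_assoc]
    _ = 0 := by rw [h, mul_zero, zero_mul]

theorem TwCoc.conj (h : TwCoc R χ c) (P P' : Matrix (Fin 2) (Fin 2) k) (hP : P' * P = 1)
    (hP' : P * P' = 1) : TwCoc (conjHom P P' hP hP' R) χ (fun g => P' * c g * P) where
  det g := by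
    rw [conjHom_apply, Matrix.det_mul, Matrix.det_mul, mul_right_comm, ← Matrix.det_mul, hP,
      Matrix.det_one, one_mul, h.det]
  tr g := by rw [conj_trace P P' hP', h.tr]
  mul g x := by
    simp only [conjHom_apply]
    rw [h.mul, conj_mul P P' hP', conj_mul P P' hP', mul_add, add_mul, Matrix.mul_smul,
      Matrix.smul_mul]
  ker s hs := by
    rw [conjHom_apply] at hs
    have : R s = 1 := by
      calc R s = (P * P') * R s * (P * P') := by rw [hP', one_mul, mul_one]
        _ = P * (P' * R s * P) * P' := by simp only [mul_assoc]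
        _ = 1 := by rw [hs, mul_one, hP']
    rw [h.ker s this, mul_zero, zero_mul]

theorem tau_conjHom (P P' : Matrix (Fin 2) (Fin 2) k) (hP : P' * P = 1) (hP' : P * P' = 1)
    (g : G) : tau (conjHom P P' hP hP' R) (fun g => P' * c g * P) g = tau R c g := by
  unfold tau
  rw [conjHom_apply, conj_mul P P' hP', conj_trace P P' hP']

theorem cobd_conjHom (P P' : Matrix (Fin 2) (Fin 2) k) (hP : P' * P = 1) (hP' : P * P' = 1)
    (m : Matrix (Fin 2) (Fin 2) k) (g : G) :
    P * cobd (conjHom P P' hP hP' R) χ m g * P' = cobd R χ (P * m * P') g := by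
  unfold cobd
  simp only [conjHom_apply]
  rw [mul_sub, sub_mul, Matrix.mul_smul, Matrix.smul_mul]
  congr 2
  calc P * (P' * R g * P * m * (P' * R g⁻¹ * P)) * P'
      = (P * P') * R g * (P * m * P') * R g⁻¹ * (P * P') := by simp only [mul_assoc]
    _ = R g * (P * m * P') * R g⁻¹ := by rw [hP', one_mul, mul_one]

/-- A `2 × 2` matrix from its entries (opaque to `simp`). -/
def mk2 (a b c d : k) : Matrix (Fin 2) (Fin 2) k := !![a, b; c, d]

omit [Field k] in
@[simp] theorem mk2_00 (a b c d : k) : mk2 a b c d 0 0 = a := rfl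
omit [Field k] in
@[simp] theorem mk2_01 (a b c d : k) : mk2 a b c d 0 1 = b := rfl
omit [Field k] in
@[simp] theorem mk2_10 (a b c d : k) : mk2 a b c d 1 0 = c := rfl
omit [Field k] in
@[simp] theorem mk2_11 (a b c d : k) : mk2 a b c d 1 1 = d := rfl

theorem mul_apply2 (A B : Matrix (Fin 2) (Fin 2) k) (i j : Fin 2) :
    (A * B) i j = A i 0 * B 0 j + A i 1 * B 1 j := by
  rw [Matrix.mul_apply, Fin.sum_univ_two]

/-- A nonzero nilpotent matrix is conjugate to the standard one. -/
theorem exists_normalise {N : Matrix (Fin 2) (Fin 2) k} (hN0 : N ≠ 0) (hNN : N * N = 0) :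
    ∃ P P' : Matrix (Fin 2) (Fin 2) k, P' * P = 1 ∧ P * P' = 1 ∧ P' * N * P = Emat := by
  have e00 := congrFun (congrFun hNN 0) 0
  have e01 := congrFun (congrFun hNN 0) 1
  have e10 := congrFun (congrFun hNN 1) 0
  have e11 := congrFun (congrFun hNN 1) 1
  simp only [mul_apply2, Matrix.zero_apply] at e00 e01 e10 e11
  by_cases hb : N 0 1 = 0
  · have ha : N 0 0 = 0 := by
      rw [hb, zero_mul, add_zero] at e00
      exact mul_self_eq_zero.mp e00
    have hd : N 1 1 = 0 := by
      rw [hb, mul_zero, zero_add] at e11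
      exact mul_self_eq_zero.mp e11
    have hc : N 1 0 ≠ 0 := by
      intro hc
      apply hN0
      apply ext2 <;> simp [ha, hb, hc, hd]
    refine ⟨mk2 0 1 (N 1 0) 0, mk2 0 (N 1 0)⁻¹ 1 0, ?_, ?_, ?_⟩
    · apply ext2 <;> simp [mul_apply2, hc]
    · apply ext2 <;> simp [mul_apply2, hc]
    · apply ext2 <;> simp [mul_apply2, hc, ha, hb, hd]
  · have htr : N 0 0 + N 1 1 = 0 := by
      have : N 0 1 * (N 0 0 + N 1 1) = 0 := by linear_combination e01
      exact (mul_eq_zero.mp this).resolve_left hb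
    refine ⟨mk2 (N 0 1) 0 (N 1 1) 1, mk2 (N 0 1)⁻¹ 0 (-(N 1 1) * (N 0 1)⁻¹) 1, ?_, ?_, ?_⟩
    · apply ext2 <;> simp [mul_apply2, hb]
    · apply ext2 <;> simp [mul_apply2, hb]
    · apply ext2
      · simp only [mul_apply2, mk2_00, mk2_01, mk2_10, Emat_00]
        field_simp
        linear_combination htr
      · simp only [mul_apply2, mk2_00, mk2_01, mk2_11, Emat_01]
        field_simp
        ring
      · simp only [mul_apply2, mk2_00, mk2_10, mk2_11, Emat_10]
        field_simp
        linear_combination e00 - N 0 0 * htr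
      · simp only [mul_apply2, mk2_01, mk2_10, mk2_11, Emat_11]
        field_simp
        ring

/-- Irreducibility, in the form used here: no nilpotent line is stable. -/
def Irr (R : G →* Matrix (Fin 2) (Fin 2) k) : Prop :=
  ∀ N : Matrix (Fin 2) (Fin 2) k, N ≠ 0 → N * N = 0 → ∃ x : G, N * R x * N ≠ 0

/-- `τ` vanishes on every unipotent element of `ker χ`. -/
theorem TwCoc.tau_unip (h : TwCoc R χ c) (p : ℕ) [Fact p.Prime] [CharP k p] (hp2 : p ≠ 2)
    (hV : ∀ g, χ g = 1 → (R g).trace ^ 2 ≠ 4 → tau R c g = 0)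
    (h5 : p = 5 → ∃ γ : G, (χ γ : k) ^ 2 ≠ 1) (hirr : Irr R)
    {u : G} {N : Matrix (Fin 2) (Fin 2) k} (hN : R u = 1 + N) (hN0 : N ≠ 0)
    (hNN : N * N = 0) : tau R c u = 0 := by
  obtain ⟨P, P', hP, hP', hE⟩ := exists_normalise hN0 hNN
  obtain ⟨x, hx⟩ := hirr N hN0 hNN
  have h' := h.conj P P' hP hP'
  rw [← tau_conjHom P P' hP hP' u]
  refine h'.tau_unip_normalised p hp2 ?_ h5 (u := u) (x₀ := x) ?_ ?_
  · intro g hg hne
    rw [tau_conjHom]
    apply hV g hg
    rwa [conjHom_apply, conj_trace P P' hP'] at hne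
  · rw [conjHom_apply, hN, mul_add, add_mul, mul_one, hP, hE, Umat_eq]
  · intro h0
    apply hx
    have e : Emat * conjHom P P' hP hP' R x * Emat = 0 := by
      rw [Emat_mul_mul, h0, zero_smul]
    rw [conjHom_apply, ← hE, conj_mul P P' hP', conj_mul P P' hP'] at e
    exact conj_eq_zero P P' hP' e

/-- `τ` vanishes on `ker χ`. -/
theorem TwCoc.tau_all [Fintype k] (h : TwCoc R χ c) (p : ℕ) [Fact p.Prime] [CharP k p]
    (hp2 : p ≠ 2)
    (hsplit : ∀ g, ∃ α β : k, (R g).trace = α + β ∧ (R g).det = α * β)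
    (h5 : p = 5 → ∃ γ : G, (χ γ : k) ^ 2 ≠ 1) (hirr : Irr R) :
    ∀ g, χ g = 1 → tau R c g = 0 := by
  have hV : ∀ g, χ g = 1 → (R g).trace ^ 2 ≠ 4 → tau R c g = 0 := fun g hg hne =>
    h.tau_eq_zero_of_sq_ne hsplit hg hne
  have h2 : (2 : k) ≠ 0 := by
    have := natCast_ne_zero_of_prime (k := k) p Nat.prime_two hp2
    simpa using this
  have hU : ∀ u, χ u = 1 → (R u).trace = 2 → tau R c u = 0 := by
    intro u hu htr
    have hNN : (R u - 1) * (R u - 1) = 0 := by
      rw [sub_mul, mul_sub, mul_sub, mul_one, one_mul, mul_one, cayley, htr, h.det_one hu]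
      simp only [one_smul]
      module
    by_cases hN0 : R u - 1 = 0
    · have h1 : R u = 1 := sub_eq_zero.mp hN0
      unfold tau
      rw [h.ker u h1, zero_mul, Matrix.trace_zero]
    · exact h.tau_unip p hp2 hV h5 hirr (N := R u - 1) (by abel) hN0 hNN
  intro g hg
  by_cases hne : (R g).trace ^ 2 ≠ 4
  · exact hV g hg hne
  · push Not at hne
    have hmul := h.tau_mul hg hg
    have ht1 : tau R c (g * g⁻¹) = 0 := by
      unfold tau
      rw [mul_inv_cancel, h.c_one, zero_mul, Matrix.trace_zero]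
    have hgg : χ (g * g) = 1 := by rw [map_mul, hg, one_mul]
    have htr2 : (R (g * g)).trace = 2 := by
      rw [map_mul, cayley, Matrix.trace_sub, Matrix.trace_smul, Matrix.trace_smul,
        h.det_one hg, Matrix.trace_one]
      simp only [smul_eq_mul, Fintype.card_fin, Nat.cast_ofNat, one_mul]
      linear_combination hne
    rw [hU (g * g) hgg htr2, ht1] at hmul
    have htr0 : (R g).trace ≠ 0 := by
      intro h0
      rw [h0] at hne
      have h4 : (4 : k) = 0 := by linear_combination -hne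
      have : (4 : k) = 2 * 2 := by norm_num
      rw [this] at h4
      exact mul_ne_zero h2 h2 h4
    have h3 : (2 : k) * (R g).trace * tau R c g = 0 := by linear_combination -hmul
    exact (mul_eq_zero.mp h3).resolve_left (mul_ne_zero h2 htr0)

end Fermat.Agent.S56.TWS.H74
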