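import Fermat.Agent.S56.TWS.H74_Coc

set_option autoImplicit false

/-!
# TW-SELECT, package TWS-A (helper74): `τ` vanishes on unipotent elements

Normalised coordinates: `R u = !![1, 1; 0, 1]`.
-/

namespace Fermat.Agent.S56.TWS.H74

open Matrix

variable {k : Type} [Field k] {G : Type} [Group G]
variable {R : G →* Matrix (Fin 2) (Fin 2) k} {χ : G →* kˣ}
  {c : G → Matrix (Fin 2) (Fin 2) k}

/-- `(1 + N) ^ n = 1 + n N` for `N ^ 2 = 0`. -/
theorem one_add_pow_of_sq {N : Matrix (Fin 2) (Fin 2) k} (hN : N * N = 0) (n : ℕ) :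
    (1 + N) ^ n = 1 + (n : k) • N := by
  induction n with
  | zero => simp
  | succ n ih =>
    rw [pow_succ, ih, add_mul, mul_add, mul_add, one_mul, mul_one, Matrix.smul_mul, hN,
      smul_zero, add_zero, one_mul]
    push_cast
    module

/-- `τ (v ^ b) = b² τ v` for `R v = 1 + N`, `N ^ 2 = 0`. -/
theorem TwCoc.tau_pow_unip (h : TwCoc R χ c) {v : G} (hv : χ v = 1)
    {N : Matrix (Fin 2) (Fin 2) k} (hN : R v = 1 + N) (hNN : N * N = 0) (b : ℕ) :
    tau R c (v ^ b) = (b : k) ^ 2 * tau R c v := by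
  unfold tau
  have hcomm : Commute N (R v) := by
    rw [hN]
    exact (Commute.one_right N).add_right (Commute.refl N)
  have h1 := h.trace_pow hv N hcomm b
  rw [map_pow, hN, one_add_pow_of_sq hNN, mul_add, mul_one, Matrix.trace_add, h.tr,
    Matrix.mul_smul, Matrix.trace_smul, h1, mul_add, mul_one, Matrix.trace_add, h.tr]
  simp only [smul_eq_mul]
  ring

/-- The trace of `(1 + N) (1 + N')` for trace-zero `N`, `N'`. -/
theorem trace_one_add_mul {N N' : Matrix (Fin 2) (Fin 2) k} (hN : N.trace = 0)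
    (hN' : N'.trace = 0) : ((1 + N) * (1 + N')).trace = 2 + (N * N').trace := by
  rw [add_mul, mul_add, mul_add, one_mul, one_mul, mul_one, Matrix.trace_add, Matrix.trace_add,
    Matrix.trace_add, hN, hN', Matrix.trace_one]
  simp

/-- The relation between two unipotent elements `v`, `w` of `ker χ`. -/
theorem TwCoc.pair_rel (h : TwCoc R χ c)
    (hV : ∀ g, χ g = 1 → (R g).trace ^ 2 ≠ 4 → tau R c g = 0)
    {v w : G} (hv : χ v = 1) (hw : χ w = 1) {N N' : Matrix (Fin 2) (Fin 2) k}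
    (hN : R v = 1 + N) (hNN : N * N = 0) (hNt : N.trace = 0)
    (hN' : R w = 1 + N') (hNN' : N' * N' = 0) (hNt' : N'.trace = 0)
    (h2 : (2 : k) ≠ 0) (a b : ℕ)
    (hy0 : (a : k) * b * (N * N').trace ≠ 0) (hy : ((a : k) * b * (N * N').trace) ^ 2 ≠ 16) :
    (a : k) ^ 2 * tau R c v + (b : k) ^ 2 * tau R c w = 0 := by
  set y : k := (a : k) * b * (N * N').trace with hydef
  have hva : χ (v ^ a) = 1 := chi_pow hv a
  have hwb : χ (w ^ b) = 1 := chi_pow hw b
  have hRa : R (v ^ a) = 1 + (a : k) • N := by rw [map_pow, hN, one_add_pow_of_sq hNN]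
  have hRb : R (w ^ b) = 1 + (b : k) • N' := by rw [map_pow, hN', one_add_pow_of_sq hNN']
  have hRbinv : R (w ^ b)⁻¹ = 1 + (-(b : k)) • N' := by
    have h1 : (1 + (-(b : k)) • N') * R (w ^ b) = 1 := by
      rw [hRb, add_mul, mul_add, mul_add, one_mul, one_mul, mul_one, Matrix.smul_mul,
        Matrix.mul_smul, hNN', smul_zero, smul_zero, add_zero]
      rw [neg_smul]
      abel
    calc R (w ^ b)⁻¹ = (1 + (-(b : k)) • N') * R (w ^ b) * R (w ^ b)⁻¹ := by rw [h1, one_mul]
      _ = 1 + (-(b : k)) • N' := by rw [mul_assoc, R_mul_inv, mul_one]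
  have hta : ((a : k) • N).trace = 0 := by rw [Matrix.trace_smul, hNt, smul_zero]
  have htb : ((b : k) • N').trace = 0 := by rw [Matrix.trace_smul, hNt', smul_zero]
  have htb' : ((-(b : k)) • N').trace = 0 := by rw [Matrix.trace_smul, hNt', smul_zero]
  have htr1 : (R (v ^ a * w ^ b)).trace = 2 + y := by
    rw [map_mul, hRa, hRb, trace_one_add_mul hta htb, Matrix.smul_mul, Matrix.mul_smul,
      Matrix.trace_smul, Matrix.trace_smul, hydef]
    simp only [smul_eq_mul]
    ring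
  have htr2 : (R (v ^ a * (w ^ b)⁻¹)).trace = 2 - y := by
    rw [map_mul, hRa, hRbinv, trace_one_add_mul hta htb', Matrix.smul_mul, Matrix.mul_smul,
      Matrix.trace_smul, Matrix.trace_smul, hydef]
    simp only [smul_eq_mul]
    ring
  have hz1 : tau R c (v ^ a * w ^ b) = 0 := by
    apply hV _ (by rw [map_mul, hva, hwb, one_mul])
    rw [htr1]
    intro hc
    have : y * (y + 4) = 0 := by linear_combination hc
    rcases mul_eq_zero.mp this with h0 | h0
    · exact hy0 h0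
    · apply hy
      have : y = -4 := by linear_combination h0
      rw [this]; norm_num
  have hz2 : tau R c (v ^ a * (w ^ b)⁻¹) = 0 := by
    apply hV _ (by rw [map_mul, map_inv, hva, hwb, inv_one, one_mul])
    rw [htr2]
    intro hc
    have : y * (y - 4) = 0 := by linear_combination hc
    rcases mul_eq_zero.mp this with h0 | h0
    · exact hy0 h0
    · apply hy
      have : y = 4 := by linear_combination h0
      rw [this]; norm_num
  have hmul := h.tau_mul hva hwb
  rw [hz1, hz2, h.tau_pow_unip hv hN hNN, h.tau_pow_unip hw hN' hNN', hRa, hRb,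
    Matrix.trace_add, Matrix.trace_add, hta, htb, Matrix.trace_one] at hmul
  simp only [Fintype.card_fin, Nat.cast_ofNat, add_zero] at hmul
  have h3 : (2 : k) * ((a : k) ^ 2 * tau R c v + (b : k) ^ 2 * tau R c w) = 0 := by
    linear_combination -hmul
  rcases mul_eq_zero.mp h3 with h4 | h4
  · exact absurd h4 h2
  · exact h4

/-! ### Field lemmas -/

theorem field_K (s χ₀ t : k) (hs : s ≠ 0) (h2 : (2 : k) ≠ 0) (h3 : (3 : k) ≠ 0)
    (h5 : (5 : k) ≠ 0)
    (H : ∀ a b : ℕ, (a : k) * b * s ≠ 0 → ((a : k) * b * s) ^ 2 ≠ 16 →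
      ((a : k) ^ 2 + χ₀ * (b : k) ^ 2) * t = 0) : t = 0 := by
  by_contra ht
  have H' : ∀ a b : ℕ, (a : k) * b * s ≠ 0 → ((a : k) * b * s) ^ 2 ≠ 16 →
      (a : k) ^ 2 + χ₀ * (b : k) ^ 2 = 0 := fun a b h0 h1 =>
    (mul_eq_zero.mp (H a b h0 h1)).resolve_right ht
  have e1 := H' 1 1
  have e2 := H' 2 1
  have e3 := H' 3 1
  simp only [Nat.cast_one, Nat.cast_ofNat, mul_one, one_mul, one_pow] at e1 e2 e3
  have n2 : (2 : k) * s ≠ 0 := mul_ne_zero h2 hs
  have n3 : (3 : k) * s ≠ 0 := mul_ne_zero h3 hs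
  have h4 : (4 : k) ≠ 0 := by
    have : (4 : k) = 2 * 2 := by norm_num
    rw [this]; exact mul_ne_zero h2 h2
  have h8 : (8 : k) ≠ 0 := by
    have : (8 : k) = 2 * 4 := by norm_num
    rw [this]; exact mul_ne_zero h2 h4
  by_cases c1 : s ^ 2 = 16
  · have c2 : ((2 : k) * s) ^ 2 ≠ 16 := by
      intro hc
      have : (16 : k) * 3 = 0 := by linear_combination hc - 4 * c1
      rcases mul_eq_zero.mp this with h | h
      · have : (16 : k) = 4 * 4 := by norm_num
        rw [this] at h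
        exact mul_ne_zero h4 h4 h
      · exact h3 h
    have c3 : ((3 : k) * s) ^ 2 ≠ 16 := by
      intro hc
      have : (16 : k) * 8 = 0 := by linear_combination hc - 9 * c1
      rcases mul_eq_zero.mp this with h | h
      · have : (16 : k) = 4 * 4 := by norm_num
        rw [this] at h
        exact mul_ne_zero h4 h4 h
      · exact h8 h
    have f2 := e2 n2 c2
    have f3 := e3 n3 c3
    apply h5
    linear_combination f3 - f2
  · have f1 := e1 hs c1
    by_cases c2 : ((2 : k) * s) ^ 2 = 16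
    · have c3 : ((3 : k) * s) ^ 2 ≠ 16 := by
        intro hc
        have : (4 : k) * 5 * 4 = 0 := by linear_combination 4 * hc - 9 * c2
        rcases mul_eq_zero.mp this with h | h
        · exact mul_ne_zero h4 h5 h
        · exact h4 h
      have f3 := e3 n3 c3
      apply h8
      linear_combination f3 - f1
    · have f2 := e2 n2 c2
      apply h3
      linear_combination f2 - f1

theorem field_K5 (s χ₀ t : k) (hs : s ≠ 0) (h2 : (2 : k) ≠ 0) (h3 : (3 : k) ≠ 0)
    (h5 : (5 : k) = 0)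
    (H : ∀ a b : ℕ, (a : k) * b * s ≠ 0 → ((a : k) * b * s) ^ 2 ≠ 16 →
      ((a : k) ^ 2 + χ₀ * (b : k) ^ 2) * t = 0) (ht : t ≠ 0) : χ₀ ^ 2 = 1 := by
  have H' : ∀ a b : ℕ, (a : k) * b * s ≠ 0 → ((a : k) * b * s) ^ 2 ≠ 16 →
      (a : k) ^ 2 + χ₀ * (b : k) ^ 2 = 0 := fun a b h0 h1 =>
    (mul_eq_zero.mp (H a b h0 h1)).resolve_right ht
  have e1 := H' 1 1
  have e2 := H' 2 1
  simp only [Nat.cast_one, Nat.cast_ofNat, mul_one, one_mul, one_pow] at e1 e2
  have n2 : (2 : k) * s ≠ 0 := mul_ne_zero h2 hs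
  by_cases c1 : s ^ 2 = 16
  · have c2 : ((2 : k) * s) ^ 2 ≠ 16 := by
      intro hc
      have : (3 : k) = 0 := by linear_combination hc - 4 * c1 - 9 * h5
      exact h3 this
    have f2 := e2 n2 c2
    have : χ₀ = -4 := by linear_combination f2
    rw [this]
    linear_combination 3 * h5
  · have f1 := e1 hs c1
    have : χ₀ = -1 := by linear_combination f1
    rw [this]
    ring

/-! ### Normalised coordinates -/

/-- The standard unipotent matrix. -/
def Umat : Matrix (Fin 2) (Fin 2) k := !![1, 1; 0, 1]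

/-- The standard nilpotent matrix. -/
def Emat : Matrix (Fin 2) (Fin 2) k := !![0, 1; 0, 0]

/-- The inverse of the standard unipotent matrix. -/
def Vmat : Matrix (Fin 2) (Fin 2) k := !![1, -1; 0, 1]

@[simp] theorem Umat_00 : (Umat : Matrix (Fin 2) (Fin 2) k) 0 0 = 1 := rfl
@[simp] theorem Umat_01 : (Umat : Matrix (Fin 2) (Fin 2) k) 0 1 = 1 := rfl
@[simp] theorem Umat_10 : (Umat : Matrix (Fin 2) (Fin 2) k) 1 0 = 0 := rfl
@[simp] theorem Umat_11 : (Umat : Matrix (Fin 2) (Fin 2) k) 1 1 = 1 := rfl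
@[simp] theorem Emat_00 : (Emat : Matrix (Fin 2) (Fin 2) k) 0 0 = 0 := rfl
@[simp] theorem Emat_01 : (Emat : Matrix (Fin 2) (Fin 2) k) 0 1 = 1 := rfl
@[simp] theorem Emat_10 : (Emat : Matrix (Fin 2) (Fin 2) k) 1 0 = 0 := rfl
@[simp] theorem Emat_11 : (Emat : Matrix (Fin 2) (Fin 2) k) 1 1 = 0 := rfl
@[simp] theorem Vmat_00 : (Vmat : Matrix (Fin 2) (Fin 2) k) 0 0 = 1 := rfl
@[simp] theorem Vmat_01 : (Vmat : Matrix (Fin 2) (Fin 2) k) 0 1 = -1 := rfl
@[simp] theorem Vmat_10 : (Vmat : Matrix (Fin 2) (Fin 2) k) 1 0 = 0 := rfl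
@[simp] theorem Vmat_11 : (Vmat : Matrix (Fin 2) (Fin 2) k) 1 1 = 1 := rfl

omit [Field k] in
/-- Equality of `2 × 2` matrices, entrywise. -/
theorem ext2 {A B : Matrix (Fin 2) (Fin 2) k} (h00 : A 0 0 = B 0 0) (h01 : A 0 1 = B 0 1)
    (h10 : A 1 0 = B 1 0) (h11 : A 1 1 = B 1 1) : A = B := by
  ext i j
  fin_cases i <;> fin_cases j
  · exact h00
  · exact h01
  · exact h10
  · exact h11

theorem trace2 (A : Matrix (Fin 2) (Fin 2) k) : A.trace = A 0 0 + A 1 1 := by
  simp [Matrix.trace, Fin.sum_univ_two]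

theorem Umat_eq : (Umat : Matrix (Fin 2) (Fin 2) k) = 1 + Emat := by
  apply ext2 <;> simp

theorem Emat_sq : (Emat : Matrix (Fin 2) (Fin 2) k) * Emat = 0 := by
  apply ext2 <;> simp [Matrix.mul_apply, Fin.sum_univ_two]

theorem Emat_trace : (Emat : Matrix (Fin 2) (Fin 2) k).trace = 0 := by
  simp [trace2]

theorem Emat_mul_mul (A : Matrix (Fin 2) (Fin 2) k) : Emat * A * Emat = A 1 0 • Emat := by
  apply ext2 <;> simp [Matrix.mul_apply, Fin.sum_univ_two]

theorem chi_eq_one_of_det (h : TwCoc R χ c) {u : G} (hu : (R u).det = 1) : χ u = 1 := by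
  apply Units.ext
  rw [← h.det, hu, Units.val_one]

theorem chi_of_Umat (h : TwCoc R χ c) {u : G} (hu : R u = Umat) : χ u = 1 := by
  apply chi_eq_one_of_det h
  rw [hu, Matrix.det_fin_two]
  simp

/-- The `(1,0)` entry of the inverse. -/
theorem inv_apply_10 {A B : Matrix (Fin 2) (Fin 2) k} (hBA : B * A = 1) :
    B 1 0 * A.det = - A 1 0 := by
  have e1 : (B * A) 1 0 = 0 := by rw [hBA]; simp
  have e2 : (B * A) 1 1 = 1 := by rw [hBA]; simp
  simp only [Matrix.mul_apply, Fin.sum_univ_two] at e1 e2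
  rw [Matrix.det_fin_two]
  linear_combination A 1 1 * e1 - A 1 0 * e2

/-- The conjugate of the standard unipotent by `x`. -/
theorem conj_data (h : TwCoc R χ c) {u : G} (hu : R u = Umat) (x : G) :
    R (x * u * x⁻¹) = 1 + R x * Emat * R x⁻¹ ∧
      (R x * Emat * R x⁻¹) * (R x * Emat * R x⁻¹) = 0 ∧ (R x * Emat * R x⁻¹).trace = 0 ∧
      (Emat * (R x * Emat * R x⁻¹)).trace * (χ x : k) = - (R x 1 0) ^ 2 := by
  refine ⟨?_, ?_, ?_, ?_⟩
  · rw [map_mul, map_mul, hu, Umat_eq, mul_add, add_mul, mul_one, R_mul_inv]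
  · calc (R x * Emat * R x⁻¹) * (R x * Emat * R x⁻¹)
        = R x * (Emat * (R x⁻¹ * R x) * Emat) * R x⁻¹ := by simp only [mul_assoc]
      _ = 0 := by rw [R_inv_mul, mul_one, Emat_sq, mul_zero, zero_mul]
  · rw [mul_assoc, Matrix.trace_mul_comm, mul_assoc, R_inv_mul, mul_one, Emat_trace]
  · have e : (Emat * (R x * Emat * R x⁻¹)).trace = R x 1 0 * R x⁻¹ 1 0 := by
      rw [← mul_assoc, ← mul_assoc, Emat_mul_mul, Matrix.smul_mul, Matrix.trace_smul, trace2]
      simp [Matrix.mul_apply, Fin.sum_univ_two]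
    rw [e, ← h.det x]
    linear_combination R x 1 0 * inv_apply_10 (R_inv_mul R x)

/-- The basic relation in normalised coordinates. -/
theorem TwCoc.rel_normalised (h : TwCoc R χ c)
    (hV : ∀ g, χ g = 1 → (R g).trace ^ 2 ≠ 4 → tau R c g = 0) (h2 : (2 : k) ≠ 0)
    {u : G} (hu : R u = Umat) (x : G) (a b : ℕ)
    (hy0 : (a : k) * b * (Emat * (R x * Emat * R x⁻¹)).trace ≠ 0)
    (hy : ((a : k) * b * (Emat * (R x * Emat * R x⁻¹)).trace) ^ 2 ≠ 16) :
    ((a : k) ^ 2 + (χ x : k) * (b : k) ^ 2) * tau R c u = 0 := by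
  obtain ⟨hRw, hNN', hNt', -⟩ := conj_data h hu x
  have hχu := chi_of_Umat h hu
  have hχw : χ (x * u * x⁻¹) = 1 := by
    rw [map_mul, map_mul, hχu, mul_one, map_inv, mul_inv_cancel]
  have key := h.pair_rel hV hχu hχw (hu.trans Umat_eq) Emat_sq Emat_trace hRw hNN' hNt' h2 a b
    hy0 hy
  rw [h.tau_conj hχu x] at key
  linear_combination key

/-- Characteristic `3`: `τ` vanishes on the standard unipotent. -/
theorem TwCoc.tau_unip_three (h : TwCoc R χ c) (h3 : (3 : k) = 0) {u : G} (hu : R u = Umat) :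
    tau R c u = 0 := by
  have hχu := chi_of_Umat h hu
  have hinv : R u⁻¹ = Vmat := by
    rw [inv_of_det_one (h.det_one hχu) (R_inv_mul R u), hu]
    apply ext2 <;> simp [trace2]
  have hR3 : R (u * (u * u)) = 1 := by
    rw [map_mul, map_mul, hu]
    apply ext2 <;> simp [Matrix.mul_apply, Fin.sum_univ_two]
    linear_combination h3
  have hc3 := h.ker _ hR3
  rw [h.mul_of_one hχu, h.mul_of_one hχu, hu, hinv] at hc3
  have htr : c u 0 0 + c u 1 1 = 0 := by
    rw [← trace2]; exact h.tr u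
  have e := congrFun (congrFun hc3 0) 1
  simp [Matrix.mul_apply, Fin.sum_univ_two, Matrix.add_apply] at e
  unfold tau
  rw [hu, trace2]
  simp [Matrix.mul_apply, Fin.sum_univ_two]
  linear_combination e + (2 * c u 1 0 - c u 0 1 - c u 1 1 + c u 0 0) * h3 + htr

theorem natCast_ne_zero_of_prime (p : ℕ) [Fact p.Prime] [CharP k p] {n : ℕ} (hn : n.Prime)
    (hpn : p ≠ n) : ((n : ℕ) : k) ≠ 0 := by
  intro h0
  rw [CharP.cast_eq_zero_iff k p] at h0
  exact hpn ((Nat.prime_dvd_prime_iff_eq Fact.out hn).mp h0)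

/-- `τ` vanishes on the standard unipotent (all odd characteristics). -/
theorem TwCoc.tau_unip_normalised (h : TwCoc R χ c) (p : ℕ) [Fact p.Prime] [CharP k p]
    (hp2 : p ≠ 2)
    (hV : ∀ g, χ g = 1 → (R g).trace ^ 2 ≠ 4 → tau R c g = 0)
    (h5 : p = 5 → ∃ γ : G, (χ γ : k) ^ 2 ≠ 1)
    {u : G} (hu : R u = Umat) {x₀ : G} (hx₀ : R x₀ 1 0 ≠ 0) : tau R c u = 0 := by
  have h2 : (2 : k) ≠ 0 := by
    have := natCast_ne_zero_of_prime (k := k) p Nat.prime_two hp2
    simpa using this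
  by_cases hp3 : p = 3
  · apply h.tau_unip_three _ hu
    have : ((3 : ℕ) : k) = 0 := by
      rw [CharP.cast_eq_zero_iff k p, hp3]
    simpa using this
  have h3 : (3 : k) ≠ 0 := by
    have := natCast_ne_zero_of_prime (k := k) p Nat.prime_three hp3
    simpa using this
  have hs : ∀ x : G, R x 1 0 ≠ 0 → (Emat * (R x * Emat * R x⁻¹)).trace ≠ 0 := by
    intro x hx hs0
    have e := (conj_data h hu x).2.2.2
    rw [hs0, zero_mul] at e
    have : R x 1 0 ^ 2 = 0 := by linear_combination e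
    exact hx (pow_eq_zero_iff (two_ne_zero) |>.mp this)
  by_cases hp5 : p = 5
  · by_contra ht
    have h50 : (5 : k) = 0 := by
      have : ((5 : ℕ) : k) = 0 := by rw [CharP.cast_eq_zero_iff k p, hp5]
      simpa using this
    have K5 : ∀ x : G, R x 1 0 ≠ 0 → (χ x : k) ^ 2 = 1 := fun x hx =>
      field_K5 _ _ _ (hs x hx) h2 h3 h50 (fun a b h0 h1 => h.rel_normalised hV h2 hu x a b h0 h1) ht
    obtain ⟨γ, hγ⟩ := h5 hp5
    have hγ0 : R γ 1 0 = 0 := by
      by_contra hne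
      exact hγ (K5 γ hne)
    have hx2 := K5 x₀ hx₀
    have hxγ : R (x₀ * γ) 1 0 = 0 := by
      by_contra hne
      have := K5 (x₀ * γ) hne
      rw [map_mul, Units.val_mul, mul_pow, hx2, one_mul] at this
      exact hγ this
    rw [map_mul, Matrix.mul_apply, Fin.sum_univ_two, hγ0, mul_zero, add_zero] at hxγ
    have hγ00 : R γ 0 0 = 0 := (mul_eq_zero.mp hxγ).resolve_left hx₀
    have hdet := h.det γ
    rw [Matrix.det_fin_two, hγ00, hγ0, zero_mul, mul_zero, sub_zero] at hdet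
    exact (χ γ).ne_zero hdet.symm
  · have h5' : (5 : k) ≠ 0 := by
      have := natCast_ne_zero_of_prime (k := k) p (by norm_num : Nat.Prime 5) hp5
      simpa using this
    exact field_K _ _ _ (hs x₀ hx₀) h2 h3 h5'
      (fun a b h0 h1 => h.rel_normalised hV h2 hu x₀ a b h0 h1)

end Fermat.Agent.S56.TWS.H74
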